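import Fermat.Agent.S48lib.X1.Gal.AllQuad
import Fermat.Agent.S29lib.X.Main

/-!
S48lib / X1 / Gal / Exact (helper9, block P8).

PARAM port of `S29lib/X/Main` (`commute_of_bad`) with an arbitrary determinant character `δ`
(finite level, unramified outside `S`) instead of the mod `p` cyclotomic character:
for a 2-dimensional `QuadRep`, if some Frobenius element outside `S` has the wrong
characteristic polynomial then the image is commutative.
-/

set_option autoImplicit false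
set_option linter.style.haveILetI false
set_option linter.unusedSectionVars false

noncomputable section

namespace Fermat.Agent.S48lib.X1.Gal

open Polynomial Fermat.Agent.S29lib.X

/-- `ℚ̄` -/
local notation "Qb" => AlgebraicClosure ℚ
/-- `G_ℚ` -/
local notation "GQ" => (AlgebraicClosure ℚ ≃ₐ[ℚ] AlgebraicClosure ℚ)

variable {k : Type} [Field k] {S : Finset ℕ} {abar : ℕ → k} {δ : GQ →* kˣ}

/-- `δ` is unramified outside `S`. -/
def UnramOutside (δ : GQ →* kˣ) (S : Finset ℕ) : Prop :=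
  ∀ p : ℕ, p.Prime → p ∉ S → ∀ A : ValuationSubring Qb, A.LiesOverPrime p →
    ∀ σ ∈ A.inertiaSubgroupIn ℚ, δ σ = 1

/-- the determinant character of a `QuadRep`. -/
def QuadRep.detChar (R : QuadRep k S abar δ) : GQ →* kˣ :=
  ((LinearMap.det : Module.End k R.W →* k).comp R.ρ).toHomUnits

theorem QuadRep.coe_detChar (R : QuadRep k S abar δ) (σ : GQ) :
    ((R.detChar σ : kˣ) : k) = LinearMap.det (R.ρ σ) := rfl

/-- **Frobenius dichotomy** for a 2-dimensional `QuadRep`. -/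
theorem QuadRep.frob_dichotomy (R : QuadRep k S abar δ) (h2 : Module.finrank k R.W = 2)
    {p : ℕ} (hp : p.Prime) (hpS : p ∉ S) {A : ValuationSubring Qb} (hA : A.LiesOverPrime p)
    {σ : GQ} (hσ : A.IsFrobeniusAt σ p) :
    (LinearMap.charpoly (R.ρ σ) = X ^ 2 - C (abar p) * X + C ((δ σ : kˣ) : k) ∧
        LinearMap.det (R.ρ σ) = ((δ σ : kˣ) : k)) ∨
      ∃ α : k, R.ρ σ = α • (1 : Module.End k R.W) ∧
        α * α - abar p * α + ((δ σ : kˣ) : k) = 0 := by
  rcases quadratic_dichotomy h2 (R.ρ σ) (abar p) ((δ σ : kˣ) : k)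
    (R.frob p hp hpS A hA σ hσ) with ⟨ht, hd⟩ | hα
  · left
    refine ⟨?_, hd⟩
    rw [charpoly_eq_of_finrank_two h2, ht, hd]
  · exact Or.inr hα

/-- **Bad case ⇒ abelian image.** -/
theorem QuadRep.commute_of_bad (R : QuadRep k S abar δ) (h2 : Module.finrank k R.W = 2)
    (hδ : GaloisFactorsThroughFiniteLevel δ) (hδu : UnramOutside δ S)
    {p₀ : ℕ} (hp₀ : p₀.Prime) (hp₀S : p₀ ∉ S) {A₀ : ValuationSubring Qb}
    (hA₀ : A₀.LiesOverPrime p₀) {σ₀ : GQ} (hσ₀ : A₀.IsFrobeniusAt σ₀ p₀)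
    (hbad : LinearMap.charpoly (R.ρ σ₀) ≠ X ^ 2 - C (abar p₀) * X + C ((δ σ₀ : kˣ) : k)) :
    ∀ σ τ : GQ, Commute (R.ρ σ) (R.ρ τ) := by
  classical
  -- structure of the bad Frobenius
  obtain ⟨α, hα, hquad⟩ : ∃ α : k, R.ρ σ₀ = α • (1 : Module.End k R.W) ∧
      α * α - abar p₀ * α + ((δ σ₀ : kˣ) : k) = 0 := by
    rcases R.frob_dichotomy h2 hp₀ hp₀S hA₀ hσ₀ with ⟨h1, -⟩ | h
    · exact absurd h1 hbad
    · exact h
  have hd0 : ((δ σ₀ : kˣ) : k) ≠ 0 := (δ σ₀).ne_zero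
  have hdet₀ : LinearMap.det (R.ρ σ₀) = α * α := by rw [hα, det_smul_one h2]
  have hαd : α * α ≠ ((δ σ₀ : kˣ) : k) := by
    intro hEq
    apply hbad
    have hα0 : α ≠ 0 := by
      rintro rfl
      rw [mul_zero] at hEq
      exact hd0 hEq.symm
    have hab : abar p₀ = 2 * α := by
      have h1 : α * (2 * α - abar p₀) = 0 := by
        have : α * (2 * α - abar p₀) =
            (α * α - abar p₀ * α + ((δ σ₀ : kˣ) : k)) + (α * α - ((δ σ₀ : kˣ) : k)) := by ring
        rw [this, hquad, hEq, sub_self, add_zero]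
      have := (mul_eq_zero.mp h1).resolve_left hα0
      exact (sub_eq_zero.mp this).symm
    rw [charpoly_eq_of_finrank_two h2, hα, trace_smul_one h2, det_smul_one h2, hab, hEq]
  -- the two subgroups
  set ψ : GQ →* kˣ := R.detChar / δ with hψ
  set N₁ : Subgroup GQ := ψ.ker with hN₁
  set N₂ : Subgroup GQ := scalarSubgroup R.ρ with hN₂
  have hmemN₁ : ∀ σ : GQ, σ ∈ N₁ ↔ LinearMap.det (R.ρ σ) = ((δ σ : kˣ) : k) := by
    intro σ
    rw [hN₁, MonoidHom.mem_ker, hψ, MonoidHom.div_apply, div_eq_one, ← Units.val_inj,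
      QuadRep.coe_detChar]
  -- openness
  obtain ⟨L₁, hL₁fd, hL₁⟩ := R.finiteLevel
  obtain ⟨L₂, hL₂fd, hL₂⟩ := hδ
  haveI := hL₁fd
  haveI := hL₂fd
  set L : IntermediateField ℚ Qb := L₁ ⊔ L₂ with hL
  haveI : FiniteDimensional ℚ L := IntermediateField.finiteDimensional_sup _ _
  have hLopen : IsOpen (L.fixingSubgroup : Set GQ) := L.fixingSubgroup_isOpen
  have hLρ : ∀ σ : GQ, σ ∈ L.fixingSubgroup → R.ρ σ = 1 := by
    intro σ hσ
    apply hL₁
    intro x hx
    exact (IntermediateField.mem_fixingSubgroup_iff _ _).mp hσ x (le_sup_left (a := L₁) hx)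
  have hLδ : ∀ σ : GQ, σ ∈ L.fixingSubgroup → δ σ = 1 := by
    intro σ hσ
    apply hL₂
    intro x hx
    exact (IntermediateField.mem_fixingSubgroup_iff _ _).mp hσ x (le_sup_right (b := L₂) hx)
  have hN₁open : IsOpen (N₁ : Set GQ) := by
    refine Subgroup.isOpen_mono (H₁ := L.fixingSubgroup) ?_ hLopen
    intro σ hσ
    rw [hmemN₁, hLρ σ hσ, hLδ σ hσ, map_one, Units.val_one]
  have hN₂open : IsOpen (N₂ : Set GQ) := by
    refine Subgroup.isOpen_mono (H₁ := L.fixingSubgroup) ?_ hLopen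
    intro σ hσ
    exact ⟨1, by rw [hLρ σ hσ, one_smul]⟩
  haveI : N₁.Normal := by rw [hN₁]; infer_instance
  haveI : N₂.Normal := by rw [hN₂]; infer_instance
  have hne : N₁ ≠ ⊤ := by
    intro htop
    have h1 : σ₀ ∈ N₁ := by rw [htop]; exact Subgroup.mem_top _
    rw [hmemN₁, hdet₀] at h1
    exact hαd h1
  have key := index_le_two_of_frobenius_cover N₁ N₂ hN₁open hN₂open S
    (fun p hp hpS A hA τ hτ => by
      have h1 : R.ρ τ = 1 := R.unram p hp hpS A hA τ hτ
      refine ⟨?_, ⟨1, by rw [h1, one_smul]⟩⟩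
      rw [hmemN₁, h1, hδu p hp hpS A hA τ hτ, map_one, Units.val_one])
    (fun p hp hpS => by
      obtain ⟨A, σ, hA, hσ⟩ := Fermat.Agent.Helper5.exists_isFrobeniusAt p hp
      refine ⟨A, σ, hA, hσ, ?_⟩
      rcases R.frob_dichotomy h2 hp hpS hA hσ with ⟨-, hd⟩ | ⟨β, hβ, -⟩
      · left
        rw [hmemN₁, hd]
      · right
        exact ⟨β, hβ⟩)
    hne
  intro σ τ
  exact commute_of_scalar R.ρ σ τ (key σ τ)

end Fermat.Agent.S48lib.X1.Gal
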