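import Fermat.Agent.S48lib.X1.Gal.CycloM
import Fermat.Agent.S48lib.X1.Gal.Exact

/-!
S48lib / X1 / Gal / DetChar (helper9, block P8).

The determinant character of the residual representation attached to a weight 2 eigenform of
level `M` and nebentypus `χ`:  `δ = χ̄_ℓ · (φ ∘ χ ∘ cyclo_M) : G_ℚ →* kˣ`, with

* finite level,
* unramified outside the primes of `M ℓ`,
* `δ(Frob_p) = p · φ(χ(p))` for `p ∤ M ℓ`.
-/

set_option autoImplicit false
set_option linter.style.haveILetI false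
set_option linter.unusedSectionVars false

noncomputable section

namespace Fermat.Agent.S48lib.X1.Gal

open Fermat.Agent.S29lib.X

/-- `ℚ̄` -/
local notation "Qb" => AlgebraicClosure ℚ
/-- `G_ℚ` -/
local notation "GQ" => (AlgebraicClosure ℚ ≃ₐ[ℚ] AlgebraicClosure ℚ)
/-- `ℤ̄ ⊆ ℂ` -/
local notation "Zb" => integralClosure ℤ ℂ

section Nebentypus

variable {M : ℕ} [NeZero M] (χ : DirichletCharacter ℂ M)

theorem isIntegral_dirichlet_unit (d : (ZMod M)ˣ) : IsIntegral ℤ (χ (d : ZMod M)) := by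
  have hpow : (χ (d : ZMod M)) ^ (Fintype.card (ZMod M)ˣ) = 1 := by
    rw [← map_pow, ← Units.val_pow_eq_pow_val, pow_card_eq_one, Units.val_one, map_one]
  exact ⟨Polynomial.X ^ (Fintype.card (ZMod M)ˣ) - 1,
    Polynomial.monic_X_pow_sub_C 1 Fintype.card_ne_zero, by
      rw [Polynomial.eval₂_sub, Polynomial.eval₂_pow, Polynomial.eval₂_X, Polynomial.eval₂_one,
        hpow, sub_self]⟩

/-- the nebentypus as a homomorphism `(ℤ/M)ˣ →* ℤ̄`. -/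
def chiZb : (ZMod M)ˣ →* Zb where
  toFun d := ⟨χ (d : ZMod M), isIntegral_dirichlet_unit χ d⟩
  map_one' := Subtype.ext (by simp)
  map_mul' a b := Subtype.ext (by simp)

theorem coe_chiZb (d : (ZMod M)ˣ) : ((chiZb χ d : Zb) : ℂ) = χ (d : ZMod M) := rfl

end Nebentypus

section Det

variable {M : ℕ} [NeZero M] (χ : DirichletCharacter ℂ M) (ℓ : ℕ) [Fact ℓ.Prime]
  {k : Type} [Field k] [CharP k ℓ] (φ : Zb →+* k)

/-- `φ ∘ χ ∘ cyclo_M : G_ℚ →* kˣ`. -/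
def nebChar : GQ →* kˣ :=
  (((φ : Zb →* k).comp (chiZb χ)).toHomUnits).comp (cycloM M)

theorem coe_nebChar (σ : GQ) :
    ((nebChar χ φ σ : kˣ) : k) = φ (chiZb χ (cycloM M σ)) := rfl

/-- the determinant character `χ̄_ℓ · (φ ∘ χ ∘ cyclo_M)`. -/
def detCharOf : GQ →* kˣ := chiBar ℓ k * nebChar χ φ

theorem coe_detCharOf (σ : GQ) :
    ((detCharOf χ ℓ φ σ : kˣ) : k) = ((chiBar ℓ k σ : kˣ) : k) * φ (chiZb χ (cycloM M σ)) := rfl

/-- the bad set: the primes dividing `M ℓ`. -/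
def badSet (M ℓ : ℕ) : Finset ℕ := (M * ℓ).primeFactors

theorem not_dvd_of_not_mem_badSet {M ℓ : ℕ} [NeZero M] [Fact ℓ.Prime] {p : ℕ} (hp : p.Prime)
    (hpS : p ∉ badSet M ℓ) : ¬ p ∣ M * ℓ := by
  intro hd
  apply hpS
  rw [badSet, Nat.mem_primeFactors]
  exact ⟨hp, hd, mul_ne_zero (NeZero.ne M) (Fact.out : ℓ.Prime).ne_zero⟩

theorem not_mem_badSet_of_not_dvd {M ℓ : ℕ} {p : ℕ} (hd : ¬ p ∣ M * ℓ) : p ∉ badSet M ℓ := by
  intro h
  rw [badSet, Nat.mem_primeFactors] at h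
  exact hd h.2.1

theorem nebChar_finiteLevel : GaloisFactorsThroughFiniteLevel (nebChar χ φ) := by
  obtain ⟨L, hL, h⟩ := cycloM_finiteLevel M
  refine ⟨L, hL, fun σ hσ => ?_⟩
  rw [nebChar, MonoidHom.comp_apply, h σ hσ, map_one]

theorem chiBar_finiteLevel : GaloisFactorsThroughFiniteLevel (chiBar ℓ k) :=
  ⟨Fermat.Agent.ExtVan.cycloField ℓ, Fermat.Agent.ExtVan.cycloField_finiteDimensional,
    fun _ hσ => chiBar_of_fixes_cycloField hσ⟩

theorem detCharOf_finiteLevel : GaloisFactorsThroughFiniteLevel (detCharOf χ ℓ φ) := by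
  obtain ⟨L₁, hL₁, h₁⟩ := chiBar_finiteLevel ℓ (k := k)
  obtain ⟨L₂, hL₂, h₂⟩ := nebChar_finiteLevel χ φ
  haveI := hL₁
  haveI := hL₂
  refine ⟨L₁ ⊔ L₂, IntermediateField.finiteDimensional_sup L₁ L₂, fun σ hσ => ?_⟩
  rw [detCharOf, MonoidHom.mul_apply,
    h₁ σ (fun x hx => hσ x ((le_sup_left : L₁ ≤ L₁ ⊔ L₂) hx)),
    h₂ σ (fun x hx => hσ x ((le_sup_right : L₂ ≤ L₁ ⊔ L₂) hx)), one_mul]

theorem detCharOf_unramOutside : UnramOutside (detCharOf χ ℓ φ) (badSet M ℓ) := by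
  intro p hp hpS A hA σ hσ
  have hd := not_dvd_of_not_mem_badSet hp hpS
  have hpM : ¬ p ∣ M := fun h => hd (Dvd.dvd.mul_right h ℓ)
  have hpℓ : p ≠ ℓ := fun h => hd (h ▸ Dvd.intro_left M rfl)
  rw [detCharOf, MonoidHom.mul_apply, chiBar_of_mem_inertia hp hpℓ hA hσ, nebChar,
    MonoidHom.comp_apply, cycloM_of_mem_inertia hp hpM hA hσ, map_one, one_mul]

/-- `δ(Frob_p) = p · φ(c)` where `c = χ(p)`. -/
theorem detCharOf_of_isFrobeniusAt {p : ℕ} (hp : p.Prime) (hd : ¬ p ∣ M * ℓ)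
    {A : ValuationSubring Qb} (hA : A.LiesOverPrime p) {σ : GQ} (hσ : A.IsFrobeniusAt σ p)
    (c : Zb) (hc : (c : ℂ) = χ (p : ZMod M)) :
    ((detCharOf χ ℓ φ σ : kˣ) : k) = (p : k) * φ c := by
  have hpM : ¬ p ∣ M := fun h => hd (Dvd.dvd.mul_right h ℓ)
  have hpℓ : p ≠ ℓ := fun h => hd (h ▸ Dvd.intro_left M rfl)
  rw [coe_detCharOf, chiBar_of_isFrobeniusAt hp hpℓ hA hσ]
  congr 2
  apply Subtype.ext
  rw [coe_chiZb, cycloM_of_isFrobeniusAt hp hpM hA hσ, hc]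

end Det

end Fermat.Agent.S48lib.X1.Gal
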