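import Fermat.Agent.S29lib.X.Main

/-!
S48lib / X1 / Gal / DiagSS (helper9, block P8).

The diagonal representation `c ⊕ d` on `k²` (`S29lib.X.diagRep`) is semisimple: every subspace
`U` of `k²` has a complement which is one of `⊥`, `⊤`, or a coordinate axis, and the coordinate
axes are stable under every diagonal matrix.
-/

set_option autoImplicit false

noncomputable section

namespace Fermat.Agent.S48lib.X1.Gal

open Fermat.Agent.S29lib.X

variable {k : Type*} [Field k]

/-- the `i`-th coordinate axis of `k²`. -/
def axis (i : Fin 2) : Submodule k (Fin 2 → k) := Submodule.span k {Pi.single i 1}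

theorem mem_axis_iff (i : Fin 2) (x : Fin 2 → k) : x ∈ axis (k := k) i ↔ ∀ j, j ≠ i → x j = 0 := by
  rw [axis, Submodule.mem_span_singleton]
  constructor
  · rintro ⟨t, rfl⟩ j hj
    simp [Pi.single_apply, hj]
  · intro h
    refine ⟨x i, ?_⟩
    funext j
    by_cases hj : j = i
    · subst hj; simp
    · simp [Pi.single_apply, hj, h j hj]

theorem isCompl_axis : IsCompl (axis (k := k) 0) (axis (k := k) 1) := by
  rw [isCompl_iff, disjoint_iff, codisjoint_iff]
  constructor
  · rw [eq_bot_iff]
    intro x hx
    rw [Submodule.mem_inf, mem_axis_iff, mem_axis_iff] at hx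
    rw [Submodule.mem_bot]
    funext j
    fin_cases j
    · exact hx.2 0 (by decide)
    · exact hx.1 1 (by decide)
  · rw [eq_top_iff]
    intro x _
    rw [Submodule.mem_sup]
    refine ⟨Pi.single 0 (x 0), ?_, Pi.single 1 (x 1), ?_, ?_⟩
    · rw [mem_axis_iff]; intro j hj; simp [Pi.single_apply, hj]
    · rw [mem_axis_iff]; intro j hj; simp [Pi.single_apply, hj]
    · funext j
      fin_cases j <;> simp

/-- every subspace of `k²` has a complement among `⊥`, `⊤`, `axis 0`, `axis 1`. -/
theorem exists_isCompl_axis (U : Submodule k (Fin 2 → k)) :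
    ∃ W' : Submodule k (Fin 2 → k),
      (W' = ⊥ ∨ W' = ⊤ ∨ W' = axis 0 ∨ W' = axis 1) ∧ IsCompl U W' := by
  classical
  by_cases hbot : U = ⊥
  · exact ⟨⊤, Or.inr (Or.inl rfl), hbot ▸ isCompl_bot_top⟩
  by_cases htop : U = ⊤
  · exact ⟨⊥, Or.inl rfl, htop ▸ isCompl_top_bot⟩
  by_cases h1 : ∃ u ∈ U, u 1 ≠ 0
  · -- complement `axis 0`
    obtain ⟨u, hu, hu1⟩ := h1
    refine ⟨axis 0, Or.inr (Or.inr (Or.inl rfl)), ?_⟩
    rw [isCompl_iff, disjoint_iff, codisjoint_iff]
    constructor
    · rw [eq_bot_iff]
      intro x hx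
      rw [Submodule.mem_inf, mem_axis_iff] at hx
      rw [Submodule.mem_bot]
      by_contra hx0
      have hx1 : x 1 = 0 := hx.2 1 (by decide)
      have hx00 : x 0 ≠ 0 := by
        intro h0
        apply hx0
        funext j
        fin_cases j
        · exact h0
        · exact hx1
      -- then `U = ⊤`
      apply htop
      rw [eq_top_iff]
      intro w _
      have hw : w = ((w 0 - w 1 * u 0 / u 1) / x 0) • x + (w 1 / u 1) • u := by
        funext j
        fin_cases j
        · simp only [Fin.zero_eta, Pi.add_apply, Pi.smul_apply, smul_eq_mul]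
          field_simp
          ring
        · simp only [Fin.mk_one, Pi.add_apply, Pi.smul_apply, smul_eq_mul, hx1, mul_zero,
            zero_add]
          field_simp
      rw [hw]
      exact U.add_mem (U.smul_mem _ hx.1) (U.smul_mem _ hu)
    · rw [eq_top_iff]
      intro w _
      rw [Submodule.mem_sup]
      refine ⟨(w 1 / u 1) • u, U.smul_mem _ hu, Pi.single 0 (w 0 - w 1 / u 1 * u 0), ?_, ?_⟩
      · rw [mem_axis_iff]; intro j hj; simp [Pi.single_apply, hj]
      · funext j
        fin_cases j
        · simp
        · simp only [Fin.mk_one, Pi.add_apply, Pi.smul_apply, smul_eq_mul]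
          rw [Pi.single_apply, if_neg (by decide), add_zero]
          field_simp
  · -- `U ≤ axis 0`, hence `U = axis 0`
    push Not at h1
    have hUle : U ≤ axis 0 := by
      intro x hx
      rw [mem_axis_iff]
      intro j hj
      fin_cases j
      · exact absurd rfl hj
      · exact h1 x hx
    have hUeq : U = axis 0 := by
      apply le_antisymm hUle
      obtain ⟨x, hx, hx0⟩ := Submodule.exists_mem_ne_zero_of_ne_bot hbot
      have hx1 : x 1 = 0 := h1 x hx
      have hx00 : x 0 ≠ 0 := by
        intro h0
        apply hx0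
        funext j
        fin_cases j
        · exact h0
        · exact hx1
      intro y hy
      rw [mem_axis_iff] at hy
      have : y = (y 0 / x 0) • x := by
        funext j
        fin_cases j
        · simp only [Fin.zero_eta, Pi.smul_apply, smul_eq_mul]; field_simp
        · simp only [Fin.mk_one, Pi.smul_apply, smul_eq_mul, hx1, mul_zero]
          exact hy 1 (by decide)
      rw [this]
      exact U.smul_mem _ hx
    exact ⟨axis 1, Or.inr (Or.inr (Or.inr rfl)), hUeq ▸ isCompl_axis⟩

/-- the coordinate axes are stable under the diagonal representation. -/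
theorem diagRep_mem_axis {G : Type*} [Group G] (c d : G →* kˣ) (σ : G) (i : Fin 2)
    (x : Fin 2 → k) (hx : x ∈ axis (k := k) i) : diagRep c d σ x ∈ axis (k := k) i := by
  rw [mem_axis_iff] at hx ⊢
  intro j hj
  rw [diagRep_apply, Matrix.toLin'_apply, Matrix.mulVec_diagonal, hx j hj, mul_zero]

/-- **The diagonal representation is semisimple.** -/
theorem diagRep_semisimple {G : Type*} [Group G] (c d : G →* kˣ)
    (U : Submodule k (Fin 2 → k)) :
    ∃ W' : Submodule k (Fin 2 → k), (∀ σ : G, ∀ x ∈ W', diagRep c d σ x ∈ W') ∧ IsCompl U W' := by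
  obtain ⟨W', hW', hc⟩ := exists_isCompl_axis U
  refine ⟨W', ?_, hc⟩
  rcases hW' with rfl | rfl | rfl | rfl
  · intro σ x hx
    rw [Submodule.mem_bot] at hx
    rw [hx, map_zero]
    exact Submodule.zero_mem _
  · intro σ x _
    exact Submodule.mem_top
  · exact fun σ x hx => diagRep_mem_axis c d σ 0 x hx
  · exact fun σ x hx => diagRep_mem_axis c d σ 1 x hx

end Fermat.Agent.S48lib.X1.Gal
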