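import Mathlib

/-!
S48lib / X1 / Gal / Simple (helper9, block P8).

Restriction of a representation `ρ : G →* End_k W` to a stable subspace, and existence of a
SIMPLE stable subspace (minimal dimension) in a nonzero finite dimensional representation.
-/

set_option autoImplicit false

open Module

namespace Fermat.Agent.S48lib.X1.Gal

variable {k : Type*} [Field k] {W : Type*} [AddCommGroup W] [Module k W]
  {G : Type*} [Monoid G]

/-- `U` is stable under `ρ`. -/
def IsStable (ρ : G →* Module.End k W) (U : Submodule k W) : Prop :=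
  ∀ σ : G, ∀ x ∈ U, ρ σ x ∈ U

/-- The restriction of `ρ` to a stable subspace. -/
def restrictRep (ρ : G →* Module.End k W) (U : Submodule k W) (hU : IsStable ρ U) :
    G →* Module.End k U where
  toFun σ := (ρ σ).restrict (hU σ)
  map_one' := by
    ext x
    simp
  map_mul' σ τ := by
    ext x
    simp [map_mul]

@[simp] theorem coe_restrictRep_apply (ρ : G →* Module.End k W) (U : Submodule k W)
    (hU : IsStable ρ U) (σ : G) (x : U) :
    ((restrictRep ρ U hU σ x : U) : W) = ρ σ (x : W) := rfl

/-- A polynomial-type identity `ρ σ * ρ σ - a • ρ σ + d • 1 = 0` restricts. -/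
theorem restrictRep_quad (ρ : G →* Module.End k W) (U : Submodule k W) (hU : IsStable ρ U)
    (σ : G) (a d : k) (h : ρ σ * ρ σ - a • ρ σ + d • (1 : Module.End k W) = 0) :
    restrictRep ρ U hU σ * restrictRep ρ U hU σ - a • restrictRep ρ U hU σ
      + d • (1 : Module.End k U) = 0 := by
  ext x
  have := LinearMap.congr_fun h (x : W)
  simpa using this

theorem restrictRep_eq_one (ρ : G →* Module.End k W) (U : Submodule k W) (hU : IsStable ρ U)
    {σ : G} (h : ρ σ = 1) : restrictRep ρ U hU σ = 1 := by
  ext x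
  simp [h]

/-- In a nonzero finite dimensional representation there is a simple stable subspace. -/
theorem exists_simple_stable [FiniteDimensional k W] [Nontrivial W] (ρ : G →* Module.End k W) :
    ∃ U : Submodule k W, U ≠ ⊥ ∧ IsStable ρ U ∧
      ∀ U' : Submodule k W, U' ≤ U → IsStable ρ U' → U' = ⊥ ∨ U' = U := by
  classical
  let P : ℕ → Prop := fun n => ∃ U : Submodule k W, U ≠ ⊥ ∧ IsStable ρ U ∧ finrank k U = n
  have hP : ∃ n, P n := ⟨finrank k (⊤ : Submodule k W), ⊤, top_ne_bot,
    fun _ _ _ => Submodule.mem_top, rfl⟩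
  obtain ⟨U, hU0, hUs, hUn⟩ := Nat.find_spec hP
  refine ⟨U, hU0, hUs, fun U' hle hs' => ?_⟩
  by_cases h0 : U' = ⊥
  · exact Or.inl h0
  · right
    have hmin : Nat.find hP ≤ finrank k U' := Nat.find_min' hP ⟨U', h0, hs', rfl⟩
    have hle' : finrank k U' ≤ finrank k U := Submodule.finrank_mono hle
    exact Submodule.eq_of_le_of_finrank_eq hle (by omega)

/-- The restriction to a simple stable subspace is irreducible. -/
theorem restrictRep_irreducible (ρ : G →* Module.End k W) (U : Submodule k W) (hU : IsStable ρ U)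
    (hsimple : ∀ U' : Submodule k W, U' ≤ U → IsStable ρ U' → U' = ⊥ ∨ U' = U)
    (V : Submodule k U) (hV : ∀ σ : G, ∀ x ∈ V, restrictRep ρ U hU σ x ∈ V) :
    V = ⊥ ∨ V = ⊤ := by
  have hle : V.map U.subtype ≤ U := by
    rintro _ ⟨x, -, rfl⟩
    exact x.2
  have hst : IsStable ρ (V.map U.subtype) := by
    rintro σ _ ⟨x, hx, rfl⟩
    exact ⟨restrictRep ρ U hU σ x, hV σ x hx, rfl⟩
  rcases hsimple _ hle hst with h | h
  · left
    rw [eq_bot_iff]
    intro x hx
    have hx' : (x : W) ∈ V.map U.subtype := ⟨x, hx, rfl⟩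
    rw [h, Submodule.mem_bot] at hx'
    rw [Submodule.mem_bot]
    exact Subtype.ext hx'
  · right
    rw [eq_top_iff]
    intro x _
    have hx : (x : W) ∈ V.map U.subtype := by rw [h]; exact x.2
    obtain ⟨y, hy, hyx⟩ := hx
    have : y = x := Subtype.ext hyx
    rwa [this] at hy

end Fermat.Agent.S48lib.X1.Gal
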