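import Fermat.Agent.S48lib.X1.Gal.QuadDim
import Fermat.Agent.S48lib.X1.Gal.Simple
import Fermat.Agent.S48lib.X1.Gal.Exact
import Fermat.Agent.S48lib.X1.Gal.DiagSS
import Fermat.Agent.S48lib.Iface.W2

/-!
S48lib / X1 / Gal / Main (helper9, block P8): **the abstract Galois-theoretic core of W2-Gal.**

`QuadRep.exists_residual`: let `k` be algebraically closed of characteristic `≠ 2`, `S` a finite
set of primes, `δ : G_ℚ →* kˣ` a character of finite level unramified outside `S`, and `R` a
NONZERO finite dimensional representation of `G_ℚ` over `k`, of finite level, unramified outside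
`S`, all of whose Frobenius elements `σ` at primes `p ∉ S` satisfy
`ρ(σ)² - abar(p) ρ(σ) + δ(σ) = 0` (no assumption on the dimension!).  Then there is a
semisimple 2-dimensional `ResidualGaloisRep k`, unramified outside `S`, with
`charpoly ρ'(σ) = X² - abar(p) X + δ(σ)` for every Frobenius element `σ` at `p ∉ S`.

Proof: take a simple stable subspace `U`; all elements of `G_ℚ` satisfy quadratic relations with
constant term `δ` (`AllQuad`), so `dim U ≤ 2` (`QuadDim`).  If `dim U = 2`, `U` itself works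
(`Exact`: a wrong Frobenius would make the image abelian, contradicting irreducibility).  If
`dim U = 1`, `G_ℚ` acts on `U` through a character `c` and `c ⊕ δ c⁻¹` works.
-/

set_option autoImplicit false
set_option linter.style.haveILetI false
set_option linter.unusedSectionVars false

noncomputable section

namespace Fermat.Agent.S48lib.X1.Gal

open Polynomial Module Fermat.Agent.S29lib.X Fermat.Agent.S48lib.Iface

/-- `ℚ̄` -/
local notation "Qb" => AlgebraicClosure ℚ
/-- `G_ℚ` -/
local notation "GQ" => (AlgebraicClosure ℚ ≃ₐ[ℚ] AlgebraicClosure ℚ)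

variable {k : Type} [Field k] {S : Finset ℕ} {abar : ℕ → k} {δ : GQ →* kˣ}

/-- the restriction of a `QuadRep` to a stable subspace. -/
def QuadRep.restrict (R : QuadRep k S abar δ) (U : Submodule k R.W) (hU : IsStable R.ρ U) :
    QuadRep k S abar δ where
  W := U
  ρ := restrictRep R.ρ U hU
  finiteLevel := by
    obtain ⟨L, hL, h⟩ := R.finiteLevel
    exact ⟨L, hL, fun σ hσ => restrictRep_eq_one R.ρ U hU (h σ hσ)⟩
  unram := fun p hp hpS A hA σ hσ => restrictRep_eq_one R.ρ U hU (R.unram p hp hpS A hA σ hσ)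
  frob := fun p hp hpS A hA σ hσ =>
    restrictRep_quad R.ρ U hU σ _ _ (R.frob p hp hpS A hA σ hσ)

/-- The 2-dimensional irreducible case. -/
theorem QuadRep.exists_residual_of_two [IsAlgClosed k] (R : QuadRep k S abar δ)
    (h2 : finrank k R.W = 2)
    (hirr : ∀ V : Submodule k R.W, IsStable R.ρ V → V = ⊥ ∨ V = ⊤)
    (hδ : GaloisFactorsThroughFiniteLevel δ) (hδu : UnramOutside δ S) :
    ∃ ρ' : ResidualGaloisRep k, IsSemisimpleRep ρ' ∧
      (∀ p : ℕ, p.Prime → p ∉ S → ρ'.IsUnramifiedAt p) ∧
      ∀ p : ℕ, p.Prime → p ∉ S → ∀ A : ValuationSubring Qb, A.LiesOverPrime p →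
        ∀ σ : GQ, A.IsFrobeniusAt σ p →
          LinearMap.charpoly (ρ'.ρ σ) = X ^ 2 - C (abar p) * X + C ((δ σ : kˣ) : k) := by
  classical
  let ρG : ResidualGaloisRep k :=
    { V := R.W
      finrank_eq := h2
      ρ := R.ρ
      factorsThroughFiniteLevel := R.finiteLevel }
  refine ⟨ρG, ?_, fun p hp hpS A hA σ hσ => R.unram p hp hpS A hA σ hσ, ?_⟩
  · -- irreducible ⇒ semisimple
    intro V hV
    rcases hirr V hV with rfl | rfl
    · exact ⟨⊤, fun _ _ _ => Submodule.mem_top, isCompl_bot_top⟩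
    · exact ⟨⊥, fun σ x hx => by
        rw [Submodule.mem_bot] at hx; rw [hx, map_zero]; exact Submodule.zero_mem _,
        isCompl_top_bot⟩
  · intro p hp hpS A hA σ hσ
    by_contra hbad
    have hcomm := R.commute_of_bad h2 hδ hδu hp hpS hA hσ hbad
    obtain ⟨v, hv, hc⟩ := exists_common_eigenvector h2 (fun σ : GQ => R.ρ σ) hcomm
    -- the line `k v` is stable, contradiction
    have hst : IsStable R.ρ (Submodule.span k {v}) := by
      intro τ x hx
      obtain ⟨t, rfl⟩ := Submodule.mem_span_singleton.mp hx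
      obtain ⟨c, hc'⟩ := hc τ
      rw [map_smul, hc', smul_smul]
      exact Submodule.smul_mem _ _ (Submodule.mem_span_singleton_self v)
    rcases hirr _ hst with h | h
    · exact hv ((Submodule.span_singleton_eq_bot).mp h)
    · have h1 : finrank k (Submodule.span k {v}) = 1 := finrank_span_singleton hv
      rw [h, finrank_top, h2] at h1
      omega

/-- The 1-dimensional case: `c ⊕ δ c⁻¹`. -/
theorem QuadRep.exists_residual_of_one (R : QuadRep k S abar δ) (h1 : finrank k R.W = 1)
    (hδ : GaloisFactorsThroughFiniteLevel δ) (hδu : UnramOutside δ S) :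
    ∃ ρ' : ResidualGaloisRep k, IsSemisimpleRep ρ' ∧
      (∀ p : ℕ, p.Prime → p ∉ S → ρ'.IsUnramifiedAt p) ∧
      ∀ p : ℕ, p.Prime → p ∉ S → ∀ A : ValuationSubring Qb, A.LiesOverPrime p →
        ∀ σ : GQ, A.IsFrobeniusAt σ p →
          LinearMap.charpoly (ρ'.ρ σ) = X ^ 2 - C (abar p) * X + C ((δ σ : kˣ) : k) := by
  classical
  -- a generator and the character
  obtain ⟨v, hv, hgen⟩ := finrank_eq_one_iff'.mp h1
  have hcs : ∀ σ : GQ, ∃ c : k, R.ρ σ v = c • v := fun σ => by
    obtain ⟨c, hc⟩ := hgen (R.ρ σ v)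
    exact ⟨c, hc.symm⟩
  choose c hc using hcs
  have hinj : Function.Injective fun a : k => a • v := smul_left_injective k hv
  let c₀ : GQ →* k :=
    { toFun := c
      map_one' := by
        apply hinj
        change c 1 • v = (1 : k) • v
        rw [← hc 1, map_one, one_smul, Module.End.one_apply]
      map_mul' := fun σ τ => by
        apply hinj
        change c (σ * τ) • v = (c σ * c τ) • v
        rw [← hc (σ * τ), map_mul, Module.End.mul_apply, hc τ, map_smul, hc σ, smul_smul,
          mul_comm] }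
  set cu : GQ →* kˣ := c₀.toHomUnits with hcu
  have hcu_val : ∀ σ : GQ, ((cu σ : kˣ) : k) = c σ := fun σ => rfl
  -- `c σ = 1` whenever `ρ σ = 1`
  have hc1 : ∀ σ : GQ, R.ρ σ = 1 → cu σ = 1 := by
    intro σ hσ
    apply Units.ext
    apply hinj
    change ((cu σ : kˣ) : k) • v = ((1 : kˣ) : k) • v
    rw [hcu_val, ← hc σ, hσ, Units.val_one, one_smul, Module.End.one_apply]
  set d : GQ →* kˣ := δ / cu with hd
  obtain ⟨L₁, hL₁fd, hL₁⟩ := R.finiteLevel
  obtain ⟨L₂, hL₂fd, hL₂⟩ := hδ
  haveI := hL₁fd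
  haveI := hL₂fd
  let ρ' : ResidualGaloisRep k :=
    { V := Fin 2 → k
      finrank_eq := by rw [Module.finrank_fin_fun]
      ρ := diagRep cu d
      factorsThroughFiniteLevel := by
        refine ⟨L₁ ⊔ L₂, IntermediateField.finiteDimensional_sup _ _, fun σ hσ => ?_⟩
        have e1 : R.ρ σ = 1 := hL₁ σ fun x hx => hσ x (le_sup_left (a := L₁) hx)
        have e2 : δ σ = 1 := hL₂ σ fun x hx => hσ x (le_sup_right (b := L₂) hx)
        apply diagRep_eq_one
        · exact hc1 σ e1
        · rw [hd, MonoidHom.div_apply, e2, hc1 σ e1, div_one] }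
  refine ⟨ρ', ?_, ?_, ?_⟩
  · intro U _
    exact diagRep_semisimple cu d U
  · intro p hp hpS A hA σ hσ
    have e1 : R.ρ σ = 1 := R.unram p hp hpS A hA σ hσ
    have e2 : δ σ = 1 := hδu p hp hpS A hA σ hσ
    change diagRep cu d σ = 1
    apply diagRep_eq_one
    · exact hc1 σ e1
    · rw [hd, MonoidHom.div_apply, e2, hc1 σ e1, div_one]
  · intro p hp hpS A hA σ hσ
    change LinearMap.charpoly (diagRep cu d σ) = _
    rw [charpoly_diagRep]
    set γ : k := ((cu σ : kˣ) : k) with hγ
    have hγ0 : γ ≠ 0 := (cu σ).ne_zero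
    have hdσ : ((d σ : kˣ) : k) = ((δ σ : kˣ) : k) / γ := by
      rw [hd, MonoidHom.div_apply, Units.val_div_eq_div_val]
    have hroot : γ * γ - abar p * γ + ((δ σ : kˣ) : k) = 0 := by
      have hq := R.frob p hp hpS A hA σ hσ
      have hq' := LinearMap.congr_fun hq v
      simp only [LinearMap.add_apply, LinearMap.sub_apply, LinearMap.smul_apply,
        Module.End.mul_apply, Module.End.one_apply, LinearMap.zero_apply, hc σ, map_smul] at hq'
      apply hinj
      change (γ * γ - abar p * γ + ((δ σ : kˣ) : k)) • v = (0 : k) • v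
      rw [zero_smul, ← hq']
      simp only [add_smul, sub_smul, mul_smul, hγ, hcu_val]
    rw [hdσ]
    have hsum : γ + ((δ σ : kˣ) : k) / γ = abar p := by
      field_simp
      linear_combination hroot
    have hprod : γ * (((δ σ : kˣ) : k) / γ) = ((δ σ : kˣ) : k) := by field_simp
    rw [hsum, hprod]

/-- **The abstract core of W2-Gal.** -/
theorem QuadRep.exists_residual [IsAlgClosed k] (h2 : (2 : k) ≠ 0) (R : QuadRep k S abar δ)
    [Nontrivial R.W] (hδ : GaloisFactorsThroughFiniteLevel δ) (hδu : UnramOutside δ S) :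
    ∃ ρ' : ResidualGaloisRep k, IsSemisimpleRep ρ' ∧
      (∀ p : ℕ, p.Prime → p ∉ S → ρ'.IsUnramifiedAt p) ∧
      ∀ p : ℕ, p.Prime → p ∉ S → ∀ A : ValuationSubring Qb, A.LiesOverPrime p →
        ∀ σ : GQ, A.IsFrobeniusAt σ p →
          LinearMap.charpoly (ρ'.ρ σ) = X ^ 2 - C (abar p) * X + C ((δ σ : kˣ) : k) := by
  classical
  obtain ⟨U, hU0, hUs, hUsimple⟩ := exists_simple_stable R.ρ
  set R' : QuadRep k S abar δ := R.restrict U hUs with hR'
  have hirr : ∀ V : Submodule k R'.W, IsStable R'.ρ V → V = ⊥ ∨ V = ⊤ :=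
    fun V hV => restrictRep_irreducible R.ρ U hUs hUsimple V hV
  -- all elements satisfy quadratic relations
  have hq := fun σ => R'.exists_quad hδ σ
  choose a ha using hq
  have hle : finrank k R'.W ≤ 2 := finrank_le_two_of_quad h2 R'.ρ δ a ha hirr
  have hpos : 0 < finrank k R'.W := by
    change 0 < finrank k U
    rw [Module.finrank_pos_iff]
    exact Submodule.nontrivial_iff_ne_bot.mpr hU0
  rcases Nat.lt_or_ge (finrank k R'.W) 2 with hlt | hge
  · exact R'.exists_residual_of_one (by omega) hδ hδu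
  · exact R'.exists_residual_of_two (by omega) hirr hδ hδu

end Fermat.Agent.S48lib.X1.Gal
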