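import Fermat.Agent.S48lib.Iface.W2
import Fermat.Agent.S48lib.X1.Gal.Main
import Fermat.Agent.S48lib.X1.Gal.DetChar

/-!
S48lib / X1 / Gal / EigenGlue (helper9, block P8).  **The final interface of P8.**

`HeckeGalSpace M ℓ` : what the geometric blocks (P3 Kummer, P4 Hecke on `J`, P6 reduction,
P7 Eichler--Shimura) deliver about `V = J_1(M)[ℓ]`: a finite `𝔽_ℓ`-space with a Galois action of
finite level, unramified outside `M ℓ`, endomorphisms `T p`, `diam d` COMMUTING WITH GALOIS (no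
commutation among themselves is required), and the Eichler--Shimura relation
`Frob_p² - T_p Frob_p + p ⟨p⟩ = 0` for `p ∤ M ℓ`.

`residual_of_heckeGalSpace` : from this and a nonzero simultaneous eigenvector `X ∈ k ⊗ V`
(`T_p X = φ(b_p) X`, `⟨d⟩ X = φ(χ(d)) X`; its existence is the support statement (Supp)) the
conclusion of `Iface.W2Gal`.
-/

set_option autoImplicit false
set_option linter.style.haveILetI false
set_option linter.unusedSectionVars false

noncomputable section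

namespace Fermat.Agent.S48lib.X1.Gal

open Polynomial Fermat.Agent.S48lib.Iface
open scoped TensorProduct

/-- `ℚ̄` -/
local notation "Qb" => AlgebraicClosure ℚ
/-- `G_ℚ` -/
local notation "GQ" => (AlgebraicClosure ℚ ≃ₐ[ℚ] AlgebraicClosure ℚ)
/-- `ℤ̄ ⊆ ℂ` -/
local notation "Zb" => integralClosure ℤ ℂ

/-- The Hecke--Galois space `J_1(M)[ℓ]`, abstractly. -/
structure HeckeGalSpace (M ℓ : ℕ) where
  /-- the space -/
  V : Type
  [instAddCommGroup : AddCommGroup V]
  [instModule : Module (ZMod ℓ) V]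
  [instFinite : Module.Finite (ZMod ℓ) V]
  /-- the Galois action -/
  ρ : GQ →* Module.End (ZMod ℓ) V
  finiteLevel : GaloisFactorsThroughFiniteLevel ρ
  unram : ∀ p : ℕ, p.Prime → ¬ p ∣ M * ℓ → ∀ B : ValuationSubring Qb, B.LiesOverPrime p →
    ∀ σ ∈ B.inertiaSubgroupIn ℚ, ρ σ = 1
  /-- the Hecke operators `T_p` -/
  T : ℕ → Module.End (ZMod ℓ) V
  /-- the diamond operators -/
  diam : (ZMod M)ˣ → Module.End (ZMod ℓ) V
  comm_T : ∀ (p : ℕ) (σ : GQ), Commute (ρ σ) (T p)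
  comm_diam : ∀ (d : (ZMod M)ˣ) (σ : GQ), Commute (ρ σ) (diam d)
  es : ∀ p : ℕ, p.Prime → ¬ p ∣ M * ℓ → ∀ d : (ZMod M)ˣ, (d : ZMod M) = (p : ZMod M) →
    ∀ B : ValuationSubring Qb, B.LiesOverPrime p → ∀ σ : GQ, B.IsFrobeniusAt σ p →
      ρ σ * ρ σ - T p * ρ σ + (p : ZMod ℓ) • diam d = 0

attribute [instance] HeckeGalSpace.instAddCommGroup HeckeGalSpace.instModule
  HeckeGalSpace.instFinite

section Eigen

variable {M ℓ : ℕ} (H : HeckeGalSpace M ℓ) {k : Type} [Field k] [Algebra (ZMod ℓ) k]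
  (βT : ℕ → k) (βd : (ZMod M)ˣ → k)

/-- the joint eigenspace of the `T_p` (`p ∤ M ℓ` prime) and the `⟨d⟩` in `k ⊗ V`. -/
def HeckeGalSpace.eigenspace : Submodule k (k ⊗[ZMod ℓ] H.V) where
  carrier := {Y | (∀ p : ℕ, p.Prime → ¬ p ∣ M * ℓ → (H.T p).baseChange k Y = βT p • Y) ∧
    ∀ d : (ZMod M)ˣ, (H.diam d).baseChange k Y = βd d • Y}
  add_mem' := by
    rintro Y Z ⟨hY1, hY2⟩ ⟨hZ1, hZ2⟩
    exact ⟨fun p hp hd => by rw [map_add, hY1 p hp hd, hZ1 p hp hd, smul_add],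
      fun d => by rw [map_add, hY2 d, hZ2 d, smul_add]⟩
  zero_mem' := ⟨fun p _ _ => by rw [map_zero, smul_zero], fun d => by rw [map_zero, smul_zero]⟩
  smul_mem' := by
    rintro c Y ⟨hY1, hY2⟩
    exact ⟨fun p hp hd => by rw [map_smul, hY1 p hp hd, smul_comm],
      fun d => by rw [map_smul, hY2 d, smul_comm]⟩

theorem HeckeGalSpace.mem_eigenspace {Y : k ⊗[ZMod ℓ] H.V} :
    Y ∈ H.eigenspace βT βd ↔
      (∀ p : ℕ, p.Prime → ¬ p ∣ M * ℓ → (H.T p).baseChange k Y = βT p • Y) ∧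
        ∀ d : (ZMod M)ˣ, (H.diam d).baseChange k Y = βd d • Y := Iff.rfl

theorem HeckeGalSpace.baseChange_comm_apply {f g : Module.End (ZMod ℓ) H.V} (h : Commute f g)
    (Y : k ⊗[ZMod ℓ] H.V) :
    g.baseChange k (f.baseChange k Y) = f.baseChange k (g.baseChange k Y) := by
  have h1 : (g * f).baseChange k = (f * g).baseChange k := by rw [h.eq]
  have h2 := LinearMap.congr_fun h1 Y
  rw [Module.End.mul_eq_comp, Module.End.mul_eq_comp, LinearMap.baseChange_comp,
    LinearMap.baseChange_comp] at h2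
  exact h2

theorem HeckeGalSpace.eigenspace_stable (σ : GQ) {Y : k ⊗[ZMod ℓ] H.V}
    (hY : Y ∈ H.eigenspace βT βd) : (H.ρ σ).baseChange k Y ∈ H.eigenspace βT βd := by
  obtain ⟨hY1, hY2⟩ := hY
  refine ⟨fun p hp hd => ?_, fun d => ?_⟩
  · rw [H.baseChange_comm_apply (H.comm_T p σ), hY1 p hp hd, map_smul]
  · rw [H.baseChange_comm_apply (H.comm_diam d σ), hY2 d, map_smul]

/-- the Galois action on the joint eigenspace. -/
def HeckeGalSpace.eigenRep : GQ →* Module.End k (H.eigenspace βT βd) where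
  toFun σ := ((H.ρ σ).baseChange k).restrict (fun _ hY => H.eigenspace_stable βT βd σ hY)
  map_one' := by
    ext Y
    simp [LinearMap.baseChange_id, Module.End.one_eq_id]
  map_mul' σ τ := by
    ext Y
    simp [Module.End.mul_eq_comp, LinearMap.baseChange_comp]

theorem HeckeGalSpace.coe_eigenRep_apply (σ : GQ) (Y : H.eigenspace βT βd) :
    ((H.eigenRep βT βd σ Y : H.eigenspace βT βd) : k ⊗[ZMod ℓ] H.V) =
      (H.ρ σ).baseChange k (Y : k ⊗[ZMod ℓ] H.V) := rfl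

theorem HeckeGalSpace.eigenRep_eq_one {σ : GQ} (h : H.ρ σ = 1) : H.eigenRep βT βd σ = 1 := by
  ext Y
  rw [H.coe_eigenRep_apply, h, Module.End.one_eq_id, LinearMap.baseChange_id]
  rfl

end Eigen

/-- **P8, final form.**  From the Hecke--Galois space `J_1(M)[ℓ]` and a nonzero simultaneous
eigenvector in `k ⊗ J_1(M)[ℓ]` to the residual representation demanded by `Iface.W2Gal`. -/
theorem residual_of_heckeGalSpace {M ℓ : ℕ} [NeZero M] [Fact ℓ.Prime] (hℓ2 : ℓ ≠ 2)
    (H : HeckeGalSpace M ℓ) (χ : DirichletCharacter ℂ M) (b c : ℕ → Zb)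
    (hc : ∀ p : ℕ, p.Prime → ¬ p ∣ M → ((c p : Zb) : ℂ) = χ (p : ZMod M))
    (k : Type) [Field k] [IsAlgClosed k] [CharP k ℓ] [Algebra (ZMod ℓ) k] (φ : Zb →+* k)
    (x₀ : k ⊗[ZMod ℓ] H.V) (hX : x₀ ≠ 0)
    (hXT : ∀ p : ℕ, p.Prime → ¬ p ∣ M * ℓ → (H.T p).baseChange k x₀ = φ (b p) • x₀)
    (hXd : ∀ d : (ZMod M)ˣ, (H.diam d).baseChange k x₀ = φ (chiZb χ d) • x₀) :
    ∃ ρ : ResidualGaloisRep k, IsSemisimpleRep ρ ∧
      (∀ p : ℕ, p.Prime → ¬ p ∣ M * ℓ → ρ.IsUnramifiedAt p) ∧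
      ∀ p : ℕ, p.Prime → ¬ p ∣ M * ℓ →
        ∀ A : ValuationSubring Qb, A.LiesOverPrime p →
          ∀ σ : GQ, A.IsFrobeniusAt σ p →
            LinearMap.charpoly (ρ.ρ σ) =
              X ^ 2 - C (φ (b p)) * X + C ((p : k) * φ (c p)) := by
  have hℓ : ℓ.Prime := Fact.out
  have h2 : (2 : k) ≠ 0 := by
    intro h
    have h' : ((2 : ℕ) : k) = 0 := by exact_mod_cast h
    rw [CharP.cast_eq_zero_iff k ℓ] at h'
    exact hℓ2 ((Nat.prime_dvd_prime_iff_eq hℓ Nat.prime_two).mp h')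
  set βT : ℕ → k := fun p => φ (b p) with hβT
  set βd : (ZMod M)ˣ → k := fun d => φ (chiZb χ d) with hβd
  let R : QuadRep k (badSet M ℓ) βT (detCharOf χ ℓ φ) :=
    { W := H.eigenspace βT βd
      ρ := H.eigenRep βT βd
      finiteLevel := by
        obtain ⟨L, hL, h⟩ := H.finiteLevel
        exact ⟨L, hL, fun σ hσ => H.eigenRep_eq_one βT βd (h σ hσ)⟩
      unram := fun p hp hpS B hB σ hσ =>
        H.eigenRep_eq_one βT βd (H.unram p hp (not_dvd_of_not_mem_badSet hp hpS) B hB σ hσ)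
      frob := by
        intro p hp hpS B hB σ hσ
        have hd := not_dvd_of_not_mem_badSet hp hpS
        have hpM : ¬ p ∣ M := fun h => hd (Dvd.dvd.mul_right h ℓ)
        set d : (ZMod M)ˣ := ZMod.unitOfCoprime p ((Nat.Prime.coprime_iff_not_dvd hp).mpr hpM)
          with hdef
        have hdp : (d : ZMod M) = (p : ZMod M) := ZMod.coe_unitOfCoprime p _
        have hes := H.es p hp hd d hdp B hB σ hσ
        have hδ : ((detCharOf χ ℓ φ σ : kˣ) : k) = (p : k) * φ (chiZb χ d) :=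
          detCharOf_of_isFrobeniusAt χ ℓ φ hp hd hB hσ (chiZb χ d) (by rw [coe_chiZb, hdp])
        ext Y
        obtain ⟨hY1, hY2⟩ := Y.2
        have hσY := H.eigenspace_stable βT βd σ Y.2
        have h1 := congrArg (fun f : Module.End (ZMod ℓ) H.V =>
          f.baseChange k (Y : k ⊗[ZMod ℓ] H.V)) hes
        simp only [LinearMap.baseChange_add, LinearMap.baseChange_sub, LinearMap.baseChange_zero,
          Module.End.mul_eq_comp, LinearMap.baseChange_comp, LinearMap.baseChange_smul,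
          LinearMap.add_apply, LinearMap.sub_apply, LinearMap.comp_apply, LinearMap.smul_apply,
          LinearMap.zero_apply] at h1
        rw [hσY.1 p hp hd, hY2 d] at h1
        simp only [LinearMap.add_apply, LinearMap.smul_apply,
          Module.End.one_apply, LinearMap.zero_apply, Submodule.coe_add,
          Submodule.coe_smul, Submodule.coe_zero]
        rw [hδ, mul_smul]
        have hcast : ((p : ZMod ℓ)) • (βd d • (Y : k ⊗[ZMod ℓ] H.V))
            = (p : k) • (φ (chiZb χ d) • (Y : k ⊗[ZMod ℓ] H.V)) := by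
          rw [Nat.cast_smul_eq_nsmul, Nat.cast_smul_eq_nsmul]
        rw [← hcast]
        exact h1 }
  haveI : Nontrivial R.W := by
    refine ⟨⟨⟨x₀, ⟨hXT, hXd⟩⟩, 0, ?_⟩⟩
    intro h
    exact hX (congrArg Subtype.val h)
  obtain ⟨ρ', hss, hunr, hfrob⟩ := R.exists_residual h2 (detCharOf_finiteLevel χ ℓ φ)
    (detCharOf_unramOutside χ ℓ φ)
  refine ⟨ρ', hss, fun p hp hd => hunr p hp (not_mem_badSet_of_not_dvd hd), ?_⟩
  intro p hp hd A hA σ hσ
  have hpM : ¬ p ∣ M := fun h => hd (Dvd.dvd.mul_right h ℓ)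
  rw [hfrob p hp (not_mem_badSet_of_not_dvd hd) A hA σ hσ,
    detCharOf_of_isFrobeniusAt χ ℓ φ hp hd hA hσ (c p) (hc p hp hpM)]

end Fermat.Agent.S48lib.X1.Gal
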