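import Mathlib

/-!
S48lib / X1 / Gal / EvalGlue (helper9, block P8).

Pure algebra for the last step of (Supp).  `V` an `𝔽_ℓ`-vector space with an injective additive map
`lam : V →+ Hom(Γ, 𝔽_ℓ)` (the Kummer map of `Pic⁰[ℓ]`), `k` an extension field of `𝔽_ℓ`:

* `evk lam : k ⊗ V →ₗ[k] (Γ → k)`, `evk_tmul`, **`evk_injective`**;
* **`exists_evk_eq`**: for `Γ` finitely generated, every `ψ̄ ∈ Hom(Γ, k)` killing a set `P` of
  elements such that all `ψ ∈ Hom(Γ, 𝔽_ℓ)` killing `P` are in the range of `lam` is `evk lam y`;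
* `evk_baseChange`: an operator `T` on `V` given on `lam` by a cocycle formula
  `lam (T x) γ = ∑ i, lam x (c γ i)` is given on `evk` by the same formula;
* **`exists_eigenvector`**: a nonzero `ψ̄` as above which is an eigenvector of a family of cocycle
  operators gives a nonzero simultaneous eigenvector in `k ⊗ V` with the same eigenvalues.
-/

set_option autoImplicit false

noncomputable section

open TensorProduct

namespace Fermat.Agent.S48lib.X1.Gal

variable {Γ : Type*} [Group Γ] {ℓ : ℕ} [Fact ℓ.Prime] {V : Type*} [AddCommGroup V]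
  [Module (ZMod ℓ) V] {k : Type*} [Field k] [Algebra (ZMod ℓ) k]

/-- `x ↦ lam x γ`, as an `𝔽_ℓ`-linear map to `k`. -/
def lamk (lam : V →+ (Additive Γ →+ ZMod ℓ)) (γ : Γ) : V →ₗ[ZMod ℓ] k :=
  AddMonoidHom.toZModLinearMap ℓ
    ((algebraMap (ZMod ℓ) k).toAddMonoidHom.comp
      ((AddMonoidHom.eval (Additive.ofMul γ)).comp lam))

@[simp] lemma lamk_apply (lam : V →+ (Additive Γ →+ ZMod ℓ)) (γ : Γ) (x : V) :
    lamk (k := k) lam γ x = algebraMap (ZMod ℓ) k (lam x (Additive.ofMul γ)) := rfl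

/-- the evaluation map `k ⊗ V → (Γ → k)`. -/
def evk (lam : V →+ (Additive Γ →+ ZMod ℓ)) : k ⊗[ZMod ℓ] V →ₗ[k] (Γ → k) :=
  LinearMap.pi fun γ => LinearMap.liftBaseChange k (lamk lam γ)

@[simp] lemma evk_tmul (lam : V →+ (Additive Γ →+ ZMod ℓ)) (a : k) (x : V) (γ : Γ) :
    evk lam (a ⊗ₜ[ZMod ℓ] x) γ = a * algebraMap (ZMod ℓ) k (lam x (Additive.ofMul γ)) := by
  simp [evk, LinearMap.liftBaseChange_tmul]

/-- **`evk` is injective** (for `lam` injective). -/
theorem evk_injective (lam : V →+ (Additive Γ →+ ZMod ℓ)) (hinj : Function.Injective lam) :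
    Function.Injective (evk (k := k) lam) := by
  classical
  rw [← LinearMap.ker_eq_bot, LinearMap.ker_eq_bot']
  intro y hy
  set b := Module.Free.chooseBasis (ZMod ℓ) k with hb
  set e := TensorProduct.equivFinsuppOfBasisLeft (N := V) b with he
  obtain ⟨f, rfl⟩ := e.symm.surjective y
  rw [equivFinsuppOfBasisLeft_symm_apply] at hy ⊢
  suffices hf : f = 0 by rw [hf]; simp
  ext i
  apply hinj
  rw [Finsupp.zero_apply, map_zero]
  ext γ
  have h1 := congrFun hy (Additive.toMul γ)
  rw [Finsupp.sum, map_sum, Finset.sum_apply] at h1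
  simp only [evk_tmul, Pi.zero_apply, ofMul_toMul] at h1
  have hli := b.linearIndependent
  rw [linearIndependent_iff'] at hli
  have h2 := hli f.support (fun j => lam (f j) γ) (by
    simp only [Algebra.smul_def]
    rw [← h1]
    exact Finset.sum_congr rfl fun j _ => mul_comm _ _) 
  by_cases hi : i ∈ f.support
  · exact h2 i hi
  · rw [Finsupp.notMem_support_iff.mp hi, map_zero]

/-- the image of a homomorphism from a finitely generated group to an `𝔽_ℓ`-vector space spans a
finite dimensional subspace. -/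
theorem finite_span_range (hfg : Group.FG Γ) (ψ : Additive Γ →+ k) :
    Module.Finite (ZMod ℓ) (Submodule.span (ZMod ℓ) (Set.range ψ)) := by
  obtain ⟨S, hS, hSfin⟩ := Group.fg_iff.mp hfg
  have hle : Submodule.span (ZMod ℓ) (Set.range ψ) =
      Submodule.span (ZMod ℓ) ((fun γ : Γ => ψ (Additive.ofMul γ)) '' S) := by
    apply le_antisymm
    · rw [Submodule.span_le]
      rintro _ ⟨γ, rfl⟩
      have hγ : Additive.toMul γ ∈ Subgroup.closure S := by rw [hS]; trivial
      have key : ∀ g : Γ, g ∈ Subgroup.closure S → ψ (Additive.ofMul g) ∈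
          Submodule.span (ZMod ℓ) ((fun γ : Γ => ψ (Additive.ofMul γ)) '' S) := by
        intro g hg
        induction hg using Subgroup.closure_induction with
        | mem x hx => exact Submodule.subset_span ⟨x, hx, rfl⟩
        | one =>
          rw [ofMul_one, map_zero]
          exact Submodule.zero_mem _
        | mul x y _ _ hx hy =>
          rw [ofMul_mul, map_add]
          exact Submodule.add_mem _ hx hy
        | inv x _ hx =>
          rw [ofMul_inv, map_neg]
          exact Submodule.neg_mem _ hx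
      exact key _ hγ
    · apply Submodule.span_mono
      rintro _ ⟨γ, -, rfl⟩
      exact ⟨_, rfl⟩
  rw [hle]
  exact Module.Finite.span_of_finite _ (hSfin.image _)

/-- **surjectivity of `evk`** onto the homomorphisms killing `P`. -/
theorem exists_evk_eq (hfg : Group.FG Γ) (lam : V →+ (Additive Γ →+ ZMod ℓ)) (P : Γ → Prop)
    (hrange : ∀ ψ : Additive Γ →+ ZMod ℓ, (∀ γ, P γ → ψ (Additive.ofMul γ) = 0) →
      ψ ∈ Set.range lam)
    (ψ : Additive Γ →+ k) (hP : ∀ γ, P γ → ψ (Additive.ofMul γ) = 0) :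
    ∃ y : k ⊗[ZMod ℓ] V, ∀ γ : Γ, evk lam y γ = ψ (Additive.ofMul γ) := by
  classical
  set U := Submodule.span (ZMod ℓ) (Set.range ψ) with hU
  have : Module.Finite (ZMod ℓ) U := finite_span_range hfg ψ
  set b := Module.finBasis (ZMod ℓ) U with hb
  -- `ψ` with values in `U`
  let ψ' : Additive Γ →+ U :=
    { toFun := fun γ => ⟨ψ γ, Submodule.subset_span ⟨γ, rfl⟩⟩
      map_zero' := Subtype.ext (map_zero ψ)
      map_add' := fun x y => Subtype.ext (map_add ψ x y) }
  -- the coordinates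
  let ψi : Fin (Module.finrank (ZMod ℓ) U) → (Additive Γ →+ ZMod ℓ) := fun i =>
    (b.coord i).toAddMonoidHom.comp ψ'
  have hψi : ∀ i, ψi i ∈ Set.range lam := by
    intro i
    apply hrange
    intro γ hγ
    have h0 : ψ' (Additive.ofMul γ) = 0 := Subtype.ext (hP γ hγ)
    show b.coord i (ψ' (Additive.ofMul γ)) = 0
    rw [h0, map_zero]
  choose v hv using hψi
  refine ⟨∑ i, ((b i : U) : k) ⊗ₜ[ZMod ℓ] v i, fun γ => ?_⟩
  rw [map_sum, Finset.sum_apply]
  simp only [evk_tmul, hv]
  have h1 := b.sum_repr (ψ' (Additive.ofMul γ))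
  have h2 := congrArg (fun u : U => (u : k)) h1
  simp only [Submodule.coe_sum, Submodule.coe_smul] at h2
  rw [show ψ (Additive.ofMul γ) = ((ψ' (Additive.ofMul γ) : U) : k) from rfl, ← h2]
  refine Finset.sum_congr rfl fun i _ => ?_
  rw [Algebra.smul_def, mul_comm]
  rfl

/-- an operator given on `lam` by a cocycle formula is given on `evk` by the same formula. -/
theorem evk_baseChange (lam : V →+ (Additive Γ →+ ZMod ℓ)) (T : Module.End (ZMod ℓ) V)
    {ι : Type*} [Fintype ι] (c : Γ → ι → Γ)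
    (hT : ∀ (x : V) (γ : Γ),
      lam (T x) (Additive.ofMul γ) = ∑ i, lam x (Additive.ofMul (c γ i)))
    (y : k ⊗[ZMod ℓ] V) (γ : Γ) :
    evk lam (T.baseChange k y) γ = ∑ i, evk lam y (c γ i) := by
  induction y using TensorProduct.induction_on with
  | zero => simp
  | tmul a x =>
    rw [LinearMap.baseChange_tmul, evk_tmul, hT, map_sum, Finset.mul_sum]
    exact Finset.sum_congr rfl fun i _ => (evk_tmul lam a x (c γ i)).symm
  | add y z hy hz =>
    rw [map_add, map_add, Pi.add_apply, hy, hz, ← Finset.sum_add_distrib]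
    exact Finset.sum_congr rfl fun i _ => by rw [map_add, Pi.add_apply]

/-- **(Supp), last step**: a nonzero homomorphism `ψ : Γ → k` killing `P` which is an eigenvector
of a family of cocycle operators gives a nonzero simultaneous eigenvector in `k ⊗ V`. -/
theorem exists_eigenvector (hfg : Group.FG Γ) (lam : V →+ (Additive Γ →+ ZMod ℓ))
    (hinj : Function.Injective lam) (P : Γ → Prop)
    (hrange : ∀ ψ : Additive Γ →+ ZMod ℓ, (∀ γ, P γ → ψ (Additive.ofMul γ) = 0) →
      ψ ∈ Set.range lam)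
    (ψ : Additive Γ →+ k) (hψ : ψ ≠ 0) (hP : ∀ γ, P γ → ψ (Additive.ofMul γ) = 0) :
    ∃ x₀ : k ⊗[ZMod ℓ] V, x₀ ≠ 0 ∧ (∀ γ : Γ, evk lam x₀ γ = ψ (Additive.ofMul γ)) ∧
      ∀ (T : Module.End (ZMod ℓ) V) {ι : Type} [Fintype ι] (c : Γ → ι → Γ) (μ : k),
        (∀ (x : V) (γ : Γ),
          lam (T x) (Additive.ofMul γ) = ∑ i, lam x (Additive.ofMul (c γ i))) →
        (∀ γ : Γ, ∑ i, ψ (Additive.ofMul (c γ i)) = μ * ψ (Additive.ofMul γ)) →
        T.baseChange k x₀ = μ • x₀ := by
  obtain ⟨x₀, hx₀⟩ := exists_evk_eq hfg lam P hrange ψ hP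
  refine ⟨x₀, ?_, hx₀, ?_⟩
  · rintro rfl
    apply hψ
    refine AddMonoidHom.ext fun γ => ?_
    have := hx₀ (Additive.toMul γ)
    rw [map_zero, Pi.zero_apply, ofMul_toMul] at this
    rw [← this]
    rfl
  · intro T ι _ c μ hT hμ
    apply evk_injective lam hinj
    ext γ
    rw [evk_baseChange lam T c hT, map_smul, Pi.smul_apply, smul_eq_mul, hx₀, ← hμ]
    exact Finset.sum_congr rfl fun i _ => hx₀ _

end Fermat.Agent.S48lib.X1.Gal
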