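import Mathlib

/-!
S48lib / X1 / Gal / Supp (helper9, block P8).  Algebra behind the support statement (Supp).

* `exists_semilinear` : for a finite faithful module `N` over a commutative ring `R` and a ring
  homomorphism `φ : R →+* k` to a field with maximal kernel there is a nonzero additive map
  `U : N →+ k` with `U (r • n) = φ r * U n` (Nakayama).
* `exists_semilinear_functional` : the case `R = ℤ̄ ⊆ ℂ`, `N = ℤ̄ · L` for a nonzero finitely
  generated subgroup `L ⊆ ℂ` (the periods of an eigenform): a nonzero additive `u : L →+ k` with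
  `u (b x) = φ b * u x` whenever `b ∈ ℤ̄`, `x, b x ∈ L`.
-/

set_option autoImplicit false
set_option linter.style.haveILetI false
set_option linter.unusedSectionVars false

noncomputable section

namespace Fermat.Agent.S48lib.X1.Gal

/-- `ℤ̄ ⊆ ℂ` -/
local notation "Zb" => integralClosure ℤ ℂ

section Abstract

variable {R N k : Type*} [CommRing R] [AddCommGroup N] [Module R N] [Module.Finite R N]
  [FaithfulSMul R N] [Field k]

/-- **Nakayama**: a nonzero `φ`-semilinear functional on a finite faithful module. -/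
theorem exists_semilinear (φ : R →+* k) (hmax : (RingHom.ker φ).IsMaximal) :
    ∃ U : N →+ k, U ≠ 0 ∧ ∀ (r : R) (n : N), U (r • n) = φ r * U n := by
  set I : Ideal R := RingHom.ker φ with hI
  haveI := hmax
  letI : Field (R ⧸ I) := Ideal.Quotient.field I
  -- `I • ⊤ ≠ ⊤`
  have hne : ¬ (⊤ : Submodule R N) ≤ I • (⊤ : Submodule R N) := by
    intro hle
    obtain ⟨r, hr, hrN⟩ := Submodule.exists_sub_one_mem_and_smul_eq_zero_of_fg_of_le_smul I
      (⊤ : Submodule R N) Module.Finite.fg_top hle
    have hr0 : r = 0 := by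
      have : ∀ n : N, r • n = (0 : R) • n := fun n => by rw [hrN n trivial, zero_smul]
      exact FaithfulSMul.eq_of_smul_eq_smul this
    rw [hr0, zero_sub] at hr
    have h1 : (1 : R) ∈ I := by simpa using I.neg_mem hr
    exact hmax.ne_top ((Ideal.eq_top_iff_one I).mpr h1)
  obtain ⟨n₀, -, hn₀⟩ := Set.not_subset.mp hne
  set Q := N ⧸ I • (⊤ : Submodule R N) with hQ
  have hq : (Submodule.Quotient.mk n₀ : Q) ≠ 0 := by
    rw [Ne, Submodule.Quotient.mk_eq_zero]
    exact hn₀
  obtain ⟨f, hf⟩ : ∃ f : Module.Dual (R ⧸ I) Q, f (Submodule.Quotient.mk n₀) ≠ 0 := by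
    by_contra hall
    push Not at hall
    exact hq ((Module.forall_dual_apply_eq_zero_iff (R ⧸ I) _).mp hall)
  refine ⟨((RingHom.kerLift φ : R ⧸ I →+* k) : R ⧸ I →+ k).comp
    (f.toAddMonoidHom.comp (Submodule.mkQ (I • (⊤ : Submodule R N))).toAddMonoidHom), ?_, ?_⟩
  · intro h0
    have := DFunLike.congr_fun h0 n₀
    simp only [AddMonoidHom.comp_apply, AddMonoidHom.zero_apply] at this
    apply hf
    apply RingHom.kerLift_injective φ
    rw [map_zero]
    exact this
  · intro r n
    simp only [AddMonoidHom.comp_apply]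
    have h1 : (Submodule.mkQ (I • (⊤ : Submodule R N))).toAddMonoidHom (r • n)
        = (Ideal.Quotient.mk I r) • (Submodule.mkQ (I • (⊤ : Submodule R N))).toAddMonoidHom n := rfl
    rw [h1]
    have h2 : f.toAddMonoidHom ((Ideal.Quotient.mk I r) •
        (Submodule.mkQ (I • (⊤ : Submodule R N))).toAddMonoidHom n)
        = (Ideal.Quotient.mk I r) * f.toAddMonoidHom
          ((Submodule.mkQ (I • (⊤ : Submodule R N))).toAddMonoidHom n) := by
      change f _ = _ * f _
      rw [map_smul, smul_eq_mul]
    rw [h2]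
    change RingHom.kerLift φ _ = _
    rw [map_mul, RingHom.kerLift_mk]
    rfl

end Abstract

section Periods

variable {k : Type*} [Field k]

theorem ker_isMaximal_of_charP (ℓ : ℕ) [Fact ℓ.Prime] [CharP k ℓ] (φ : Zb →+* k) :
    (RingHom.ker φ).IsMaximal := by
  haveI : (RingHom.ker φ).IsPrime := RingHom.ker_isPrime φ
  apply Ideal.isMaximal_of_isIntegral_of_isMaximal_comap (R := ℤ) (RingHom.ker φ)
  have h1 : (RingHom.ker φ).comap (algebraMap ℤ Zb) = RingHom.ker (algebraMap ℤ k) := by
    rw [RingHom.comap_ker]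
    congr 1
    exact RingHom.ext_int _ _
  rw [h1, CharP.ker_intAlgebraMap_eq_span ℓ]
  have hp : Prime ((ℓ : ℕ) : ℤ) := Nat.prime_iff_prime_int.mp Fact.out
  exact PrincipalIdealRing.isMaximal_of_irreducible hp.irreducible

/-- **Lemma U.**  A nonzero semilinear functional on a finitely generated group of periods. -/
theorem exists_semilinear_functional (ℓ : ℕ) [Fact ℓ.Prime] [CharP k ℓ] (φ : Zb →+* k)
    (L : AddSubgroup ℂ) (hfg : L.FG) (hL : L ≠ ⊥) :
    ∃ u : L →+ k, u ≠ 0 ∧ ∀ (b : Zb) (x : L) (hbx : (b : ℂ) * (x : ℂ) ∈ L),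
      u ⟨(b : ℂ) * (x : ℂ), hbx⟩ = φ b * u x := by
  classical
  set N : Submodule Zb ℂ := Submodule.span Zb (L : Set ℂ) with hN
  have hLN : ∀ x : L, (x : ℂ) ∈ N := fun x => Submodule.subset_span x.2
  -- `N` is finitely generated
  obtain ⟨S, hS⟩ := hfg
  have hNfg : N.FG := by
    refine ⟨S, ?_⟩
    apply le_antisymm
    · apply Submodule.span_le.mpr
      intro s hs
      apply Submodule.subset_span
      rw [← hS]
      exact AddSubgroup.subset_closure hs
    · apply Submodule.span_le.mpr
      have key : ∀ x ∈ AddSubgroup.closure (S : Set ℂ), x ∈ Submodule.span Zb (S : Set ℂ) := by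
        intro x hx'
        induction hx' using AddSubgroup.closure_induction with
        | mem y hy => exact Submodule.subset_span hy
        | zero => exact Submodule.zero_mem _
        | add y z _ _ hy hz => exact Submodule.add_mem _ hy hz
        | neg y _ hy => exact Submodule.neg_mem _ hy
      intro x hx
      exact key x (by rw [hS]; exact hx)
  haveI : Module.Finite Zb N := Module.Finite.iff_fg.mpr hNfg
  -- `N` is faithful
  obtain ⟨x₀, hx₀L, hx₀⟩ : ∃ x ∈ L, x ≠ (0 : ℂ) := by
    by_contra hall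
    push Not at hall
    apply hL
    rw [eq_bot_iff]
    intro x hx
    rw [AddSubgroup.mem_bot]
    exact hall x hx
  haveI : FaithfulSMul Zb N := by
    refine ⟨fun {r s} h => ?_⟩
    have h1 := h ⟨x₀, Submodule.subset_span hx₀L⟩
    have h2 : (r : ℂ) * x₀ = (s : ℂ) * x₀ := by
      have := congrArg Subtype.val h1
      simpa [Algebra.smul_def] using this
    exact Subtype.ext (mul_right_cancel₀ hx₀ h2)
  obtain ⟨U, hU0, hU⟩ := exists_semilinear (N := N) φ (ker_isMaximal_of_charP ℓ φ)
  let incl : L →+ N :=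
    { toFun := fun x => ⟨(x : ℂ), hLN x⟩
      map_zero' := rfl
      map_add' := fun _ _ => rfl }
  refine ⟨U.comp incl, ?_, ?_⟩
  · intro h0
    apply hU0
    ext ⟨n, hn⟩
    rw [AddMonoidHom.zero_apply]
    induction hn using Submodule.span_induction with
    | mem y hy =>
      have := DFunLike.congr_fun h0 ⟨y, hy⟩
      simpa [incl] using this
    | zero => exact map_zero U
    | add y z hy hz ihy ihz =>
      have : (⟨y + z, Submodule.add_mem _ hy hz⟩ : N) = ⟨y, hy⟩ + ⟨z, hz⟩ := rfl
      rw [this, map_add, ihy, ihz, add_zero]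
    | smul c y hy ihy =>
      have : (⟨c • y, Submodule.smul_mem _ c hy⟩ : N) = c • ⟨y, hy⟩ := rfl
      rw [this, hU, ihy, mul_zero]
  · intro b x hbx
    have : incl ⟨(b : ℂ) * (x : ℂ), hbx⟩ = b • incl x := by
      apply Subtype.ext
      simp [incl, Algebra.smul_def]
    rw [AddMonoidHom.comp_apply, this, hU]
    rfl

end Periods

end Fermat.Agent.S48lib.X1.Gal
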