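import Mathlib
import Fermat.Agent.S48lib.X1.Gal.Supp

/-!
S48lib / X1 / Gal / PeriodRed (helper9, block P8).

Reduction of a period homomorphism modulo a prime of `ℤ̄`.  `Γ` a finitely generated group,
`Per : Γ → ℂ` a nonzero homomorphism (the periods of an eigenform), `φ : ℤ̄ →+* k`, `char k = ℓ`:

* **`exists_reduction`** : a nonzero homomorphism `ψ : Γ → k` with `ψ γ = 0` whenever `Per γ = 0`,
  such that every relation `∑ i, Per (c i) = b * Per γ` with `b ∈ ℤ̄` gives
  `∑ i, ψ (c i) = φ b * ψ γ`.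
-/

set_option autoImplicit false
set_option linter.unusedSectionVars false

noncomputable section

namespace Fermat.Agent.S48lib.X1.Gal

/-- `ℤ̄ ⊆ ℂ` -/
local notation "Zb" => integralClosure ℤ ℂ

variable {Γ : Type*} [Group Γ] {k : Type*} [Field k]

/-- the subgroup of `ℂ` of the values of a homomorphism from a finitely generated group is
finitely generated. -/
theorem range_fg (hfg : Group.FG Γ) (Per : Additive Γ →+ ℂ) : (AddMonoidHom.range Per).FG := by
  have hfgA : AddGroup.FG (Additive Γ) := by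
    rw [← GroupFG.iff_add_fg]
    exact hfg
  exact (AddGroup.fg_iff_addSubgroup_fg _).mp (AddGroup.fg_range Per)

theorem exists_reduction (ℓ : ℕ) [Fact ℓ.Prime] [CharP k ℓ] (φ : Zb →+* k) (hfg : Group.FG Γ)
    (Per : Additive Γ →+ ℂ) (hPer : Per ≠ 0) :
    ∃ ψ : Additive Γ →+ k, ψ ≠ 0 ∧ (∀ γ : Γ, Per (Additive.ofMul γ) = 0 → ψ (Additive.ofMul γ) = 0) ∧
      ∀ {ι : Type} [Fintype ι] (c : ι → Γ) (γ : Γ) (b : Zb),
        ∑ i, Per (Additive.ofMul (c i)) = (b : ℂ) * Per (Additive.ofMul γ) →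
        ∑ i, ψ (Additive.ofMul (c i)) = φ b * ψ (Additive.ofMul γ) := by
  set L : AddSubgroup ℂ := AddMonoidHom.range Per with hL
  have hLfg : L.FG := range_fg hfg Per
  have hLne : L ≠ ⊥ := by
    intro h
    apply hPer
    refine AddMonoidHom.ext fun γ => ?_
    have : Per γ ∈ L := ⟨γ, rfl⟩
    rw [h, AddSubgroup.mem_bot] at this
    rw [this]
    rfl
  obtain ⟨u, hu, hsemi⟩ := exists_semilinear_functional ℓ φ L hLfg hLne
  -- `Per` with values in `L`
  let Per' : Additive Γ →+ L := Per.rangeRestrict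
  have hPer' : ∀ γ, ((Per' γ : L) : ℂ) = Per γ := fun γ => rfl
  refine ⟨u.comp Per', ?_, ?_, ?_⟩
  · intro h0
    apply hu
    refine AddMonoidHom.ext fun x => ?_
    obtain ⟨γ, hγ⟩ := x.2
    have hx : x = Per' γ := Subtype.ext hγ.symm
    rw [hx]
    exact DFunLike.congr_fun h0 γ
  · intro γ hγ
    have h0 : Per' (Additive.ofMul γ) = 0 := Subtype.ext hγ
    show u (Per' (Additive.ofMul γ)) = 0
    rw [h0, map_zero]
  · intro ι _ c γ b hrel
    have hmem : (b : ℂ) * ((Per' (Additive.ofMul γ) : L) : ℂ) ∈ L := by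
      rw [hPer', ← hrel]
      exact AddSubgroup.sum_mem _ fun i _ => ⟨_, rfl⟩
    have h1 := hsemi b (Per' (Additive.ofMul γ)) hmem
    have h2 : (⟨(b : ℂ) * ((Per' (Additive.ofMul γ) : L) : ℂ), hmem⟩ : L) =
        ∑ i, Per' (Additive.ofMul (c i)) := by
      apply Subtype.ext
      rw [AddSubgroup.val_finsetSum]
      simp only [hPer']
      exact hrel.symm
    rw [h2, map_sum] at h1
    exact h1

end Fermat.Agent.S48lib.X1.Gal
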