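import Fermat.Agent.S16lib.LG.Shimura
import Fermat.Agent.S48lib.X1.Gal.EigenGlue
import Fermat.Agent.S48lib.X1.Gal.EvalGlue
import Fermat.Agent.S48lib.X1.Gal.PeriodRed

/-!
S48lib / X1 / Gal / Final (helper9, block P8).  **The assembly interface.**

`KummerGalData Γ M ℓ` : what the geometric blocks deliver about `V = J_1(M)[ℓ]`, in the form in
which they produce it:
* a Galois action of finite level, unramified outside `M ℓ` (P6/P7);
* endomorphisms `T p`, `diam d` commuting with Galois, Eichler--Shimura relation (P4/P7);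
* the KUMMER MAP `lam : V →+ Hom(Γ, 𝔽_ℓ)` (P3 + descent): injective, its range contains the
  homomorphisms killing the parabolic and the finite order elements;
* the KUMMER TRANSFER of `T p`, `diam d` (P4): cocycle formulas
  `lam (T p x) γ = ∑ i, lam x (cT p γ i)`, `lam (diam d x) γ = lam x (cd d γ)`.

`residual_of_kummerGalData` : from this and a nonzero period homomorphism `Per : Γ → ℂ` killing the
parabolic and the finite order elements, with the SAME cocycle formulas
`∑ i, Per (cT p γ i) = b_p · Per γ`, `Per (cd d γ) = χ(d) · Per γ` (P2: periods of the eigenform),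
the conclusion of `Iface.W2Gal`.
-/

set_option autoImplicit false
set_option linter.style.haveILetI false
set_option linter.unusedSectionVars false

noncomputable section

namespace Fermat.Agent.S48lib.X1.Gal

open Polynomial Fermat.Agent.S48lib.Iface Fermat.Agent.S16lib.LG
open scoped TensorProduct MatrixGroups

/-- `ℚ̄` -/
local notation "Qb" => AlgebraicClosure ℚ
/-- `G_ℚ` -/
local notation "GQ" => (AlgebraicClosure ℚ ≃ₐ[ℚ] AlgebraicClosure ℚ)
/-- `ℤ̄ ⊆ ℂ` -/
local notation "Zb" => integralClosure ℤ ℂ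

/-- The Kummer--Galois data of `J_1(M)[ℓ]`, abstractly. -/
structure KummerGalData (Γ : Subgroup SL(2, ℤ)) (M ℓ : ℕ) where
  /-- the space -/
  V : Type
  [instAddCommGroup : AddCommGroup V]
  [instModule : Module (ZMod ℓ) V]
  /-- the Galois action -/
  ρ : GQ →* Module.End (ZMod ℓ) V
  finiteLevel : GaloisFactorsThroughFiniteLevel ρ
  unram : ∀ p : ℕ, p.Prime → ¬ p ∣ M * ℓ → ∀ B : ValuationSubring Qb, B.LiesOverPrime p →
    ∀ σ ∈ B.inertiaSubgroupIn ℚ, ρ σ = 1
  /-- the Hecke operators `T_p` -/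
  T : ℕ → Module.End (ZMod ℓ) V
  /-- the diamond operators -/
  diam : (ZMod M)ˣ → Module.End (ZMod ℓ) V
  comm_T : ∀ (p : ℕ) (σ : GQ), Commute (ρ σ) (T p)
  comm_diam : ∀ (d : (ZMod M)ˣ) (σ : GQ), Commute (ρ σ) (diam d)
  es : ∀ p : ℕ, p.Prime → ¬ p ∣ M * ℓ → ∀ d : (ZMod M)ˣ, (d : ZMod M) = (p : ZMod M) →
    ∀ B : ValuationSubring Qb, B.LiesOverPrime p → ∀ σ : GQ, B.IsFrobeniusAt σ p →
      ρ σ * ρ σ - T p * ρ σ + (p : ZMod ℓ) • diam d = 0
  /-- the Kummer map -/
  lam : V →+ (Additive Γ →+ ZMod ℓ)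
  lam_inj : Function.Injective lam
  lam_range : ∀ ψ : Additive Γ →+ ZMod ℓ,
    (∀ γ : Γ, IsParTor (γ : SL(2, ℤ)) → ψ (Additive.ofMul γ) = 0) → ψ ∈ Set.range lam
  /-- index sets of the Hecke cocycles -/
  ιT : ℕ → Type
  [fintypeιT : ∀ p, Fintype (ιT p)]
  /-- the Hecke cocycles -/
  cT : ∀ p : ℕ, Γ → ιT p → Γ
  lam_T : ∀ p : ℕ, p.Prime → ¬ p ∣ M * ℓ → ∀ (x : V) (γ : Γ),
    lam (T p x) (Additive.ofMul γ) = ∑ i, lam x (Additive.ofMul (cT p γ i))
  /-- the diamond cocycles -/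
  cd : (ZMod M)ˣ → Γ → Γ
  lam_diam : ∀ (d : (ZMod M)ˣ) (x : V) (γ : Γ),
    lam (diam d x) (Additive.ofMul γ) = lam x (Additive.ofMul (cd d γ))

attribute [instance] KummerGalData.instAddCommGroup KummerGalData.instModule
  KummerGalData.fintypeιT

namespace KummerGalData

variable {Γ : Subgroup SL(2, ℤ)} {M ℓ : ℕ} [Fact ℓ.Prime] (D : KummerGalData Γ M ℓ)

/-- `V` is finite (for `Γ` finitely generated). -/
theorem finite (hfg : Group.FG Γ) : Module.Finite (ZMod ℓ) D.V := by
  classical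
  obtain ⟨S, hS, hSfin⟩ := Group.fg_iff.mp hfg
  haveI : Finite S := hSfin.to_subtype
  let f : D.V →ₗ[ZMod ℓ] (S → ZMod ℓ) := AddMonoidHom.toZModLinearMap ℓ
    { toFun := fun x s => D.lam x (Additive.ofMul (s : Γ))
      map_zero' := by
        funext s
        rw [map_zero]
        rfl
      map_add' := fun x y => by
        funext s
        rw [map_add]
        rfl }
  have hf : Function.Injective f := by
    intro x y hxy
    apply D.lam_inj
    refine AddMonoidHom.ext fun γ => ?_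
    have hγ : Additive.toMul γ ∈ Subgroup.closure S := by rw [hS]; trivial
    have key : ∀ g : Γ, g ∈ Subgroup.closure S →
        D.lam x (Additive.ofMul g) = D.lam y (Additive.ofMul g) := by
      intro g hg
      induction hg using Subgroup.closure_induction with
      | mem s hs => exact congrFun hxy ⟨s, hs⟩
      | one => rw [ofMul_one, map_zero, map_zero]
      | mul a b _ _ ha hb => rw [ofMul_mul, map_add, map_add, ha, hb]
      | inv a _ ha => rw [ofMul_inv, map_neg, map_neg, ha]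
    exact key _ hγ
  exact Module.Finite.of_injective f hf

/-- the underlying Hecke--Galois space. -/
def toHeckeGalSpace (hfg : Group.FG Γ) : HeckeGalSpace M ℓ :=
  haveI := D.finite hfg
  { V := D.V
    ρ := D.ρ
    finiteLevel := D.finiteLevel
    unram := D.unram
    T := D.T
    diam := D.diam
    comm_T := D.comm_T
    comm_diam := D.comm_diam
    es := D.es }

end KummerGalData

/-- **The assembly**: Kummer--Galois data and the periods of an eigenform give the residual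
representation of `Iface.W2Gal`. -/
theorem residual_of_kummerGalData {Γ : Subgroup SL(2, ℤ)} (hfg : Group.FG Γ) {M ℓ : ℕ} [NeZero M]
    [Fact ℓ.Prime] (hℓ2 : ℓ ≠ 2) (D : KummerGalData Γ M ℓ) (χ : DirichletCharacter ℂ M)
    (b c : ℕ → Zb) (hc : ∀ p : ℕ, p.Prime → ¬ p ∣ M → ((c p : Zb) : ℂ) = χ (p : ZMod M))
    (k : Type) [Field k] [IsAlgClosed k] [CharP k ℓ] (φ : Zb →+* k)
    (Per : Additive Γ →+ ℂ) (hPer : Per ≠ 0)
    (hpar : ∀ γ : Γ, IsParTor (γ : SL(2, ℤ)) → Per (Additive.ofMul γ) = 0)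
    (hPT : ∀ p : ℕ, p.Prime → ¬ p ∣ M * ℓ → ∀ γ : Γ,
      ∑ i, Per (Additive.ofMul (D.cT p γ i)) = ((b p : Zb) : ℂ) * Per (Additive.ofMul γ))
    (hPd : ∀ (d : (ZMod M)ˣ) (γ : Γ),
      Per (Additive.ofMul (D.cd d γ)) = ((chiZb χ d : Zb) : ℂ) * Per (Additive.ofMul γ)) :
    ∃ ρ : ResidualGaloisRep k, IsSemisimpleRep ρ ∧
      (∀ p : ℕ, p.Prime → ¬ p ∣ M * ℓ → ρ.IsUnramifiedAt p) ∧
      ∀ p : ℕ, p.Prime → ¬ p ∣ M * ℓ →
        ∀ A : ValuationSubring Qb, A.LiesOverPrime p →
          ∀ σ : GQ, A.IsFrobeniusAt σ p →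
            LinearMap.charpoly (ρ.ρ σ) =
              X ^ 2 - C (φ (b p)) * X + C ((p : k) * φ (c p)) := by
  letI : Algebra (ZMod ℓ) k := ZMod.algebra k ℓ
  obtain ⟨ψ, hψ0, hψker, hψrel⟩ := exists_reduction ℓ φ hfg Per hPer
  obtain ⟨x₀, hx₀, -, heig⟩ := exists_eigenvector (k := k) hfg D.lam D.lam_inj
    (fun γ : Γ => IsParTor (γ : SL(2, ℤ))) D.lam_range ψ hψ0
    (fun γ hγ => hψker γ (hpar γ hγ))
  refine residual_of_heckeGalSpace hℓ2 (D.toHeckeGalSpace hfg) χ b c hc k φ x₀ hx₀ ?_ ?_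
  · intro p hp hpd
    exact heig (D.T p) (D.cT p) (φ (b p)) (D.lam_T p hp hpd)
      (fun γ => hψrel (fun i => D.cT p γ i) γ (b p) (hPT p hp hpd γ))
  · intro d
    refine heig (D.diam d) (ι := Unit) (fun γ _ => D.cd d γ) (φ (chiZb χ d)) ?_ ?_
    · intro x γ
      rw [D.lam_diam]
      simp
    · intro γ
      have := hψrel (ι := Unit) (fun _ => D.cd d γ) γ (chiZb χ d) (by simpa using hPd d γ)
      simpa using this

end Fermat.Agent.S48lib.X1.Gal
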