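import Mathlib
import Fermat.Agent.S48lib.X1.HeckeJ.DiamondPic

/-!
S48lib / X1 / Gal / DiaCancel (helper9, block P8).

Two diamond automorphisms whose matrices multiply into `±Γ₁(M)` are inverse to each other:
`diaJ δ' • diaJ δ • x = x` on `Pic⁰` when `δ * δ' ∈ ±Γ₁(M)` (in particular when the lower right
entries are inverse to each other mod `M`).
-/

set_option autoImplicit false
set_option linter.unusedSectionVars false

noncomputable section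

namespace Fermat.Agent.S48lib.X1.Gal

open AlgebraicCurve ModularCurve Fermat.Agent.ProgramR Fermat.Agent.ProgramR.BarField
open Fermat.Agent.S48lib.X1.HeckeJ Fermat.Agent.S48lib.X1.Wp
open Matrix.SpecialLinearGroup UpperHalfPlane Fermat.Agent.S29lib.H
open scoped MatrixGroups

/-- `ℚ̄` -/
local notation "Qb" => AlgebraicClosure ℚ

section An

variable {Γ : Subgroup SL(2, ℤ)} (δ δ' : SL(2, ℤ)) (hn : ∀ γ ∈ Γ, δ * γ * δ⁻¹ ∈ Γ)
  (hn' : ∀ γ ∈ Γ, δ' * γ * δ'⁻¹ ∈ Γ)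

theorem diaWH0_cancel_of_mul_mem (h : δ * δ' ∈ Γ) (a : WH0 Γ) :
    diaWH0 δ' hn' (diaWH0 δ hn a) = a := by
  apply Subtype.ext
  funext z
  show a.1 ((mapGL ℝ δ : GL (Fin 2) ℝ) • ((mapGL ℝ δ' : GL (Fin 2) ℝ) • z)) = a.1 z
  rw [← mul_smul, ← map_mul]
  exact a.2.smul_eq _ h z

theorem diaFF_cancel_of_mul_mem (h : δ * δ' ∈ Γ) (k : WH0.FunField Γ) :
    diaFF δ' hn' (diaFF δ hn k) = k := by
  have : (diaFF δ' hn').comp (diaFF δ hn) = RingHom.id _ := by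
    apply funField_ringHom_ext
    intro a
    rw [RingHom.comp_apply, diaFF_algebraMap, diaFF_algebraMap,
      diaWH0_cancel_of_mul_mem δ δ' hn hn' h]
    rfl
  exact congrArg (fun φ : WH0.FunField Γ →+* WH0.FunField Γ => φ k) this

end An

variable {M : ℕ} [NeZero M]

/-- the product of two matrices of `Γ₀(M)` with inverse lower right entries lies in `±Γ₁(M)`. -/
theorem mul_mem_pmGamma1 {δ δ' : SL(2, ℤ)} (hδ : (M : ℤ) ∣ δ 1 0) (hδ' : (M : ℤ) ∣ δ' 1 0)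
    (h : (M : ℤ) ∣ δ 1 1 * δ' 1 1 - 1) : δ * δ' ∈ pmGamma1 M := by
  rw [mem_pmGamma1_iff_dvd]
  have e0 : ((δ * δ' : SL(2, ℤ)) 1 0 : ℤ) = δ 1 0 * δ' 0 0 + δ 1 1 * δ' 1 0 := by
    rw [Matrix.SpecialLinearGroup.coe_mul, Matrix.mul_apply, Fin.sum_univ_two]
  have e1 : ((δ * δ' : SL(2, ℤ)) 1 1 : ℤ) = δ 1 0 * δ' 0 1 + δ 1 1 * δ' 1 1 := by
    rw [Matrix.SpecialLinearGroup.coe_mul, Matrix.mul_apply, Fin.sum_univ_two]
  refine ⟨?_, Or.inl ?_⟩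
  · rw [e0]
    exact dvd_add (Dvd.dvd.mul_right hδ _) (Dvd.dvd.mul_left hδ' _)
  · rw [e1]
    have : δ 1 0 * δ' 0 1 + δ 1 1 * δ' 1 1 - 1 = δ 1 0 * δ' 0 1 + (δ 1 1 * δ' 1 1 - 1) := by ring
    rw [this]
    exact dvd_add (Dvd.dvd.mul_right hδ _) h

theorem diaF1_cancel_of_mul_mem {δ δ' : SL(2, ℤ)} (hδ : (M : ℤ) ∣ δ 1 0)
    (hδ' : (M : ℤ) ∣ δ' 1 0) (h : δ * δ' ∈ pmGamma1 M)
    (x : ↥(laurentBaseChange Qb (F1 M))) : diaF1 δ' hδ' (diaF1 δ hδ x) = x := by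
  apply (isAnModel_F1 (M := M)).toFunField_injective (qbarEmb : Qb →+* ℂ)
  rw [toFunField_diaF1, toFunField_diaF1]
  exact diaFF_cancel_of_mul_mem δ δ' _ _ h _

/-- **two diamonds with matrices multiplying into `±Γ₁(M)` cancel on `Pic⁰`.** -/
theorem diaJ_smul_cancel {δ δ' : SL(2, ℤ)} (hδ : (M : ℤ) ∣ δ 1 0) (hδ' : (M : ℤ) ∣ δ' 1 0)
    (h : δ * δ' ∈ pmGamma1 M) (x : Pic0 Qb ↥(laurentBaseChange Qb (F1 M))) :
    diaJ δ' hδ' • diaJ δ hδ • x = x := by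
  have h1 : diaJ δ' hδ' * diaJ δ hδ = (1 : SemilinearAut Qb ↥(laurentBaseChange Qb (F1 M))) := by
    unfold diaJ
    rw [← map_mul]
    have : diaF1 δ' hδ' * diaF1 δ hδ =
        (1 : ↥(laurentBaseChange Qb (F1 M)) ≃ₐ[Qb] ↥(laurentBaseChange Qb (F1 M))) := by
      apply AlgEquiv.ext
      intro y
      exact diaF1_cancel_of_mul_mem hδ hδ' h y
    rw [this, map_one]
  rw [← mul_smul, h1, one_smul]

end Fermat.Agent.S48lib.X1.Gal
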