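import Mathlib
import Fermat.Agent.S48lib.X1.Desc.InstF1
import Fermat.Agent.S48lib.X1.HeckeJ.InstF1
import Fermat.Agent.S48lib.X1.HeckeJ.DiamondPic
import Fermat.Agent.S48lib.X1.HeckeJ.DiamondKum
import Fermat.Agent.S29lib.D.KummerCorr

/-!
S48lib / X1 / Gal / KumF1 (helper9, block P8).

The Kummer map of `J_1(M)[n]` (`M ≥ 4`) and its transfer formulas:
* `lam1 hM n : Pic⁰(ℚ̄ · F₁(M))[n] →+ Hom(±Γ₁(M), ℤ/n)`, injective, with range the homomorphisms
  killing the parabolic and the finite order elements;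
* `lam1_TJstd` : `lam1 (TJstd x) γ = ∑ i, lam1 x (c γ i)` (`c` the cocycle of the Hecke
  transversal);
* `lam1_diaJ`  : `lam1 (diaJ δ • x) γ = lam1 x (δ γ δ⁻¹)`.
-/

set_option autoImplicit false
set_option linter.unusedSectionVars false
set_option linter.style.haveILetI false

noncomputable section

namespace Fermat.Agent.S48lib.X1.Gal

open AlgebraicCurve ModularCurve Fermat.Agent.S29lib Fermat.Agent.S18lib
open Fermat.Agent.ProgramR Fermat.Agent.ProgramR.BarField Fermat.Agent.S16lib.LG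
open Fermat.Agent.S48lib.X1.Chart Fermat.Agent.S48lib.X1.Kummer Fermat.Agent.S48lib.X1.HeckeJ
open Fermat.Agent.S48lib.X1.Wp Fermat.Agent.S48lib.X1.Desc
open scoped MatrixGroups

/-- `ℚ̄` -/
local notation "Qb" => AlgebraicClosure ℚ

attribute [local instance] algQbC

variable {M : ℕ} [NeZero M]

/-- the pulled-back Kummer relation of `kqF1` is helper6's. -/
theorem relQ_kqF1_iff (hM : 4 ≤ M) (n : ℕ) (f : ↥(laurentBaseChange Qb (F1 M)))
    (χ : pmGamma1 M →* ℂˣ) :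
    (kqF1 hM).relQ n f χ ↔
      K1.IsKum (pmGamma1 M) n ((isAnModel_F1 (M := M)).toFunField qbarEmb f) χ := by
  have h := qExpDataOf_Φ (isAnModel_F1 (M := M)) (X1.generates_F1 (by omega : 1 < M))
    (isQModel_F1 (M := M)).jq_mem f
  have h' : (isAnModel_F1 (M := M)).toFunField qbarEmb f =
      fanEquiv (pmGamma1 M) ((kqF1 hM).Q.Φ f) := h.symm
  unfold KQData.relQ
  rw [h']
  rfl

/-- **the Kummer map of `J_1(M)[n]`**, `M ≥ 4`. -/
def lam1 (hM : 4 ≤ M) (n : ℕ) [NeZero n] :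
    Pic0.torsion Qb ↥(laurentBaseChange Qb (F1 M)) n →+ (Additive (pmGamma1 M) →+ ZMod n) :=
  (kqF1 hM).lamQ n

theorem lam1_injective (hM : 4 ≤ M) (n : ℕ) [NeZero n] : Function.Injective (lam1 hM n) :=
  (kqF1 hM).lamQ_injective n

theorem lam1_range (hM : 4 ≤ M) (n : ℕ) [NeZero n] (ψ : Additive (pmGamma1 M) →+ ZMod n)
    (hψ : ∀ γ : pmGamma1 M, IsParTor (γ : SL(2, ℤ)) → ψ (Additive.ofMul γ) = 0) :
    ψ ∈ Set.range (lam1 hM n) :=
  (kqF1 hM).lamQ_range n ψ hψ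

/-- additive endomorphisms of `Pic⁰` preserve the torsion. -/
lemma map_mem_torsion {K F : Type*} [Field K] [Field F] [Algebra K F] (n : ℕ)
    (T : Pic0 K F →+ Pic0 K F) {y : Pic0 K F} (hy : y ∈ Pic0.torsion K F n) :
    T y ∈ Pic0.torsion K F n := by
  rw [Pic0.mem_torsion] at hy ⊢
  rw [← map_zsmul, hy, map_zero]

section Hecke

variable {p : ℕ} [Fact p.Prime]

/-- **Kummer transfer of the Hecke correspondence** `TJstd = α_* β^*`. -/
theorem lam1_TJstd (hM : 4 ≤ M) (hpM : ¬ p ∣ M) (n : ℕ) [NeZero n]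
    (y : Pic0.torsion Qb ↥(laurentBaseChange Qb (F1 M)) n) :
    lam1 hM n ⟨TJstd (isQModel_F1 (M := M)) p y, map_mem_torsion n _ y.2⟩ =
      (pLevel_pmGamma1 (p := p) hpM).stdDatum.combOp (ZMod n) (lam1 hM n y) := by
  haveI := ((isQModel_F1 (M := M)).levelP p).hasPrincipalDivisors
  refine (kqF1 hM).lamQ_transfer n (TJstd (isQModel_F1 (M := M)) p)
    (fun f => S29lib.D.normAlong (alphaBar Qb (F1 M) p) (betaBar Qb (F1 M) p f)) ?_
    (fun ψ => (pLevel_pmGamma1 (p := p) hpM).stdDatum.combOp (ZMod n) ψ) ?_ y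
  · intro x f h
    exact S29lib.D.KummerRel.correspondence (betaBar Qb (F1 M) p) (alphaBar Qb (F1 M) p)
      (HeckeJ.betaBar_isIntegral isQModel_F1 p) (HeckeJ.alphaBar_isIntegral isQModel_F1 p)
      (HeckeJ.fundamentalIdentityAlong_beta isQModel_F1 p)
      (HeckeJ.finiteAlong_alpha isQModel_F1 p) (HeckeJ.normFormulaAlong_alpha isQModel_F1 p) h
  · intro f ψ _ _ _ hK
    have h1 := (relQ_kqF1_iff hM n f _).1 hK
    exact (relQ_kqF1_iff hM n _ _).2 (isKum_norm_F1 (by omega : 1 < M) hpM f n ψ h1)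

end Hecke

/-- **Kummer transfer of the diamond automorphisms**. -/
theorem lam1_diaJ (hM : 4 ≤ M) (δ : SL(2, ℤ)) (hδ : (M : ℤ) ∣ δ 1 0) (n : ℕ) [NeZero n]
    (y : Pic0.torsion Qb ↥(laurentBaseChange Qb (F1 M)) n) :
    lam1 hM n ⟨diaJ δ hδ • (y : Pic0 Qb ↥(laurentBaseChange Qb (F1 M))),
        SemilinearAut.smul_mem_torsion _ y.2⟩ =
      (lam1 hM n y).comp (MonoidHom.toAdditive (conjHom δ (normalises_pmGamma1 hδ))) := by
  refine (kqF1 hM).lamQ_transfer n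
    (DistribSMul.toAddMonoidHom (Pic0 Qb ↥(laurentBaseChange Qb (F1 M))) (diaJ δ hδ))
    (fun f => diaF1 δ hδ f) ?_
    (fun ψ => ψ.comp (MonoidHom.toAdditive (conjHom δ (normalises_pmGamma1 hδ)))) ?_ y
  · intro x f h
    exact kummerRel_diaJ δ hδ h
  · intro f ψ _ _ _ hK
    have h1 := (relQ_kqF1_iff hM n f _).1 hK
    exact (relQ_kqF1_iff hM n _ _).2 (isKum_diaF1_expChar δ hδ n f ψ h1)

end Fermat.Agent.S48lib.X1.Gal
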