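import Mathlib
import Fermat.Agent.S48lib.X1.Gal.Final
import Fermat.Agent.S48lib.X1.Gal.KumF1

/-!
S48lib / X1 / Gal / Producer (helper9, block P8).

The producer of `KummerGalData (pmGamma1 M) M ℓ` for `V = J_1(M)(ℚ̄)[ℓ]` (`M ≥ 4`): what remains
to be supplied by P5--P7 is bundled in **`ESInputs M ℓ`** (inertia acts trivially,
Eichler--Shimura relation) and the finite level of the Galois action.

* `rho1 M ℓ`, `TEnd`, `diamEnd`, `dMat`;
* `ESInputs M ℓ`;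
* `kummerGalData hM hfl I : KummerGalData (pmGamma1 M) M ℓ`.
-/

set_option autoImplicit false
set_option linter.unusedSectionVars false
set_option linter.style.haveILetI false

noncomputable section

namespace Fermat.Agent.S48lib.X1.Gal

open AlgebraicCurve ModularCurve Fermat.Agent.S29lib Fermat.Agent.S18lib
open Fermat.Agent.ProgramR Fermat.Agent.ProgramR.BarField Fermat.Agent.S16lib.LG
open Fermat.Agent.S48lib.X1.HeckeJ Fermat.Agent.S48lib.X1.Wp Fermat.Agent.S48lib.X1.Desc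
open scoped MatrixGroups

/-- `ℚ̄` -/
local notation "Qb" => AlgebraicClosure ℚ
/-- `G_ℚ` -/
local notation "GQ" => (AlgebraicClosure ℚ ≃ₐ[ℚ] AlgebraicClosure ℚ)

attribute [local instance] algQbC

/-! ### restriction of endomorphisms of `Pic⁰` to the torsion -/

section TorsEnd

variable {K F : Type*} [Field K] [Field F] [Algebra K F]

/-- the restriction of an additive endomorphism of `Pic⁰` to the `n`-torsion -/
def torsEnd (n : ℕ) (T : Pic0 K F →+ Pic0 K F) : Module.End (ZMod n) (Pic0.torsion K F n) :=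
  AddMonoidHom.toZModLinearMap n
    ((T.comp (Pic0.torsion K F n).subtype).codRestrict (Pic0.torsion K F n)
      (fun x => map_mem_torsion n T x.2))

@[simp] lemma coe_torsEnd (n : ℕ) (T : Pic0 K F →+ Pic0 K F) (x : Pic0.torsion K F n) :
    ((torsEnd n T x : Pic0.torsion K F n) : Pic0 K F) = T (x : Pic0 K F) := rfl

end TorsEnd

variable (M : ℕ) [NeZero M]

/-- `J_1(M)(ℚ̄)` -/
abbrev J1 : Type := Pic0 Qb ↥(laurentBaseChange Qb (F1 M))

/-- the Galois action on `J_1(M)[ℓ]` -/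
def rho1 (ℓ : ℕ) : GQ →* Module.End (ZMod ℓ) (Pic0.torsion Qb ↥(laurentBaseChange Qb (F1 M)) ℓ) :=
  (SemilinearAut.torsionRep Qb ↥(laurentBaseChange Qb (F1 M)) ℓ).comp (arithmeticGalois (F1 M))

@[simp] lemma coe_rho1 (ℓ : ℕ) (σ : GQ)
    (x : Pic0.torsion Qb ↥(laurentBaseChange Qb (F1 M)) ℓ) :
    ((rho1 M ℓ σ x : Pic0.torsion Qb ↥(laurentBaseChange Qb (F1 M)) ℓ) : J1 M) =
      σ • (x : J1 M) := rfl

variable {M}

lemma isCoprime_unit (d : (ZMod M)ˣ) : IsCoprime (((d : ZMod M).val : ℕ) : ℤ) (M : ℤ) :=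
  Nat.isCoprime_iff_coprime.2 (ZMod.val_coe_unit_coprime d)

/-- a matrix `(* *; M d)` inducing the diamond operator `⟨d⟩` -/
def dMat (d : (ZMod M)ˣ) : SL(2, ℤ) := (exists_delta (isCoprime_unit d)).choose

lemma dMat_one_zero (d : (ZMod M)ˣ) : dMat d 1 0 = (M : ℤ) :=
  (exists_delta (isCoprime_unit d)).choose_spec.1

lemma dMat_one_one (d : (ZMod M)ˣ) : dMat d 1 1 = (((d : ZMod M).val : ℕ) : ℤ) :=
  (exists_delta (isCoprime_unit d)).choose_spec.2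

lemma dvd_dMat (d : (ZMod M)ˣ) : (M : ℤ) ∣ dMat d 1 0 := by
  rw [dMat_one_zero]

lemma cast_dMat_one_one (d : (ZMod M)ˣ) : (((dMat d 1 1 : ℤ)) : ZMod M) = (d : ZMod M) := by
  rw [dMat_one_one]
  simp

lemma dMat_mem_Gamma0 (d : (ZMod M)ˣ) : dMat d ∈ CongruenceSubgroup.Gamma0 M := by
  rw [CongruenceSubgroup.Gamma0_mem, dMat_one_zero]
  simp

/-- the diamond operator `⟨d⟩` on `J_1(M)(ℚ̄)` -/
def diamJ (d : (ZMod M)ˣ) : J1 M →+ J1 M :=
  DistribSMul.toAddMonoidHom (J1 M) (diaJ (dMat d) (dvd_dMat d))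

@[simp] lemma diamJ_apply (d : (ZMod M)ˣ) (x : J1 M) :
    diamJ d x = diaJ (dMat d) (dvd_dMat d) • x := rfl

/-- the diamond operators on `J_1(M)[ℓ]` -/
def diamEnd (ℓ : ℕ) (d : (ZMod M)ˣ) :
    Module.End (ZMod ℓ) (Pic0.torsion Qb ↥(laurentBaseChange Qb (F1 M)) ℓ) :=
  torsEnd ℓ (diamJ d)

/-- the Hecke operator `T_p = ⟨p⟩ ∘ α_* β^*` on `J_1(M)(ℚ̄)` (`p ∤ M` prime) -/
def heckeJ (p : ℕ) [Fact p.Prime] (hpM : p.Coprime M) : J1 M →+ J1 M :=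
  (diamJ (ZMod.unitOfCoprime p hpM)).comp (TJstd (isQModel_F1 (M := M)) p)

open Classical in
/-- the Hecke operators on `J_1(M)[ℓ]` (zero for `p` not a prime or `p ∣ M`) -/
def TEnd (ℓ : ℕ) (p : ℕ) :
    Module.End (ZMod ℓ) (Pic0.torsion Qb ↥(laurentBaseChange Qb (F1 M)) ℓ) :=
  if h : p.Prime ∧ p.Coprime M then
    haveI : Fact p.Prime := ⟨h.1⟩
    torsEnd ℓ (heckeJ p h.2)
  else 0

lemma TEnd_of_prime (ℓ : ℕ) (p : ℕ) [Fact p.Prime] (hpM : p.Coprime M) :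
    TEnd (M := M) ℓ p = torsEnd ℓ (heckeJ p hpM) := by
  unfold TEnd
  rw [dif_pos ⟨Fact.out, hpM⟩]

/-- **what P5--P7 must deliver** about `J_1(M)(ℚ̄)[ℓ]`: inertia at `p ∤ M ℓ` acts trivially, and
the Eichler--Shimura relation `σ² − (⟨p⟩ T) σ + p ⟨p⟩ = 0` for `σ` a Frobenius at `p`
(`T = α_* β^*`, `⟨p⟩` induced by `f ↦ f ∘ δ`, `δ ∈ Γ₀(M)` with lower right entry `≡ p`). -/
structure ESInputs (M ℓ : ℕ) [NeZero M] : Prop where
  unram : ∀ p : ℕ, p.Prime → ¬ p ∣ M * ℓ → ∀ B : ValuationSubring Qb, B.LiesOverPrime p →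
    ∀ σ ∈ B.inertiaSubgroupIn ℚ, ∀ x : J1 M,
      x ∈ Pic0.torsion Qb ↥(laurentBaseChange Qb (F1 M)) ℓ → σ • x = x
  es : ∀ (p : ℕ) [Fact p.Prime], ¬ p ∣ M * ℓ → ∀ (δ : SL(2, ℤ)) (hδ : (M : ℤ) ∣ δ 1 0),
    (((δ 1 1 : ℤ)) : ZMod M) = (p : ZMod M) →
    ∀ B : ValuationSubring Qb, B.LiesOverPrime p → ∀ σ : GQ, B.IsFrobeniusAt σ p →
    ∀ x : J1 M, x ∈ Pic0.torsion Qb ↥(laurentBaseChange Qb (F1 M)) ℓ →
      σ • σ • x - diaJ δ hδ • TJstd (isQModel_F1 (M := M)) p (σ • x)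
        + (p : ℤ) • diaJ δ hδ • x = 0

/-! ### the cocycles -/

section Cocycles

variable {M : ℕ} [NeZero M]

/-- the diamond cocycle `γ ↦ δ_d γ δ_d⁻¹` -/
def cdFun (d : (ZMod M)ˣ) (γ : pmGamma1 M) : pmGamma1 M :=
  conjHom (dMat d) (normalises_pmGamma1 (dvd_dMat d)) γ

/-- `Option (Fin p) ≃ ℙ¹(𝔽_p)` -/
def idxEquiv (p : ℕ) [NeZero p] : Option (Fin p) ≃ OnePoint (ZMod p) :=
  Equiv.optionCongr (ZMod.finEquiv p).toEquiv

lemma not_dvd_of_prime_coprime {p : ℕ} (hp : p.Prime) (h : p.Coprime M) : ¬ p ∣ M :=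
  (Nat.Prime.coprime_iff_not_dvd hp).1 h

open Classical in
/-- the Hecke cocycles (trivial for `p` not a prime or `p ∣ M`) -/
def cTFun (p : ℕ) (γ : pmGamma1 M) (i : Option (Fin p)) : pmGamma1 M :=
  if h : p.Prime ∧ p.Coprime M then
    haveI : Fact p.Prime := ⟨h.1⟩
    (pLevel_pmGamma1 (p := p) (not_dvd_of_prime_coprime h.1 h.2)).stdDatum.c
      (cdFun (ZMod.unitOfCoprime p h.2) γ) (idxEquiv p i)
  else 1

lemma cTFun_of_prime (p : ℕ) [Fact p.Prime] (hpM : p.Coprime M) (γ : pmGamma1 M)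
    (i : Option (Fin p)) :
    cTFun p γ i = (pLevel_pmGamma1 (p := p) (not_dvd_of_prime_coprime Fact.out hpM)).stdDatum.c
      (cdFun (ZMod.unitOfCoprime p hpM) γ) (idxEquiv p i) := by
  unfold cTFun
  rw [dif_pos ⟨Fact.out, hpM⟩]

/-- sums over the index type -/
lemma sum_cTFun {A : Type*} [AddCommMonoid A] (p : ℕ) [Fact p.Prime] (hpM : p.Coprime M)
    (γ : pmGamma1 M) (F : pmGamma1 M → A) :
    ∑ i : Option (Fin p), F (cTFun p γ i) =
      ∑ x : OnePoint (ZMod p),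
        F ((pLevel_pmGamma1 (p := p) (not_dvd_of_prime_coprime Fact.out hpM)).stdDatum.c
          (cdFun (ZMod.unitOfCoprime p hpM) γ) x) := by
  rw [← Equiv.sum_comp (idxEquiv p)]
  refine Finset.sum_congr rfl fun i _ => ?_
  rw [cTFun_of_prime p hpM]

end Cocycles

/-! ### commutation with Galois -/

section Comm

variable {M : ℕ} [NeZero M]

lemma commute_rho1_torsEnd (ℓ : ℕ) (σ : GQ) (T : J1 M →+ J1 M)
    (hT : ∀ x : J1 M, T (σ • x) = σ • T x) :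
    Commute (rho1 M ℓ σ) (torsEnd ℓ T) := by
  refine LinearMap.ext fun x => Subtype.ext ?_
  show σ • T (x : J1 M) = T (σ • (x : J1 M))
  exact (hT _).symm

lemma diamJ_galois (d : (ZMod M)ˣ) (σ : GQ) (x : J1 M) : diamJ d (σ • x) = σ • diamJ d x :=
  diaJ_smul_galois (dMat d) (dvd_dMat d) σ x

lemma heckeJ_galois (p : ℕ) [Fact p.Prime] (hpM : p.Coprime M) (σ : GQ) (x : J1 M) :
    heckeJ p hpM (σ • x) = σ • heckeJ p hpM x := by
  show diamJ _ (TJstd (isQModel_F1 (M := M)) p (σ • x)) = σ • diamJ _ (TJstd _ p x)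
  rw [TJstd_galois, diamJ_galois]

lemma commute_rho1_TEnd (ℓ : ℕ) (p : ℕ) (σ : GQ) : Commute (rho1 M ℓ σ) (TEnd (M := M) ℓ p) := by
  classical
  by_cases h : p.Prime ∧ p.Coprime M
  · haveI : Fact p.Prime := ⟨h.1⟩
    rw [TEnd_of_prime ℓ p h.2]
    exact commute_rho1_torsEnd ℓ σ _ (heckeJ_galois p h.2 σ)
  · unfold TEnd
    rw [dif_neg h]
    exact Commute.zero_right _

lemma commute_rho1_diamEnd (ℓ : ℕ) (d : (ZMod M)ˣ) (σ : GQ) :
    Commute (rho1 M ℓ σ) (diamEnd (M := M) ℓ d) :=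
  commute_rho1_torsEnd ℓ σ _ (diamJ_galois d σ)

end Comm

/-! ### the producer -/

section Producer

variable {M : ℕ} [NeZero M] {ℓ : ℕ} [Fact ℓ.Prime]

instance neZero_of_fact_prime' : NeZero ℓ := ⟨(Fact.out : ℓ.Prime).ne_zero⟩

lemma coprime_of_not_dvd_mul {p : ℕ} (hp : p.Prime) (h : ¬ p ∣ M * ℓ) : p.Coprime M :=
  (Nat.Prime.coprime_iff_not_dvd hp).2 fun hd => h (Dvd.dvd.mul_right hd ℓ)

set_option maxHeartbeats 2000000 in
lemma es_rho1 (I : ESInputs M ℓ) (p : ℕ) (hp : p.Prime) (hpd : ¬ p ∣ M * ℓ) (d : (ZMod M)ˣ)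
    (hd : (d : ZMod M) = (p : ZMod M)) (B : ValuationSubring Qb) (hB : B.LiesOverPrime p)
    (σ : GQ) (hσ : B.IsFrobeniusAt σ p) :
    rho1 M ℓ σ * rho1 M ℓ σ - TEnd (M := M) ℓ p * rho1 M ℓ σ
      + (p : ZMod ℓ) • diamEnd (M := M) ℓ d = 0 := by
  haveI : Fact p.Prime := ⟨hp⟩
  have hpM : p.Coprime M := coprime_of_not_dvd_mul hp hpd
  have hdu : ZMod.unitOfCoprime p hpM = d := by
    apply Units.ext
    rw [ZMod.coe_unitOfCoprime, hd]
  rw [TEnd_of_prime ℓ p hpM]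
  apply LinearMap.ext
  intro x
  have h := I.es p hpd (dMat d) (dvd_dMat d) ((cast_dMat_one_one d).trans hd) B hB σ hσ
    (x : J1 M) x.2
  have h1 : (((p : ZMod ℓ) • diamEnd (M := M) ℓ d) x : Pic0.torsion Qb _ ℓ) =
      p • (diamEnd (M := M) ℓ d x) := by
    rw [LinearMap.smul_apply]
    exact Nat.cast_smul_eq_nsmul (ZMod ℓ) p _
  rw [LinearMap.add_apply, LinearMap.sub_apply, h1, LinearMap.zero_apply]
  apply Subtype.ext
  rw [AddSubgroup.coe_add, AddSubgroup.coe_sub, AddSubgroup.coe_nsmul, AddSubgroup.coe_zero]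
  show σ • σ • (x : J1 M) - diamJ (ZMod.unitOfCoprime p hpM)
      (TJstd (isQModel_F1 (M := M)) p (σ • (x : J1 M))) + p • diamJ d (x : J1 M) = 0
  rw [hdu, ← natCast_zsmul]
  exact h

set_option maxHeartbeats 1000000 in
lemma unram_rho1 (I : ESInputs M ℓ) (p : ℕ) (hp : p.Prime) (hpd : ¬ p ∣ M * ℓ)
    (B : ValuationSubring Qb) (hB : B.LiesOverPrime p) (σ : GQ)
    (hσ : σ ∈ B.inertiaSubgroupIn ℚ) : rho1 M ℓ σ = 1 :=
  LinearMap.ext fun x => Subtype.ext (I.unram p hp hpd B hB σ hσ (x : J1 M) x.2)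

set_option maxHeartbeats 2000000 in
lemma lam1_TEnd (hM : 4 ≤ M) (p : ℕ) (hp : p.Prime) (hpd : ¬ p ∣ M * ℓ)
    (x : Pic0.torsion Qb ↥(laurentBaseChange Qb (F1 M)) ℓ) (γ : pmGamma1 M) :
    lam1 hM ℓ (TEnd (M := M) ℓ p x) (Additive.ofMul γ) =
      ∑ i : Option (Fin p), lam1 hM ℓ x (Additive.ofMul (cTFun p γ i)) := by
  haveI : Fact p.Prime := ⟨hp⟩
  have hpM : p.Coprime M := coprime_of_not_dvd_mul hp hpd
  rw [TEnd_of_prime ℓ p hpM, sum_cTFun p hpM γ (fun c => lam1 hM ℓ x (Additive.ofMul c))]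
  have h1 := lam1_diaJ hM (dMat (ZMod.unitOfCoprime p hpM)) (dvd_dMat _) ℓ
    ⟨TJstd (isQModel_F1 (M := M)) p x, map_mem_torsion ℓ _ x.2⟩
  have h2 := lam1_TJstd hM (not_dvd_of_prime_coprime hp hpM) ℓ x
  have h3 : torsEnd ℓ (heckeJ p hpM) x =
      ⟨diaJ (dMat (ZMod.unitOfCoprime p hpM)) (dvd_dMat _) •
        ((⟨TJstd (isQModel_F1 (M := M)) p x, map_mem_torsion ℓ _ x.2⟩ :
          Pic0.torsion Qb ↥(laurentBaseChange Qb (F1 M)) ℓ) : J1 M),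
        SemilinearAut.smul_mem_torsion _ (map_mem_torsion ℓ _ x.2)⟩ := rfl
  rw [h3, h1, h2]
  rfl

set_option maxHeartbeats 1000000 in
lemma lam1_diamEnd (hM : 4 ≤ M) (d : (ZMod M)ˣ)
    (x : Pic0.torsion Qb ↥(laurentBaseChange Qb (F1 M)) ℓ) (γ : pmGamma1 M) :
    lam1 hM ℓ (diamEnd (M := M) ℓ d x) (Additive.ofMul γ) =
      lam1 hM ℓ x (Additive.ofMul (cdFun d γ)) := by
  have h1 := lam1_diaJ hM (dMat d) (dvd_dMat d) ℓ x
  have h3 : diamEnd (M := M) ℓ d x =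
      ⟨diaJ (dMat d) (dvd_dMat d) • (x : J1 M), SemilinearAut.smul_mem_torsion _ x.2⟩ := rfl
  rw [h3, h1]
  rfl

/-- **the Kummer--Galois data of `J_1(M)[ℓ]`**, `M ≥ 4`. -/
def kummerGalData (hM : 4 ≤ M) (hfl : GaloisFactorsThroughFiniteLevel (rho1 M ℓ))
    (I : ESInputs M ℓ) : KummerGalData (pmGamma1 M) M ℓ where
  V := Pic0.torsion Qb ↥(laurentBaseChange Qb (F1 M)) ℓ
  ρ := rho1 M ℓ
  finiteLevel := hfl
  unram := unram_rho1 I
  T := TEnd ℓ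
  diam := diamEnd ℓ
  comm_T := fun p σ => commute_rho1_TEnd ℓ p σ
  comm_diam := fun d σ => commute_rho1_diamEnd ℓ d σ
  es := es_rho1 I
  lam := lam1 hM ℓ
  lam_inj := lam1_injective hM ℓ
  lam_range := lam1_range hM ℓ
  ιT := fun p => Option (Fin p)
  cT := cTFun
  lam_T := lam1_TEnd hM
  cd := cdFun
  lam_diam := lam1_diamEnd hM

end Producer

end Fermat.Agent.S48lib.X1.Gal
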