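import Mathlib
import Fermat.Agent.S48lib.X1.Gal.Producer
import Fermat.Agent.S48lib.X1.Gal.DiaCancel

/-!
S48lib / X1 / Gal / ESNative (helper9, block P8).

`ESInputs M ℓ` from the NATIVE output shape of lead's `ES/Main` (`ESData.inertia_trivial`,
`ESData.frobenius_relation`):  `σ² (⟨p⟩⁻¹ x) − T (σ x) + p x = 0`, `T = α_* β^*`,
`⟨p⟩⁻¹ = diaJ δ` with `p δ₁₁ ≡ 1 (mod M)`.
-/

set_option autoImplicit false
set_option linter.unusedSectionVars false
set_option linter.style.haveILetI false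

noncomputable section

namespace Fermat.Agent.S48lib.X1.Gal

open AlgebraicCurve ModularCurve Fermat.Agent.S29lib Fermat.Agent.S18lib
open Fermat.Agent.ProgramR Fermat.Agent.ProgramR.BarField
open Fermat.Agent.S48lib.X1.HeckeJ Fermat.Agent.S48lib.X1.Wp
open scoped MatrixGroups

/-- `ℚ̄` -/
local notation "Qb" => AlgebraicClosure ℚ
/-- `G_ℚ` -/
local notation "GQ" => (AlgebraicClosure ℚ ≃ₐ[ℚ] AlgebraicClosure ℚ)

/-- the native output shape of the Eichler--Shimura block (`ES/Main`). -/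
structure ESNative (M ℓ : ℕ) [NeZero M] : Prop where
  unram : ∀ p : ℕ, p.Prime → ¬ p ∣ M * ℓ → ∀ B : ValuationSubring Qb, B.LiesOverPrime p →
    ∀ σ ∈ B.inertiaSubgroupIn ℚ, ∀ x : J1 M,
      x ∈ Pic0.torsion Qb ↥(laurentBaseChange Qb (F1 M)) ℓ → σ • x = x
  es : ∀ (p : ℕ) [Fact p.Prime], ¬ p ∣ M * ℓ →
    ∀ B : ValuationSubring Qb, B.LiesOverPrime p → ∀ σ : GQ, B.IsFrobeniusAt σ p →
    ∃ (δ : SL(2, ℤ)) (hδ : (M : ℤ) ∣ δ 1 0), (M : ℤ) ∣ (p : ℤ) * δ 1 1 - 1 ∧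
      ∀ x : J1 M, x ∈ Pic0.torsion Qb ↥(laurentBaseChange Qb (F1 M)) ℓ →
        σ • σ • (diaJ δ hδ • x) - TJstd (isQModel_F1 (M := M)) p (σ • x) + p • x = 0

variable {M ℓ : ℕ} [NeZero M]

theorem ESNative.toESInputs (N : ESNative M ℓ) : ESInputs M ℓ where
  unram := N.unram
  es := by
    intro p _ hpd δ' hδ' hδ'p B hB σ hσ x hx
    obtain ⟨δ, hδ, hδp, rel⟩ := N.es p hpd B hB σ hσ
    have h := rel x hx
    -- the two diamonds cancel
    have hmul : (M : ℤ) ∣ δ 1 1 * δ' 1 1 - 1 := by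
      rw [← ZMod.intCast_zmod_eq_zero_iff_dvd] at hδp ⊢
      push_cast at hδp ⊢
      rw [hδ'p]
      rw [← hδp]
      ring
    have hcancel : ∀ y : J1 M, diaJ δ' hδ' • diaJ δ hδ • y = y :=
      fun y => diaJ_smul_cancel hδ hδ' (mul_mem_pmGamma1 hδ hδ' hmul) y
    have h2 := congrArg (fun z : J1 M => diaJ δ' hδ' • z) h
    simp only [smul_add, smul_sub, smul_zero] at h2
    rw [diaJ_smul_galois, diaJ_smul_galois, hcancel] at h2
    have h3 : diaJ δ' hδ' • (p • x) = (p : ℤ) • diaJ δ' hδ' • x := by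
      rw [natCast_zsmul]
      exact (smul_comm p (diaJ δ' hδ') x).symm
    rw [h3] at h2
    exact h2

end Fermat.Agent.S48lib.X1.Gal
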