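/-
S48lib / X1 / Gal / UnramES  (helper1).

**From the Eichler–Shimura data (P7) to helper9's `ESInputs M ℓ`.**

`ESAt M p B` : at the place `B` of `ℚ̄` over `p ∤ M` there is an `ES.ESData B p (F1 M) (levelP (F1 M) p) Fk`
(lead's P7 structure, `X1/ES/Main.lean`) whose diamond automorphism acts on the generators by
`τ_(0,b) ↦ τ_(0, b d)` with `p d ≡ 1 (mod M)` (the shape of helper6's `exists_dia_F1`).

* `esData_TJ_eq_TJstd` : the correspondence of an `ESData` over `levelP F₀ p` IS helper6's `TJstd`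
  (`α`, `β` are determined by `coe_α`, `coe_β`);
* `diaF1_comp_eq_self` : `⟨δ⟩ ∘ dia = id` when `δ₁₁ d ≡ 1 (mod M)`;
* **`esInputs_of_esAt`** : `(∀ p ∤ M ℓ, ∀ B over p, ESAt M p B) → ESInputs M ℓ` (any `ℓ`);
* **`esNative_of_esData`** : `(∀ p ∤ M ℓ, ∀ B over p, ESDataAt M p B) → ESNative M ℓ`, where
  `ESDataAt M p B` := `∃ Fk E δ hδ, M ∣ p δ₁₁ - 1 ∧ E.dia = diaF1 δ hδ` (lead's `InstF1` shape);
  `esDataAt_of_esAt`, `esNative_of_esAt`.
-/
import Mathlib
import Fermat.Agent.S48lib.X1.ES.Main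
import Fermat.Agent.S48lib.X1.Gal.Producer
import Fermat.Agent.S48lib.X1.Gal.ESNative

set_option autoImplicit false
set_option linter.unusedSectionVars false
set_option linter.style.haveILetI false

noncomputable section

namespace Fermat.Agent.S48lib.X1.Gal

open AlgebraicCurve ModularCurve Fermat.Agent.S18lib Fermat.Agent.S28lib Fermat.Agent.S37lib
open Fermat.Agent.ProgramR Fermat.Agent.ProgramR.BarField
open Fermat.Agent.S48lib.X1.HeckeJ Fermat.Agent.S48lib.X1.ES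
open scoped MatrixGroups

local notation "Qb" => AlgebraicClosure ℚ
local notation "GQ" => (AlgebraicClosure ℚ ≃ₐ[ℚ] AlgebraicClosure ℚ)

/-! ### the generators only depend on `b` modulo `M` -/

section Congr

theorem zpow_eq_of_modEq {G : Type*} [Group G] {ζ : G} {M : ℕ} (hζ : ζ ^ M = 1) {x y : ℤ}
    (h : x ≡ y [ZMOD M]) : ζ ^ x = ζ ^ y := by
  obtain ⟨c, hc⟩ := h.symm.dvd
  have : x = y + M * c := by linarith
  rw [this, zpow_add, zpow_mul, zpow_natCast, hζ, one_zpow, mul_one]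

theorem Xq_congr {R : Type*} [CommRing R] (M : ℕ) (ζ : Rˣ) (hζ : ζ ^ M = 1) (κ : R) {b b' : ℤ}
    (h : b ≡ b' [ZMOD M]) : Xq M ζ κ b = Xq M ζ κ b' := by
  ext m
  rw [Xq, Xq, PowerSeries.coeff_mk, PowerSeries.coeff_mk, cX_congr_right M ζ hζ 0 h]

theorem tauqL_congr {L : Type*} [Field L] (M : ℕ) (ζ : Lˣ) (hζ : ζ ^ M = 1) {b b' : ℤ}
    (h : b ≡ b' [ZMOD M]) : tauqL L M ζ b = tauqL L M ζ b' := by
  rw [tauqL, tauqL, zpow_eq_of_modEq hζ h, tauq, tauq, Xq_congr M ζ hζ _ h]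

variable {M : ℕ} [NeZero M]

theorem tauB_congr {b b' : ℤ} (h : b ≡ b' [ZMOD M]) (hb : ¬ (M : ℤ) ∣ b) (hb' : ¬ (M : ℤ) ∣ b') :
    tauB hb = tauB hb' :=
  Subtype.ext (tauqL_congr M (zbar M) (zbar_spec M).pow_eq_one h)

end Congr

/-! ### the correspondence of an `ESData` is `TJstd` -/

section TJ

variable {A : ValuationSubring Qb} {p : ℕ} [Fact p.Prime] [NeZero p]
  {F₀ : IntermediateField ℚ (LaurentSeries ℚ)}
  {Fk : IntermediateField (IsLocalRing.ResidueField A) (LaurentSeries (IsLocalRing.ResidueField A))}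

theorem esData_α_eq (E : ESData A p F₀ (levelP F₀ p) Fk) : E.α = alphaBar Qb F₀ p :=
  AlgHom.ext fun x => Subtype.ext ((E.coe_α x).trans (coe_alphaBar Qb F₀ p x).symm)

theorem esData_β_eq (E : ESData A p F₀ (levelP F₀ p) Fk) : E.β = betaBar Qb F₀ p :=
  AlgHom.ext fun x => Subtype.ext ((E.coe_β x).trans (coe_betaBar Qb F₀ p x).symm)

theorem correspondence_congr {K F F' : Type*} [Field K] [Field F] [Field F'] [Algebra K F]
    [Algebra K F'] [HasPrincipalDivisors K F']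
    {β β' α α' : F →ₐ[K] F'} (hβ : β = β') (hα : α = α')
    (h1 : β.toRingHom.IsIntegral) (h2 : α.toRingHom.IsIntegral)
    (h3 : FundamentalIdentityAlong K β h1) (h4 : FiniteAlong K α) (h5 : NormFormulaAlong K α h4)
    (h1' : β'.toRingHom.IsIntegral) (h2' : α'.toRingHom.IsIntegral)
    (h3' : FundamentalIdentityAlong K β' h1') (h4' : FiniteAlong K α')
    (h5' : NormFormulaAlong K α' h4') :
    Pic0.correspondence β α h1 h2 h3 h4 h5 = Pic0.correspondence β' α' h1' h2' h3' h4' h5' := by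
  subst hβ; subst hα; rfl

/-- **the Hecke correspondence of an `ESData` is the standard one.** -/
theorem esData_TJ_eq_TJstd (E : ESData A p F₀ (levelP F₀ p) Fk) (h : IsQModel F₀) :
    E.TJ = TJstd h p := by
  haveI := E.hP'
  exact correspondence_congr (esData_β_eq E) (esData_α_eq E) _ _ _ _ _ _ _ _ _ _

end TJ

/-! ### the diamond of the data against `⟨δ⟩` -/

section Dia

variable {M : ℕ} [NeZero M]

set_option quotPrecheck false in
local notation "FB1" => ↥(laurentBaseChange Qb (F1 M))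

/-- if `dia` fixes `j` and acts on the generators by `τ_(0,b) ↦ τ_(0, b d)`, and `δ ∈ Γ₀(M)` has
`δ₁₁ d ≡ 1 (mod M)`, then `⟨δ⟩ ∘ dia = id`. -/
theorem diaF1_comp_eq_self (dia : FB1 ≃ₐ[Qb] FB1) (d : ℤ)
    (hj : dia (jBq (F1 M) (jq_mem_F1 M)) = jBq (F1 M) (jq_mem_F1 M))
    (hτ : ∀ {b : ℤ} (hb : ¬ (M : ℤ) ∣ b) (hb' : ¬ (M : ℤ) ∣ b * d), dia (tauB hb) = tauB hb')
    (hd : IsCoprime d (M : ℤ))
    (δ : SL(2, ℤ)) (hδ : (M : ℤ) ∣ δ 1 0) (hδd : (M : ℤ) ∣ d * δ 1 1 - 1) (x : FB1) :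
    diaF1 δ hδ (dia x) = x := by
  let f₁ : FB1 →+* FB1 := ((diaF1 δ hδ : FB1 ≃+* FB1).toRingHom).comp (dia : FB1 ≃+* FB1).toRingHom
  have h : x ∈ RingHom.eqLocusField f₁ (RingHom.id FB1) := by
    refine forall_mem_of_gen _ (genSet Qb M (zbar M)) (FBar1_le_genL M) ?_ ?_ x
    · intro c
      show diaF1 δ hδ (dia (algebraMap Qb FB1 c)) = algebraMap Qb FB1 c
      rw [AlgEquiv.commutes, AlgEquiv.commutes]
    · rintro y (rfl | ⟨b, hb, rfl⟩)
      · refine ⟨jqModC_mem (F1 M) (jq_mem_F1 M), ?_⟩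
        show diaF1 δ hδ (dia (jBq (F1 M) (jq_mem_F1 M))) = jBq (F1 M) (jq_mem_F1 M)
        rw [hj, diaF1_jBq]
      · refine ⟨tauqL_mem_FBar1 M hb, ?_⟩
        have hbd : ¬ (M : ℤ) ∣ b * d := fun hdvd =>
          not_dvd_mul_of_isCoprime hd hb (by rwa [mul_comm])
        show diaF1 δ hδ (dia (tauB hb)) = tauB hb
        rw [hτ hb hbd, diaF1_tauB]
        refine tauB_congr ?_ _ _
        obtain ⟨c, hc⟩ := hδd
        refine (Int.modEq_iff_dvd.mpr ⟨b * c, ?_⟩).symm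
        linear_combination b * hc
  exact h

end Dia

/-! ### the main theorem -/

section Main

/-- at the place `B` of `ℚ̄` over `p` there is an Eichler–Shimura datum for `F₁(M)` whose diamond
acts on the generators by `τ_(0,b) ↦ τ_(0, b d)`, `p d ≡ 1 (mod M)` -/
def ESAt (M : ℕ) [NeZero M] (p : ℕ) [Fact p.Prime] [NeZero p] (B : ValuationSubring Qb) : Prop :=
  ∃ (Fk : IntermediateField (IsLocalRing.ResidueField B)
      (LaurentSeries (IsLocalRing.ResidueField B)))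
    (E : ESData B p (F1 M) (levelP (F1 M) p) Fk) (d : ℤ), (M : ℤ) ∣ (p : ℤ) * d - 1 ∧
      ∀ {b : ℤ} (hb : ¬ (M : ℤ) ∣ b) (hb' : ¬ (M : ℤ) ∣ b * d), E.dia (tauB hb) = tauB hb'

variable {M : ℕ} [NeZero M] {ℓ : ℕ}

theorem natCast_ne_zero_of_esData {B : ValuationSubring Qb} {p : ℕ} [Fact p.Prime] [NeZero p]
    {F₀ F₀' : IntermediateField ℚ (LaurentSeries ℚ)}
    {Fk : IntermediateField (IsLocalRing.ResidueField B)
      (LaurentSeries (IsLocalRing.ResidueField B))}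
    (E : ESData B p F₀ F₀' Fk) (hpd : ¬ p ∣ M * ℓ) :
    ((ℓ : ℕ) : IsLocalRing.ResidueField B) ≠ 0 := by
  haveI := E.charP_kA
  rw [Ne, CharP.cast_eq_zero_iff (IsLocalRing.ResidueField B) p ℓ]
  exact fun h => hpd (h.mul_left M)

theorem exists_pow_smul_eq_zero_of_mem_torsion {K F : Type*} [Field K] [Field F] [Algebra K F]
    {n : ℕ} {x : Pic0 K F} (hx : x ∈ Pic0.torsion K F n) : ∃ m : ℕ, n ^ m • x = 0 :=
  ⟨1, by rw [pow_one, ← natCast_zsmul]; exact Pic0.mem_torsion.mp hx⟩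

/-- **helper9's `ESInputs M ℓ` from the Eichler–Shimura data at all `p ∤ M ℓ`.** -/
theorem esInputs_of_esAt
    (h : ∀ (p : ℕ) [Fact p.Prime] [NeZero p], ¬ p ∣ M * ℓ → ∀ B : ValuationSubring Qb,
      B.LiesOverPrime p → ESAt M p B) : ESInputs M ℓ where
  unram := by
    intro p hp hpd B hB σ hσ x hx
    haveI : Fact p.Prime := ⟨hp⟩
    haveI : NeZero p := ⟨hp.ne_zero⟩
    obtain ⟨Fk, E, d, -, -⟩ := h p hpd B hB
    exact E.inertia_trivial ℓ (natCast_ne_zero_of_esData E hpd) σ hσ x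
      (exists_pow_smul_eq_zero_of_mem_torsion hx)
  es := by
    intro p _ hpd δ hδ hδp B hB σ hσ x hx
    haveI : NeZero p := ⟨(Fact.out : p.Prime).ne_zero⟩
    obtain ⟨Fk, E, d, hd, hτ⟩ := h p hpd B hB
    have hrel := E.frobenius_relation ℓ (natCast_ne_zero_of_esData E hpd) σ hσ x
      (exists_pow_smul_eq_zero_of_mem_torsion hx)
    have hTJ : E.TJ = TJstd (isQModel_F1 (M := M)) p := esData_TJ_eq_TJstd E isQModel_F1
    -- `d` is prime to `M` and `d δ₁₁ ≡ 1`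
    obtain ⟨c, hc⟩ := hd
    have hdM : IsCoprime d (M : ℤ) := ⟨(p : ℤ), -c, by linear_combination hc⟩
    have hδd : (M : ℤ) ∣ d * δ 1 1 - 1 := by
      have h1 : (M : ℤ) ∣ δ 1 1 - (p : ℤ) := by
        have := (ZMod.intCast_eq_intCast_iff_dvd_sub (p : ℤ) (δ 1 1) M).mp (by
          rw [hδp]; simp)
        exact this
      obtain ⟨c', hc'⟩ := h1
      exact ⟨d * c' + c, by linear_combination d * hc' + hc⟩
    have hjF : E.dia (jBq (F1 M) (jq_mem_F1 M)) = jBq (F1 M) (jq_mem_F1 M) := E.dia_jF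
    have hcomp : diaJ δ hδ * E.diaS = 1 := by
      have h1 : (diaF1 δ hδ) * E.dia = 1 :=
        AlgEquiv.ext fun y => diaF1_comp_eq_self E.dia d hjF hτ hdM δ hδ hδd y
      show SemilinearAut.ofAlgAut (diaF1 δ hδ) * SemilinearAut.ofAlgAut E.dia = 1
      rw [← map_mul, h1, map_one]
    have key : diaJ δ hδ • (σ • σ • (E.diaS • x)) - diaJ δ hδ • E.TJ (σ • x)
        + diaJ δ hδ • (p • x) = 0 := by
      have h0 := congrArg (DistribSMul.toAddMonoidHom (J1 M) (diaJ δ hδ)) hrel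
      rw [map_add, map_sub, map_zero] at h0
      exact h0
    have e1 : diaJ δ hδ • (σ • σ • (E.diaS • x)) = σ • σ • x := by
      rw [diaJ_smul_galois, diaJ_smul_galois]
      have : diaJ δ hδ • (E.diaS • x) = x :=
        (mul_smul (diaJ δ hδ) E.diaS x).symm.trans (by rw [hcomp, one_smul])
      rw [this]
    have hp : diaJ δ hδ • (p • x) = (p : ℤ) • diaJ δ hδ • x := by
      rw [natCast_zsmul]
      exact map_nsmul (DistribSMul.toAddMonoidHom (J1 M) (diaJ δ hδ)) p x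
    rw [e1, hp, hTJ] at key
    exact key

/-- the hypothesis in the shape of lead's `X1/ES/InstF1`: at the place `B` over `p` there is an
Eichler–Shimura datum for `F₁(M)` with diamond `⟨δ⟩`, `δ ∈ Γ₀(M)`, `p δ₁₁ ≡ 1 (mod M)`. -/
def ESDataAt (M : ℕ) [NeZero M] (p : ℕ) [Fact p.Prime] [NeZero p] (B : ValuationSubring Qb) :
    Prop :=
  ∃ (Fk : IntermediateField (IsLocalRing.ResidueField B)
      (LaurentSeries (IsLocalRing.ResidueField B)))
    (E : ESData B p (F1 M) (levelP (F1 M) p) Fk) (δ : SL(2, ℤ)) (hδ : (M : ℤ) ∣ δ 1 0),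
      (M : ℤ) ∣ (p : ℤ) * δ 1 1 - 1 ∧ E.dia = diaF1 δ hδ

/-- **helper9's `ESNative M ℓ` from the Eichler–Shimura data at all `p ∤ M ℓ`** (lead's `InstF1`
shape). -/
theorem esNative_of_esData
    (h : ∀ (p : ℕ) [Fact p.Prime] [NeZero p], ¬ p ∣ M * ℓ → ∀ B : ValuationSubring Qb,
      B.LiesOverPrime p → ESDataAt M p B) : ESNative M ℓ where
  unram := by
    intro p hp hpd B hB σ hσ x hx
    haveI : Fact p.Prime := ⟨hp⟩
    haveI : NeZero p := ⟨hp.ne_zero⟩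
    obtain ⟨Fk, E, δ, hδ, -, -⟩ := h p hpd B hB
    exact E.inertia_trivial ℓ (natCast_ne_zero_of_esData E hpd) σ hσ x
      (exists_pow_smul_eq_zero_of_mem_torsion hx)
  es := by
    intro p _ hpd B hB σ hσ
    haveI : NeZero p := ⟨(Fact.out : p.Prime).ne_zero⟩
    obtain ⟨Fk, E, δ, hδ, hδp, hdia⟩ := h p hpd B hB
    refine ⟨δ, hδ, hδp, fun x hx => ?_⟩
    have hrel := E.frobenius_relation ℓ (natCast_ne_zero_of_esData E hpd) σ hσ x
      (exists_pow_smul_eq_zero_of_mem_torsion hx)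
    have hTJ : E.TJ = TJstd (isQModel_F1 (M := M)) p := esData_TJ_eq_TJstd E isQModel_F1
    have hS : E.diaS = diaJ δ hδ := by
      show SemilinearAut.ofAlgAut E.dia = SemilinearAut.ofAlgAut (diaF1 δ hδ)
      rw [hdia]
    rw [hTJ, hS] at hrel
    exact hrel

/-- the generator shape implies lead's shape: `dia` is `⟨δ⟩` for any `δ ∈ Γ₀(M)` with
`δ₁₁ = d`. -/
theorem esDataAt_of_esAt {p : ℕ} [Fact p.Prime] [NeZero p] {B : ValuationSubring Qb}
    (h : ESAt M p B) : ESDataAt M p B := by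
  obtain ⟨Fk, E, d, hd, hτ⟩ := h
  obtain ⟨c, hc⟩ := hd
  have hdM : IsCoprime d (M : ℤ) := ⟨(p : ℤ), -c, by linear_combination hc⟩
  obtain ⟨δ, h10, h11⟩ := exists_delta (M := M) hdM
  have hδ : (M : ℤ) ∣ δ 1 0 := by rw [h10]
  refine ⟨Fk, E, δ, hδ, ⟨c, by rw [h11]; exact hc⟩, ?_⟩
  -- `⟨δ⁻¹⟩ ∘ dia = id`, hence `dia = ⟨δ⟩`
  have hjF : E.dia (jBq (F1 M) (jq_mem_F1 M)) = jBq (F1 M) (jq_mem_F1 M) := E.dia_jF
  have hdet := sl_det_eq δ
  have hinv : (M : ℤ) ∣ d * (δ⁻¹ : SL(2, ℤ)) 1 1 - 1 := by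
    rw [inv_one_one]
    refine ⟨δ 0 1, ?_⟩
    rw [h11, h10] at hdet
    linear_combination hdet
  apply AlgEquiv.ext
  intro x
  have h1 := diaF1_comp_eq_self E.dia d hjF hτ hdM δ⁻¹ (dvd_inv_one_zero hδ) hinv x
  -- apply `⟨δ⟩`
  have h2 := congrArg (diaF1 δ hδ) h1
  rw [← h2]
  have h3 : ∀ y, diaF1 δ hδ (diaF1 δ⁻¹ (dvd_inv_one_zero hδ) y) = y := fun y =>
    (diaF1 δ hδ).apply_symm_apply y
  exact (h3 _).symm

/-- `ESNative M ℓ` from the generator shape. -/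
theorem esNative_of_esAt
    (h : ∀ (p : ℕ) [Fact p.Prime] [NeZero p], ¬ p ∣ M * ℓ → ∀ B : ValuationSubring Qb,
      B.LiesOverPrime p → ESAt M p B) : ESNative M ℓ :=
  esNative_of_esData fun p _ _ hpd B hB => esDataAt_of_esAt (h p hpd B hB)

end Main

end Fermat.Agent.S48lib.X1.Gal
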