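/-
S48lib / X1 / Gal / FinLevel  (helper2, block P8; PARAM port of `S29lib/GH/OpenStab` (helper9))

Open stabilisers for a general `q`-model `F₀` (`HeckeJ.IsQModel F₀`): every element of
`FBq F₀ = ℚ̄ · F₀`, every place and every divisor of `FBq F₀`, and every class of
`Pic⁰ (ℚ̄ · F₀)`, is fixed by `Gal(ℚ̄/L)` for some finite `L/ℚ` (`S29lib.GH.FiniteLevel`).
Consequence: a finite set of classes (e.g. the `n`-torsion, once known to be finite) is fixed
pointwise by some `Gal(ℚ̄/L)`.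

Proof for a place `P`: take a uniformiser `f` of `P`; `σ` fixing the (finitely many) coefficients of
`f` permutes the finite support of `div f`, and finitely many functions `h_Q ∈ P \ Q` separate `P`
from the other places `Q` of that support.
-/
import Mathlib
import Fermat.Agent.S29lib.GH.OpenStab
import Fermat.Agent.S48lib.X1.HeckeJ.QModel

set_option autoImplicit false
set_option linter.style.haveILetI false
set_option linter.unusedSectionVars false

noncomputable section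

namespace Fermat.Agent.S48lib.X1.Gal

open AlgebraicCurve ModularCurve AlgebraicCurve.SemilinearAut IntermediateField
open Fermat.Agent.S29lib.GH Fermat.Agent.S48lib.X1.HeckeJ
open scoped Pointwise

local notation "Qb" => AlgebraicClosure ℚ
local notation "GQ" => (AlgebraicClosure ℚ ≃ₐ[ℚ] AlgebraicClosure ℚ)

variable {F₀ : IntermediateField ℚ (LaurentSeries ℚ)}

/-- elements of the function field `ℚ̄ · F₀` -/
theorem finiteLevel_fix_elemQ (f : FBq F₀) : FiniteLevel {σ : GQ | galAutQ F₀ σ • f = f} := by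
  refine (finiteLevel_fix_series f.2).mono fun σ hσ => ?_
  exact Subtype.ext hσ

/-- two distinct places are separated by a function -/
theorem exists_mem_not_mem_of_neQ {P Q : Place Qb (FBq F₀)} (h : Q ≠ P) :
    ∃ f : FBq F₀, f ∈ P.toValuationSubring ∧ f ∉ Q.toValuationSubring := by
  by_contra hcon
  push Not at hcon
  exact h (Place.ext (ValuationSubring.eq_of_le_of_ne_top _ hcon Q.ne_top')).symm

/-- **places of `ℚ̄ · F₀` have open stabilisers** -/
theorem finiteLevel_fix_placeQ (hq : IsQModel F₀) (P : Place Qb (FBq F₀)) :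
    FiniteLevel {σ : GQ | galAutQ F₀ σ • P = P} := by
  classical
  haveI := hq.hasPrincipalDivisors
  obtain ⟨π, hπ⟩ := IsDiscreteValuationRing.exists_irreducible P.toValuationSubring
  have hf0 : (π : FBq F₀) ≠ 0 := by
    simpa [ne_eq, ZeroMemClass.coe_eq_zero] using hπ.ne_zero
  have hord : P.ord (π : FBq F₀) = 1 := P.ord_coe_irreducible hπ
  obtain ⟨D, hD, -⟩ := HasPrincipalDivisors.exists_divisor (K := Qb) (π : FBq F₀) hf0
  have hsep : ∀ Q : Place Qb (FBq F₀), ∃ h : FBq F₀, Q ≠ P →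
      (h ∈ P.toValuationSubring ∧ h ∉ Q.toValuationSubring) := by
    intro Q
    by_cases hQ : Q = P
    · exact ⟨0, fun h => absurd hQ h⟩
    · obtain ⟨h, hh⟩ := exists_mem_not_mem_of_neQ hQ
      exact ⟨h, fun _ => hh⟩
  choose h hh using hsep
  have hS : FiniteLevel ({σ : GQ | galAutQ F₀ σ • (π : FBq F₀) = (π : FBq F₀)} ∩
      ⋂ Q ∈ D.support, {σ : GQ | galAutQ F₀ σ • h Q = h Q}) :=
    (finiteLevel_fix_elemQ _).inter
      (finiteLevel_biInter _ _ fun Q _ => finiteLevel_fix_elemQ (h Q))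
  refine hS.mono fun σ hσ => ?_
  obtain ⟨hσ1, hσ2⟩ := hσ
  simp only [Set.mem_iInter, Set.mem_ofPred_eq] at hσ1 hσ2
  show galAutQ F₀ σ • P = P
  set g := galAutQ F₀ σ with hg
  by_contra hne
  have hmem : g • P ∈ D.support := by
    rw [Finsupp.mem_support_iff, hD]
    have := SemilinearAut.ord_smul g P (π : FBq F₀)
    rw [hσ1] at this
    rw [this, hord]
    exact one_ne_zero
  obtain ⟨h1, h2⟩ := hh (g • P) hne
  apply h2
  have := ValuationSubring.smul_mem_pointwise_smul g (h (g • P)) P.toValuationSubring h1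
  rw [hσ2 (g • P) hmem] at this
  exact this

/-- divisors of `ℚ̄ · F₀` have open stabilisers -/
theorem finiteLevel_fix_divisorQ (hq : IsQModel F₀) (D : Divisor Qb (FBq F₀)) :
    FiniteLevel {σ : GQ | galAutQ F₀ σ • D = D} := by
  have hS : FiniteLevel (⋂ P ∈ D.support, {σ : GQ | galAutQ F₀ σ • P = P}) :=
    finiteLevel_biInter _ _ fun P _ => finiteLevel_fix_placeQ hq P
  refine hS.mono fun σ hσ => ?_
  simp only [Set.mem_iInter, Set.mem_ofPred_eq] at hσ
  show galAutQ F₀ σ • D = D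
  rw [divisor_smul_def, Finsupp.mapDomain_congr (g := id) fun P hP => hσ P hP,
    Finsupp.mapDomain_id]

/-- **classes of `Pic⁰ (ℚ̄ · F₀)` have open stabilisers** -/
theorem finiteLevel_fix_classQ (hq : IsQModel F₀) (x : Pic0 Qb (FBq F₀)) :
    FiniteLevel {σ : GQ | σ • x = x} := by
  obtain ⟨D, rfl⟩ := Pic0.mk_surjective x
  refine (finiteLevel_fix_divisorQ hq (D : Divisor Qb (FBq F₀))).mono fun σ hσ => ?_
  show galAutQ F₀ σ • Pic0.mk D = Pic0.mk D
  rw [pic0_smul_mk]
  exact congrArg Pic0.mk (Subtype.ext hσ)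

/-- a finite set of classes is fixed pointwise by some `Gal(ℚ̄/L)`, `L/ℚ` finite. -/
theorem finiteLevel_fix_finite (hq : IsQModel F₀) (S : Set (Pic0 Qb (FBq F₀))) (hfin : S.Finite) :
    ∃ L : IntermediateField ℚ Qb, FiniteDimensional ℚ L ∧
      ∀ σ : GQ, (∀ y ∈ L, σ y = y) → ∀ x ∈ S, σ • x = x := by
  haveI : Finite S := hfin.to_subtype
  have hS : FiniteLevel (⋂ x : S, {σ : GQ | σ • (x : Pic0 Qb (FBq F₀)) = x}) :=
    finiteLevel_iInter _ fun x => finiteLevel_fix_classQ hq x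
  obtain ⟨L, hL, h⟩ := hS
  refine ⟨L, hL, fun σ hσ x hx => ?_⟩
  have := h σ hσ
  simp only [Set.mem_iInter, Set.mem_ofPred_eq] at this
  exact this ⟨x, hx⟩

/-- **finite level of the `n`-torsion**, given its finiteness. -/
theorem finiteLevel_torsionQ (hq : IsQModel F₀) (n : ℕ)
    (hfin : {x : Pic0 Qb (FBq F₀) | n • x = 0}.Finite) :
    ∃ L : IntermediateField ℚ Qb, FiniteDimensional ℚ L ∧
      ∀ σ : GQ, (∀ y ∈ L, σ y = y) → ∀ x : Pic0 Qb (FBq F₀), n • x = 0 → σ • x = x :=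
  finiteLevel_fix_finite hq _ hfin

/-- the same, for the Prelude's `Pic0.torsion`. -/
theorem finiteLevel_torsionQ' (hq : IsQModel F₀) (n : ℕ)
    (hfin : Finite (Pic0.torsion Qb (FBq F₀) n)) :
    ∃ L : IntermediateField ℚ Qb, FiniteDimensional ℚ L ∧
      ∀ σ : GQ, (∀ y ∈ L, σ y = y) →
        ∀ x : Pic0 Qb (FBq F₀), x ∈ Pic0.torsion Qb (FBq F₀) n → σ • x = x :=
  finiteLevel_fix_finite hq _ (Set.toFinite (Pic0.torsion Qb (FBq F₀) n : Set (Pic0 Qb (FBq F₀))))

variable (F₀) in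
/-- **the Galois representation on the `n`-torsion of `Pic⁰ (ℚ̄ · F₀)`** (Prelude `torsionRep`
composed with the arithmetic Galois action). -/
def rhoTors (n : ℕ) : GQ →* Module.End (ZMod n) (Pic0.torsion Qb (FBq F₀) n) :=
  (SemilinearAut.torsionRep Qb (FBq F₀) n).comp (arithmeticGalois F₀)

@[simp]
theorem coe_rhoTors_apply (n : ℕ) (σ : GQ) (x : Pic0.torsion Qb (FBq F₀) n) :
    ((rhoTors F₀ n σ x : Pic0.torsion Qb (FBq F₀) n) : Pic0 Qb (FBq F₀)) =
      σ • (x : Pic0 Qb (FBq F₀)) :=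
  rfl

/-- **`rhoTors` has finite level** as soon as the `n`-torsion is finite. -/
theorem finiteLevel_rhoTors (hq : IsQModel F₀) (n : ℕ)
    (hfin : Finite (Pic0.torsion Qb (FBq F₀) n)) :
    GaloisFactorsThroughFiniteLevel (rhoTors F₀ n) := by
  obtain ⟨L, hL, h⟩ := finiteLevel_torsionQ' hq n hfin
  refine ⟨L, hL, fun σ hσ => ?_⟩
  refine LinearMap.ext fun x => Subtype.ext ?_
  rw [coe_rhoTors_apply]
  exact h σ hσ x x.2

/-- a `G_ℚ`-equivariant additive endomorphism of `Pic⁰` commutes with `rhoTors` on the torsion. -/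
theorem rhoTors_comm (n : ℕ) (T : Pic0 Qb (FBq F₀) →+ Pic0 Qb (FBq F₀))
    (hT : ∀ (σ : GQ) (x : Pic0 Qb (FBq F₀)), T (σ • x) = σ • T x) (σ : GQ)
    (x : Pic0.torsion Qb (FBq F₀) n) :
    T ((rhoTors F₀ n σ x : Pic0.torsion Qb (FBq F₀) n) : Pic0 Qb (FBq F₀)) =
      σ • T (x : Pic0 Qb (FBq F₀)) := by
  rw [coe_rhoTors_apply, hT]

end Fermat.Agent.S48lib.X1.Gal
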