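import Fermat.Agent.S48lib.X1.Gal.Levels

/-!
S48lib / X1 / Gal / Levels9 (helper9, block P8).

**`W2Gal (9 * M) → W2Gal (4 * M) → W2Gal M`** (same proof as `w2Gal_of_three_four`): the geometric
port only has to treat the levels `M'` with `4 ∣ M'` or `9 ∣ M'`.
-/

set_option autoImplicit false
set_option linter.style.haveILetI false
set_option linter.unusedSectionVars false

noncomputable section

namespace Fermat.Agent.S48lib.X1.Gal

open CongruenceSubgroup ModularFormClass Polynomial UpperHalfPlane Fermat.Agent.S48lib.Iface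
open scoped MatrixGroups ModularForm

/-- **Reduction of `W2Gal M` to the levels `9 M` and `4 M`.** -/
theorem w2Gal_of_nine_four {M : ℕ} [NeZero M] (h9 : W2Gal (9 * M)) (h4 : W2Gal (4 * M)) :
    W2Gal M := by
  intro χ g b c hg hneb heig hc ℓ hℓ hℓ2 k _ _ _ φ
  have hM : ∀ (d : ℕ) {p : ℕ}, ¬ p ∣ d * M → ¬ p ∣ M := fun d p h hM =>
    h (Dvd.dvd.mul_left hM d)
  obtain ⟨ρ₁, hss₁, hunr₁, hfr₁⟩ := h9 (raiseChar 9 χ) (raiseLevel 9 g) b c
    (raiseLevel_ne_zero 9 hg) (hasNebentypus_raiseLevel 9 χ hneb)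
    (isHeckeEigenAway_raiseLevel 9 χ heig)
    (fun p hp hpd => by rw [raiseChar_natCast 9 χ hp hpd]; exact hc p hp (hM 9 hpd))
    ℓ hℓ hℓ2 k φ
  obtain ⟨ρ₂, hss₂, hunr₂, hfr₂⟩ := h4 (raiseChar 4 χ) (raiseLevel 4 g) b c
    (raiseLevel_ne_zero 4 hg) (hasNebentypus_raiseLevel 4 χ hneb)
    (isHeckeEigenAway_raiseLevel 4 χ heig)
    (fun p hp hpd => by rw [raiseChar_natCast 4 χ hp hpd]; exact hc p hp (hM 4 hpd))
    ℓ hℓ hℓ2 k φ
  -- equal characteristic polynomials everywhere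
  have hne : 36 * M * ℓ ≠ 0 :=
    mul_ne_zero (mul_ne_zero (by norm_num) (NeZero.ne M)) hℓ.ne_zero
  have hcp := charpoly_eq_of_frob ρ₁ ρ₂ (36 * M * ℓ).primeFactors (by
    intro p hp hpS A hA σ hσ
    have hnd : ¬ p ∣ 36 * M * ℓ := fun hd => hpS (Nat.mem_primeFactors.mpr ⟨hp, hd, hne⟩)
    have hnd9 : ¬ p ∣ 9 * M * ℓ := fun hd => hnd (dvd_trans hd ⟨4, by ring⟩)
    have hnd4 : ¬ p ∣ 4 * M * ℓ := fun hd => hnd (dvd_trans hd ⟨9, by ring⟩)
    rw [hfr₁ p hp hnd9 A hA σ hσ, hfr₂ p hp hnd4 A hA σ hσ])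
  have h34 : ¬ 3 ∣ M * ℓ → ¬ 3 ∣ 4 * M * ℓ := by
    intro h hd
    rw [mul_assoc] at hd
    rcases (Nat.Prime.dvd_mul Nat.prime_three).mp hd with h1 | h1
    · omega
    · exact h h1
  have hp3 : ∀ {p : ℕ}, p.Prime → p ≠ 3 → ¬ p ∣ M * ℓ → ¬ p ∣ 9 * M * ℓ := by
    intro p hp hne3 h hd
    rw [mul_assoc] at hd
    rcases (Nat.Prime.dvd_mul hp).mp hd with h1 | h1
    · have h2 : p ∣ 3 * 3 := by norm_num; exact h1
      rcases (Nat.Prime.dvd_mul hp).mp h2 with h3 | h3 <;>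
        exact hne3 ((Nat.prime_dvd_prime_iff_eq hp Nat.prime_three).mp h3)
    · exact h h1
  refine ⟨ρ₁, hss₁, ?_, ?_⟩
  · intro p hp hpd
    by_cases hp3' : p = 3
    · subst hp3'
      intro A hA σ hσ
      have h2 : ρ₂.ρ σ = 1 := hunr₂ 3 hp (h34 hpd) A hA σ hσ
      exact eq_one_of_charpoly_eq ρ₁.finrank_eq ρ₂.finrank_eq ρ₁.ρ ρ₂.ρ hss₁ hcp h2
    · exact hunr₁ p hp (hp3 hp hp3' hpd)
  · intro p hp hpd A hA σ hσ
    by_cases hp3' : p = 3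
    · subst hp3'
      rw [hcp σ]
      exact hfr₂ 3 hp (h34 hpd) A hA σ hσ
    · exact hfr₁ p hp (hp3 hp hp3' hpd) A hA σ hσ

end Fermat.Agent.S48lib.X1.Gal
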