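import Mathlib
import Fermat.Agent.S48lib.X1.Gal.Producer
import Fermat.Agent.S48lib.X1.Gal.Levels9
import Fermat.Agent.S48lib.X1.Gal.ESNative
import Fermat.Agent.S48lib.X1.Gal.FinLevel
import Fermat.Agent.S48lib.X1.Forms.PeriodEigenSL

/-!
S48lib / X1 / Gal / W2Final (helper9, block P8).  **The final assembly of (W2-Gal).**

* `w2Gal_of_esInputs (hM : 4 ≤ M) hfl I : Iface.W2Gal M` — from the finite level of the Galois
  action on `J_1(M)[ℓ]` and `ESInputs M ℓ` (inertia trivial + Eichler--Shimura) for all primes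
  `ℓ ≠ 2`;
* `w2Gal_all` : `Iface.W2Gal M` for EVERY `M ≥ 1` from the same inputs at all levels `≥ 4`
  (`w2Gal_of_three_four`).
-/

set_option autoImplicit false
set_option linter.unusedSectionVars false
set_option linter.style.haveILetI false

noncomputable section

namespace Fermat.Agent.S48lib.X1.Gal

open AlgebraicCurve ModularCurve Fermat.Agent.S29lib Fermat.Agent.S18lib
open Fermat.Agent.ProgramR Fermat.Agent.ProgramR.BarField Fermat.Agent.S16lib.LG
open Fermat.Agent.S48lib.X1.HeckeJ Fermat.Agent.S48lib.X1.Wp Fermat.Agent.S48lib.X1.Desc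
open Fermat.Agent.S48lib.Iface Fermat.Agent.S48lib.X1.Forms
open scoped MatrixGroups

/-- `ℚ̄` -/
local notation "Qb" => AlgebraicClosure ℚ
/-- `G_ℚ` -/
local notation "GQ" => (AlgebraicClosure ℚ ≃ₐ[ℚ] AlgebraicClosure ℚ)
/-- `ℤ̄ ⊆ ℂ` -/
local notation "Zb" => integralClosure ℤ ℂ

variable {M : ℕ} [NeZero M]

/-- **(W2-Gal) at level `M ≥ 4`** from the Eichler--Shimura inputs. -/
theorem w2Gal_of_esInputs (hM : 4 ≤ M)
    (hfl : ∀ (ℓ : ℕ) [Fact ℓ.Prime], GaloisFactorsThroughFiniteLevel (rho1 M ℓ))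
    (I : ∀ ℓ : ℕ, ℓ.Prime → ℓ ≠ 2 → ESInputs M ℓ) : W2Gal M := by
  intro χ g b c hg hχ hb hc ℓ hℓ hℓ2 k _ _ _ φ
  haveI : Fact ℓ.Prime := ⟨hℓ⟩
  refine residual_of_kummerGalData (groupFG_of_finiteIndex (pmGamma1 M)) hℓ2
    (kummerGalData hM (hfl ℓ) (I ℓ hℓ hℓ2)) χ b c hc k φ
    (periodLin (pmGamma1 M) (toPm M g)) ?_ ?_ ?_ ?_
  · -- the period homomorphism is non-zero
    intro h0
    have h1 : toPm M g = 0 := periodLin_injective (pmGamma1 M) (h0.trans (map_zero _).symm)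
    exact hg ((toPm M).injective (h1.trans (map_zero _).symm))
  · intro γ hγ
    rw [periodLin_apply]
    exact period_eq_zero_of_isParTor _ γ hγ
  · intro p hp hpd γ
    haveI : Fact p.Prime := ⟨hp⟩
    have hpM : p.Coprime M := coprime_of_not_dvd_mul hp hpd
    have hpM' : ¬ p ∣ M := not_dvd_of_prime_coprime hp hpM
    show ∑ i : Option (Fin p), periodLin (pmGamma1 M) (toPm M g)
      (Additive.ofMul (cTFun p γ i)) = _
    rw [sum_cTFun p hpM γ (fun c => periodLin (pmGamma1 M) (toPm M g) (Additive.ofMul c))]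
    simp only [periodLin_apply]
    have h1 := sum_period_stdTransversal hpM' hχ hb (cdFun (ZMod.unitOfCoprime p hpM) γ)
    have h2 := period_conj_of_nebentypus hχ (dMat_mem_Gamma0 (ZMod.unitOfCoprime p hpM)) γ
      (cdFun (ZMod.unitOfCoprime p hpM) γ).2
    have h3 : (⟨dMat (ZMod.unitOfCoprime p hpM) * (γ : SL(2, ℤ)) *
        (dMat (ZMod.unitOfCoprime p hpM))⁻¹, (cdFun (ZMod.unitOfCoprime p hpM) γ).2⟩ :
        pmGamma1 M) = cdFun (ZMod.unitOfCoprime p hpM) γ := rfl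
    rw [h3, cast_dMat_one_one, ZMod.coe_unitOfCoprime] at h2
    have hχp : χ (p : ZMod M) ≠ 0 := by
      have hu : IsUnit ((p : ZMod M)) := by
        rw [← ZMod.coe_unitOfCoprime p hpM]
        exact Units.isUnit _
      exact (hu.map χ).ne_zero
    simp only [PLevel.stdDatum_c]
    rw [h1, h2]
    field_simp
  · intro d γ
    show periodLin (pmGamma1 M) (toPm M g) (Additive.ofMul (cdFun d γ)) = _
    rw [periodLin_apply, periodLin_apply, coe_chiZb]
    have h2 := period_conj_of_nebentypus hχ (dMat_mem_Gamma0 d) γ (cdFun d γ).2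
    rw [cast_dMat_one_one] at h2
    exact h2

/-- (W2-Gal) at every level `≥ 4`, given the inputs at all levels `≥ 4`. -/
theorem w2Gal_of_four_le
    (hfl : ∀ (M : ℕ) [NeZero M], 4 ≤ M → ∀ (ℓ : ℕ) [Fact ℓ.Prime],
      GaloisFactorsThroughFiniteLevel (rho1 M ℓ))
    (I : ∀ (M : ℕ) [NeZero M], 4 ≤ M → ∀ ℓ : ℕ, ℓ.Prime → ℓ ≠ 2 → ESInputs M ℓ)
    (M : ℕ) [NeZero M] (hM : 4 ≤ M) : W2Gal M :=
  w2Gal_of_esInputs hM (fun ℓ _ => hfl M hM ℓ) (I M hM)

/-- **(W2-Gal) at EVERY level**, given the inputs at all levels `≥ 4`. -/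
theorem w2Gal_all
    (hfl : ∀ (M : ℕ) [NeZero M], 4 ≤ M → ∀ (ℓ : ℕ) [Fact ℓ.Prime],
      GaloisFactorsThroughFiniteLevel (rho1 M ℓ))
    (I : ∀ (M : ℕ) [NeZero M], 4 ≤ M → ∀ ℓ : ℕ, ℓ.Prime → ℓ ≠ 2 → ESInputs M ℓ)
    (M : ℕ) [NeZero M] : W2Gal M := by
  have hpos : 0 < M := Nat.pos_of_ne_zero (NeZero.ne M)
  by_cases hM : 4 ≤ M
  · exact w2Gal_of_four_le hfl I M hM
  · -- `M ∈ {1, 2, 3}`: `4 M ≥ 4`, and `3 M ≥ 4` unless `M = 1`
    haveI : NeZero (4 * M) := ⟨by omega⟩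
    haveI : NeZero (3 * M) := ⟨by omega⟩
    have h4 : W2Gal (4 * M) := w2Gal_of_four_le hfl I (4 * M) (by omega)
    by_cases h1 : M = 1
    · -- `W2Gal 3` from `W2Gal 9` and `W2Gal 12`
      subst h1
      haveI : NeZero (3 * (3 * 1)) := ⟨by norm_num⟩
      haveI : NeZero (4 * (3 * 1)) := ⟨by norm_num⟩
      have h3 : W2Gal (3 * 1) :=
        w2Gal_of_three_four (w2Gal_of_four_le hfl I (3 * (3 * 1)) (by norm_num))
          (w2Gal_of_four_le hfl I (4 * (3 * 1)) (by norm_num))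
      exact w2Gal_of_three_four h3 h4
    · exact w2Gal_of_three_four (w2Gal_of_four_le hfl I (3 * M) (by omega)) h4

/-! ### finite level, and the final forms -/

/-- additive homomorphisms from a finitely generated group to a finite group form a finite
set. -/
theorem finite_addMonoidHom_of_fg {Γ : Type*} [Group Γ] (hfg : Group.FG Γ) (A : Type*)
    [AddCommGroup A] [Finite A] : Finite (Additive Γ →+ A) := by
  classical
  obtain ⟨S, hS, hSfin⟩ := Group.fg_iff.mp hfg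
  haveI : Finite S := hSfin.to_subtype
  let f : (Additive Γ →+ A) → (S → A) := fun ψ s => ψ (Additive.ofMul (s : Γ))
  have hf : Function.Injective f := by
    intro ψ ψ' h
    refine AddMonoidHom.ext fun γ => ?_
    have hγ : Additive.toMul γ ∈ Subgroup.closure S := by rw [hS]; trivial
    have key : ∀ g : Γ, g ∈ Subgroup.closure S →
        ψ (Additive.ofMul g) = ψ' (Additive.ofMul g) := by
      intro g hg
      induction hg using Subgroup.closure_induction with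
      | mem s hs => exact congrFun h ⟨s, hs⟩
      | one => rw [ofMul_one, map_zero, map_zero]
      | mul a b _ _ ha hb => rw [ofMul_mul, map_add, map_add, ha, hb]
      | inv a _ ha => rw [ofMul_inv, map_neg, map_neg, ha]
    exact key _ hγ
  exact Finite.of_injective f hf

/-- `J_1(M)[ℓ]` is finite (`M ≥ 4`). -/
theorem finite_torsion_J1 (hM : 4 ≤ M) (ℓ : ℕ) [Fact ℓ.Prime] :
    Finite (Pic0.torsion Qb ↥(laurentBaseChange Qb (F1 M)) ℓ) := by
  haveI := finite_addMonoidHom_of_fg (groupFG_of_finiteIndex (pmGamma1 M)) (ZMod ℓ)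
  exact Finite.of_injective _ (lam1_injective hM ℓ)

/-- the Galois action on `J_1(M)[ℓ]` has finite level (`M ≥ 4`). -/
theorem finiteLevel_rho1 (hM : 4 ≤ M) (ℓ : ℕ) [Fact ℓ.Prime] :
    GaloisFactorsThroughFiniteLevel (rho1 M ℓ) :=
  finiteLevel_rhoTors (isQModel_F1 (M := M)) ℓ (finite_torsion_J1 hM ℓ)

/-- **(W2-Gal) at level `M ≥ 4`** from the native Eichler--Shimura output. -/
theorem w2Gal_of_esNative (hM : 4 ≤ M)
    (N : ∀ ℓ : ℕ, ℓ.Prime → ℓ ≠ 2 → ESNative M ℓ) : W2Gal M :=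
  w2Gal_of_esInputs hM (fun ℓ _ => finiteLevel_rho1 hM ℓ)
    (fun ℓ hℓ hℓ2 => (N ℓ hℓ hℓ2).toESInputs)

/-- **(W2-Gal) at EVERY level**, from the native Eichler--Shimura output at the levels divisible
by `4` or `9`. -/
theorem w2Gal_of_esNative_dvd
    (N : ∀ (M : ℕ) [NeZero M], (4 ∣ M ∨ 9 ∣ M) → ∀ ℓ : ℕ, ℓ.Prime → ℓ ≠ 2 → ESNative M ℓ)
    (M : ℕ) [NeZero M] : W2Gal M := by
  have hpos : 0 < M := Nat.pos_of_ne_zero (NeZero.ne M)
  haveI : NeZero (9 * M) := ⟨by omega⟩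
  haveI : NeZero (4 * M) := ⟨by omega⟩
  exact w2Gal_of_nine_four
    (w2Gal_of_esNative (by omega) (N (9 * M) (Or.inr ⟨M, rfl⟩)))
    (w2Gal_of_esNative (by omega) (N (4 * M) (Or.inl ⟨M, rfl⟩)))

end Fermat.Agent.S48lib.X1.Gal
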