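import Fermat.Agent.TeamA.Burnside
import Fermat.Agent.S29lib.X.TwoDim

/-!
S48lib / X1 / Gal / Transfer (helper9, block P8).

Linear algebra for comparing two 2-dimensional representations with equal characteristic
polynomials (a cheap substitute for Brauer--Nesbitt):

* `charpoly_pow_eq`  : in dimension 2 the characteristic polynomial of `f ^ j` is determined by
  that of `f`;
* `eq_zero_of_trace_mul_eq_zero` : the trace form on `End V` is nondegenerate;
* `eq_one_of_charpoly_eq` : if `ρ₁` is semisimple, `charpoly ρ₁(τ) = charpoly ρ₂(τ)` for all `τ`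
  and `ρ₂(σ) = 1`, then `ρ₁(σ) = 1`.
-/

set_option autoImplicit false
set_option linter.style.haveILetI false
set_option linter.unusedSectionVars false

noncomputable section

namespace Fermat.Agent.S48lib.X1.Gal

open Polynomial Module Fermat.Agent.S29lib.X

section Pow

variable {k : Type*} [Field k] {V₁ V₂ : Type*} [AddCommGroup V₁] [Module k V₁]
  [AddCommGroup V₂] [Module k V₂] [Module.Finite k V₁] [Module.Finite k V₂]

theorem trace_det_eq_of_charpoly_eq (h₁ : finrank k V₁ = 2) (h₂ : finrank k V₂ = 2)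
    (f : Module.End k V₁) (g : Module.End k V₂)
    (h : LinearMap.charpoly f = LinearMap.charpoly g) :
    LinearMap.trace k V₁ f = LinearMap.trace k V₂ g ∧ LinearMap.det f = LinearMap.det g := by
  rw [charpoly_eq_of_finrank_two h₁, charpoly_eq_of_finrank_two h₂] at h
  have h0 := congrArg (fun p : k[X] => p.coeff 0) h
  have h1 := congrArg (fun p : k[X] => p.coeff 1) h
  simp only [coeff_add, coeff_sub, coeff_X_pow, coeff_C_mul, coeff_X_zero, coeff_C_zero,
    coeff_X_one, mul_zero, mul_one] at h0 h1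
  simp only [coeff_C_succ, show (0 : ℕ) ≠ 2 by norm_num, show (1 : ℕ) ≠ 2 by norm_num,
    if_false, zero_sub, add_zero, sub_zero, zero_add, neg_inj] at h0 h1
  exact ⟨h1, h0⟩

theorem trace_pow_eq (h₁ : finrank k V₁ = 2) (h₂ : finrank k V₂ = 2)
    (f : Module.End k V₁) (g : Module.End k V₂)
    (ht : LinearMap.trace k V₁ f = LinearMap.trace k V₂ g)
    (hd : LinearMap.det f = LinearMap.det g) (j : ℕ) :
    LinearMap.trace k V₁ (f ^ j) = LinearMap.trace k V₂ (g ^ j) ∧
      LinearMap.trace k V₁ (f ^ (j + 1)) = LinearMap.trace k V₂ (g ^ (j + 1)) := by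
  induction j with
  | zero =>
    refine ⟨?_, by simpa using ht⟩
    rw [pow_zero, pow_zero, LinearMap.trace_one, LinearMap.trace_one, h₁, h₂]
  | succ j ih =>
    refine ⟨ih.2, ?_⟩
    have hf : f ^ (j + 1 + 1) = LinearMap.trace k V₁ f • f ^ (j + 1)
        - LinearMap.det f • f ^ j := by
      have hch := cayley_hamilton_two h₁ f
      have : f * f = LinearMap.trace k V₁ f • f - LinearMap.det f • (1 : Module.End k V₁) := by
        rw [← sub_eq_zero, ← hch]; abel
      calc f ^ (j + 1 + 1) = f ^ j * (f * f) := by rw [pow_succ, pow_succ, mul_assoc]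
        _ = LinearMap.trace k V₁ f • f ^ (j + 1) - LinearMap.det f • f ^ j := by
          rw [this, mul_sub, mul_smul_comm, mul_smul_comm, mul_one, pow_succ]
    have hg : g ^ (j + 1 + 1) = LinearMap.trace k V₂ g • g ^ (j + 1)
        - LinearMap.det g • g ^ j := by
      have hch := cayley_hamilton_two h₂ g
      have : g * g = LinearMap.trace k V₂ g • g - LinearMap.det g • (1 : Module.End k V₂) := by
        rw [← sub_eq_zero, ← hch]; abel
      calc g ^ (j + 1 + 1) = g ^ j * (g * g) := by rw [pow_succ, pow_succ, mul_assoc]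
        _ = LinearMap.trace k V₂ g • g ^ (j + 1) - LinearMap.det g • g ^ j := by
          rw [this, mul_sub, mul_smul_comm, mul_smul_comm, mul_one, pow_succ]
    rw [hf, hg, map_sub, map_sub, map_smul, map_smul, map_smul, map_smul, ih.1, ih.2, ht, hd]

/-- In dimension 2, `charpoly (f ^ j)` is determined by `charpoly f`. -/
theorem charpoly_pow_eq (h₁ : finrank k V₁ = 2) (h₂ : finrank k V₂ = 2)
    (f : Module.End k V₁) (g : Module.End k V₂)
    (h : LinearMap.charpoly f = LinearMap.charpoly g) (j : ℕ) :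
    LinearMap.charpoly (f ^ j) = LinearMap.charpoly (g ^ j) := by
  obtain ⟨ht, hd⟩ := trace_det_eq_of_charpoly_eq h₁ h₂ f g h
  rw [charpoly_eq_of_finrank_two h₁, charpoly_eq_of_finrank_two h₂,
    (trace_pow_eq h₁ h₂ f g ht hd j).1, map_pow LinearMap.det f j, map_pow LinearMap.det g j, hd]

end Pow

section TraceForm

variable {k : Type*} [Field k] {V : Type*} [AddCommGroup V] [Module k V] [Module.Finite k V]

/-- The trace form on `End V` is nondegenerate. -/
theorem eq_zero_of_trace_mul_eq_zero (N : Module.End k V)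
    (h : ∀ x : Module.End k V, LinearMap.trace k V (N * x) = 0) : N = 0 := by
  by_contra hN
  obtain ⟨v, hv⟩ : ∃ v, N v ≠ 0 := by
    by_contra hall
    push Not at hall
    exact hN (LinearMap.ext hall)
  obtain ⟨φ, hφ⟩ : ∃ φ : Module.Dual k V, φ (N v) ≠ 0 := by
    by_contra hall
    push Not at hall
    exact hv ((Module.forall_dual_apply_eq_zero_iff k (N v)).mp hall)
  apply hφ
  have h1 := h (LinearMap.smulRight φ v)
  have h2 : N * LinearMap.smulRight φ v = LinearMap.smulRight φ (N v) := by
    ext w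
    simp
  rw [h2, LinearMap.trace_smulRight] at h1
  exact h1

end TraceForm

section Transfer

variable {k : Type*} [Field k] [IsAlgClosed k] {G : Type*} [Group G]
  {V₁ V₂ : Type*} [AddCommGroup V₁] [Module k V₁] [AddCommGroup V₂] [Module k V₂]
  [Module.Finite k V₁] [Module.Finite k V₂]

/-- **Transfer of triviality.**  A cheap substitute for Brauer--Nesbitt in dimension 2. -/
theorem eq_one_of_charpoly_eq (h₁ : finrank k V₁ = 2) (h₂ : finrank k V₂ = 2)
    (ρ₁ : G →* Module.End k V₁) (ρ₂ : G →* Module.End k V₂)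
    (hss : ∀ W : Submodule k V₁, (∀ g : G, ∀ x ∈ W, ρ₁ g x ∈ W) →
      ∃ W' : Submodule k V₁, (∀ g : G, ∀ x ∈ W', ρ₁ g x ∈ W') ∧ IsCompl W W')
    (hcp : ∀ g : G, LinearMap.charpoly (ρ₁ g) = LinearMap.charpoly (ρ₂ g))
    {σ : G} (hσ : ρ₂ σ = 1) : ρ₁ σ = 1 := by
  haveI : Nontrivial V₁ := nontrivial_of_finrank_two h₁
  set N : Module.End k V₁ := ρ₁ σ - 1 with hN
  -- `N ^ 2 = 0`
  have hNsq : N * N = 0 := by
    have hc1 : LinearMap.charpoly (ρ₁ σ) = (X - C (1 : k)) ^ 2 := by
      rw [hcp σ, hσ, charpoly_eq_of_finrank_two h₂, LinearMap.trace_one, h₂,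
        map_one LinearMap.det, map_one]
      have hC2 : (C ((2 : ℕ) : k) : k[X]) = 2 := by
        rw [Nat.cast_ofNat]
        exact C_ofNat 2
      rw [hC2]
      ring
    have hch := LinearMap.aeval_self_charpoly (ρ₁ σ)
    rw [hc1] at hch
    simpa [hN, sq] using hch
  -- trace orthogonality
  have htr : ∀ τ : G, LinearMap.trace k V₁ (N * ρ₁ τ) = 0 := by
    intro τ
    have e1 := (trace_det_eq_of_charpoly_eq h₁ h₂ _ _ (hcp (σ * τ))).1
    have e2 := (trace_det_eq_of_charpoly_eq h₁ h₂ _ _ (hcp τ)).1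
    rw [ρ₂.map_mul σ τ, hσ, one_mul, ← e2] at e1
    rw [hN, sub_mul, one_mul, map_sub, ← ρ₁.map_mul, e1, sub_self]
  by_cases hirr : ∀ U : Submodule k V₁, (∀ g : G, ∀ x ∈ U, ρ₁ g x ∈ U) → U = ⊥ ∨ U = ⊤
  · -- irreducible: Burnside + nondegeneracy of the trace form
    have hB : Algebra.adjoin k (Set.range ρ₁) = ⊤ := by
      apply Fermat.Agent.TeamA.Burnside.subalgebra_eq_top_of_irreducible
      intro U hU
      exact hirr U (fun g x hx => hU _ (Algebra.subset_adjoin ⟨g, rfl⟩) x hx)
    have hspan : Submodule.span k (Set.range ρ₁) = ⊤ := by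
      have h1 := Algebra.adjoin_eq_span k (Set.range ρ₁)
      have hcl : (Submonoid.closure (Set.range ρ₁) : Set (Module.End k V₁)) = Set.range ρ₁ := by
        rw [← MonoidHom.coe_mrange, Submonoid.closure_eq]
      rw [hcl] at h1
      rw [← h1, hB]
      simp
    have hN0 : N = 0 := by
      apply eq_zero_of_trace_mul_eq_zero
      intro x
      have hx : x ∈ Submodule.span k (Set.range ρ₁) := by rw [hspan]; trivial
      induction hx using Submodule.span_induction with
      | mem y hy =>
        obtain ⟨τ, rfl⟩ := hy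
        exact htr τ
      | zero => simp
      | add y z _ _ hy hz => rw [mul_add, map_add, hy, hz, add_zero]
      | smul c y _ hy => rw [mul_smul_comm, map_smul, hy, smul_zero]
    exact sub_eq_zero.mp hN0
  · -- reducible: two stable lines
    push Not at hirr
    obtain ⟨U, hU, hU0, hUtop⟩ := hirr
    obtain ⟨U', hU', hcompl⟩ := hss U hU
    -- on a stable line `N` acts by a scalar of square zero
    have hline : ∀ L : Submodule k V₁, (∀ g : G, ∀ x ∈ L, ρ₁ g x ∈ L) → finrank k L = 1 →
        ∀ x ∈ L, N x = 0 := by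
      intro L hL hL1 x hx
      obtain ⟨v, hv, hgen⟩ := finrank_eq_one_iff'.mp hL1
      obtain ⟨c, hc⟩ := hgen ⟨x, hx⟩
      have hNv : ∃ μ : k, N (v : V₁) = μ • (v : V₁) := by
        have hmem : N (v : V₁) ∈ L := by
          rw [hN, LinearMap.sub_apply, Module.End.one_apply]
          exact L.sub_mem (hL σ _ v.2) v.2
        obtain ⟨μ, hμ⟩ := hgen ⟨N (v : V₁), hmem⟩
        exact ⟨μ, by simpa using (congrArg Subtype.val hμ).symm⟩
      obtain ⟨μ, hμ⟩ := hNv
      have hμ0 : μ = 0 := by
        have h2 : (N * N) (v : V₁) = (μ * μ) • (v : V₁) := by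
          rw [Module.End.mul_apply, hμ, map_smul, hμ, smul_smul]
        rw [hNsq, LinearMap.zero_apply] at h2
        have hv0 : (v : V₁) ≠ 0 := fun h => hv (Subtype.ext h)
        rcases smul_eq_zero.mp h2.symm with h | h
        · exact mul_self_eq_zero.mp h
        · exact absurd h hv0
      have hx' : x = c • (v : V₁) := by simpa using (congrArg Subtype.val hc).symm
      rw [hx', map_smul, hμ, hμ0, zero_smul, smul_zero]
    have hsum : finrank k U + finrank k U' = 2 := by
      rw [← h₁]
      exact Submodule.finrank_add_eq_of_isCompl hcompl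
    have hUpos : 0 < finrank k U := by
      rw [Module.finrank_pos_iff]
      exact Submodule.nontrivial_iff_ne_bot.mpr hU0
    have hUlt : finrank k U < 2 := by
      rw [← h₁]
      exact Submodule.finrank_lt hUtop
    have hU1 : finrank k U = 1 := by omega
    have hU'1 : finrank k U' = 1 := by omega
    have hN0 : N = 0 := by
      ext x
      have hx : x ∈ U ⊔ U' := by rw [hcompl.sup_eq_top]; trivial
      obtain ⟨y, hy, z, hz, rfl⟩ := Submodule.mem_sup.mp hx
      rw [map_add, hline U hU hU1 y hy, hline U' hU' hU'1 z hz, add_zero, LinearMap.zero_apply]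
    exact sub_eq_zero.mp hN0

end Transfer

end Fermat.Agent.S48lib.X1.Gal
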