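import Fermat.Agent.S48lib.Iface.W2
import Fermat.Agent.S48lib.X1.Gal.Transfer
import Fermat.Agent.S31lib.WC.Export

/-!
S48lib / X1 / Gal / Levels (helper9, block P8).

**`W2Gal (3 * M) → W2Gal (4 * M) → W2Gal M`.**

So the geometric port may assume `3 ∣ M'` (base curve `X_1(3)`, tame at every `p ∤ M'`, in
particular at `p = 2`) or `4 ∣ M'` (base curve `X_1(4)`, tame at `p = 3`): the representation
`ρ⁽¹⁾` from level `3M` is unramified with the right Frobenius polynomials outside `3Mℓ`, the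
representation `ρ⁽²⁾` from level `4M` outside `2Mℓ`; they have equal characteristic polynomials
everywhere (weak Chebotarev), hence `ρ⁽¹⁾` is also unramified with the right Frobenius polynomial
at `3` (`eq_one_of_charpoly_eq`).
-/

set_option autoImplicit false
set_option linter.style.haveILetI false
set_option linter.unusedSectionVars false

noncomputable section

namespace Fermat.Agent.S48lib.X1.Gal

open CongruenceSubgroup ModularFormClass Polynomial UpperHalfPlane Fermat.Agent.S48lib.Iface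
open scoped MatrixGroups ModularForm

/-- `ℚ̄` -/
local notation "Qb" => AlgebraicClosure ℚ
/-- `G_ℚ` -/
local notation "GQ" => (AlgebraicClosure ℚ ≃ₐ[ℚ] AlgebraicClosure ℚ)
/-- `ℤ̄ ⊆ ℂ` -/
local notation "Zb" => integralClosure ℤ ℂ

section Cheb

variable {k : Type} [Field k]

/-- Two residual representations with equal Frobenius polynomials outside a finite set have equal
characteristic polynomials everywhere (weak Chebotarev). -/
theorem charpoly_eq_of_frob (ρ₁ ρ₂ : ResidualGaloisRep k) (S : Finset ℕ)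
    (h : ∀ p : ℕ, p.Prime → p ∉ S → ∀ A : ValuationSubring Qb, A.LiesOverPrime p →
      ∀ σ : GQ, A.IsFrobeniusAt σ p →
        LinearMap.charpoly (ρ₁.ρ σ) = LinearMap.charpoly (ρ₂.ρ σ)) (τ : GQ) :
    LinearMap.charpoly (ρ₁.ρ τ) = LinearMap.charpoly (ρ₂.ρ τ) := by
  obtain ⟨L₁, hL₁fd, hL₁⟩ := ρ₁.factorsThroughFiniteLevel
  obtain ⟨L₂, hL₂fd, hL₂⟩ := ρ₂.factorsThroughFiniteLevel
  haveI := hL₁fd
  haveI := hL₂fd
  haveI : FiniteDimensional ℚ (L₁ ⊔ L₂ : IntermediateField ℚ Qb) :=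
    IntermediateField.finiteDimensional_sup _ _
  obtain ⟨p, A, φ, j, hp, hpS, hA, hφ, hagree⟩ :=
    Fermat.Agent.S31lib.WC.brickWC S (L₁ ⊔ L₂) inferInstance τ
  have hfix : ∀ x ∈ (L₁ ⊔ L₂ : IntermediateField ℚ Qb), (τ⁻¹ * φ ^ j) x = x := by
    intro x hx
    rw [AlgEquiv.mul_apply, hagree x hx]
    exact τ.symm_apply_apply x
  have h1 : ρ₁.ρ (τ⁻¹ * φ ^ j) = 1 :=
    hL₁ _ fun x hx => hfix x (le_sup_left (a := L₁) hx)
  have h2 : ρ₂.ρ (τ⁻¹ * φ ^ j) = 1 :=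
    hL₂ _ fun x hx => hfix x (le_sup_right (b := L₂) hx)
  have e1 : ρ₁.ρ τ = ρ₁.ρ φ ^ j := by
    have : ρ₁.ρ τ * ρ₁.ρ (τ⁻¹ * φ ^ j) = ρ₁.ρ φ ^ j := by
      rw [← map_mul, mul_inv_cancel_left, map_pow]
    rw [h1, mul_one] at this
    exact this
  have e2 : ρ₂.ρ τ = ρ₂.ρ φ ^ j := by
    have : ρ₂.ρ τ * ρ₂.ρ (τ⁻¹ * φ ^ j) = ρ₂.ρ φ ^ j := by
      rw [← map_mul, mul_inv_cancel_left, map_pow]
    rw [h2, mul_one] at this
    exact this
  rw [e1, e2]
  exact charpoly_pow_eq ρ₁.finrank_eq ρ₂.finrank_eq _ _ (h p hp hpS A hA φ hφ) j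

end Cheb

section Forms

variable {M : ℕ} (d : ℕ)

theorem gamma1_mul_le : Gamma1 (d * M) ≤ Gamma1 M := by
  intro γ hγ
  rw [Gamma1_mem] at hγ ⊢
  have hdvd : M ∣ d * M := Dvd.intro_left d rfl
  have hc : ∀ (x : ℤ) (y : ℤ), ((x : ZMod (d * M)) = (y : ZMod (d * M))) →
      ((x : ZMod M) = (y : ZMod M)) := by
    intro x y hxy
    have := congrArg (ZMod.castHom hdvd (ZMod M)) hxy
    simpa using this
  refine ⟨?_, ?_, ?_⟩
  · have := hc (γ 0 0) 1 (by simpa using hγ.1)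
    simpa using this
  · have := hc (γ 1 1) 1 (by simpa using hγ.2.1)
    simpa using this
  · have := hc (γ 1 0) 0 (by simpa using hγ.2.2)
    simpa using this

theorem gamma0_mul_le : Gamma0 (d * M) ≤ Gamma0 M := by
  intro γ hγ
  rw [Gamma0_mem] at hγ ⊢
  have hdvd : M ∣ d * M := Dvd.intro_left d rfl
  have := congrArg (ZMod.castHom hdvd (ZMod M)) hγ
  simpa using this

/-- a form of level `M` viewed at level `d * M`. -/
def raiseLevel {k : ℤ} (g : CuspForm (Gamma1 M) k) : CuspForm (Gamma1 (d * M)) k where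
  toFun := g
  slash_action_eq' γ hγ := by
    obtain ⟨γ', hγ', rfl⟩ := hγ
    exact g.slash_action_eq' _ ⟨γ', gamma1_mul_le d hγ', rfl⟩
  holo' := g.holo'
  zero_at_cusps' hc := g.zero_at_cusps' (hc.mono (Subgroup.map_mono (gamma1_mul_le d)))

theorem coe_raiseLevel {k : ℤ} (g : CuspForm (Gamma1 M) k) :
    (⇑(raiseLevel d g) : ℍ → ℂ) = ⇑g := rfl

theorem raiseLevel_ne_zero {k : ℤ} {g : CuspForm (Gamma1 M) k} (hg : g ≠ 0) :
    raiseLevel d g ≠ 0 := by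
  intro h
  apply hg
  ext z
  have := congrArg (fun f : CuspForm (Gamma1 (d * M)) k => f z) h
  exact this

theorem isCoprime_of_mem_gamma0 {N : ℕ} {γ : SL(2, ℤ)} (hγ : γ ∈ Gamma0 N) :
    IsCoprime (γ 1 1) (N : ℤ) := by
  rw [Gamma0_mem] at hγ
  obtain ⟨c', hc'⟩ := (ZMod.intCast_zmod_eq_zero_iff_dvd (γ 1 0) N).mp hγ
  have hdet := Matrix.SpecialLinearGroup.det_coe γ
  rw [Matrix.det_fin_two] at hdet
  refine ⟨γ 0 0, -(γ 0 1 * c'), ?_⟩
  rw [hc'] at hdet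
  linear_combination hdet

variable [NeZero M] (χ : DirichletCharacter ℂ M)

/-- the nebentypus at level `d * M`. -/
def raiseChar : DirichletCharacter ℂ (d * M) :=
  DirichletCharacter.changeLevel (Dvd.intro_left d rfl) χ

theorem raiseChar_intCast {a : ℤ} (ha : IsCoprime a ((d * M : ℕ) : ℤ)) :
    raiseChar d χ (a : ZMod (d * M)) = χ (a : ZMod M) :=
  DirichletCharacter.changeLevel_eq_cast_of_dvd' χ _ ha

theorem raiseChar_natCast {p : ℕ} (hp : p.Prime) (hpd : ¬ p ∣ d * M) :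
    raiseChar d χ (p : ZMod (d * M)) = χ (p : ZMod M) := by
  have hcop : IsCoprime (p : ℤ) ((d * M : ℕ) : ℤ) :=
    Nat.isCoprime_iff_coprime.mpr ((Nat.Prime.coprime_iff_not_dvd hp).mpr hpd)
  have := raiseChar_intCast d χ hcop
  simpa using this

theorem hasNebentypus_raiseLevel {k : ℤ} {g : CuspForm (Gamma1 M) k}
    (h : HasNebentypus g χ) : HasNebentypus (raiseLevel d g) (raiseChar d χ) := by
  intro γ hγ
  rw [coe_raiseLevel, h γ (gamma0_mul_le d hγ), raiseChar_intCast d χ (isCoprime_of_mem_gamma0 hγ)]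

theorem isHeckeEigenAway_raiseLevel {k : ℤ} {g : CuspForm (Gamma1 M) k} {b : ℕ → ℂ}
    (h : IsHeckeEigenAway g χ b) : IsHeckeEigenAway (raiseLevel d g) (raiseChar d χ) b := by
  intro p hp hpd n
  have hpM : ¬ p ∣ M := fun hM => hpd (Dvd.dvd.mul_left hM d)
  rw [raiseChar_natCast d χ hp hpd]
  exact h p hp hpM n

end Forms

section Assembly

theorem not_dvd_mul_of_ne {q p n : ℕ} (hq : q.Prime) (hp : p.Prime) (hne : p ≠ q)
    (h : ¬ p ∣ n) : ¬ p ∣ q * n := by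
  intro hd
  rcases (Nat.Prime.dvd_mul hp).mp hd with h1 | h1
  · exact hne ((Nat.prime_dvd_prime_iff_eq hp hq).mp h1)
  · exact h h1

/-- **Reduction of `W2Gal M` to the levels `3 M` and `4 M`.** -/
theorem w2Gal_of_three_four {M : ℕ} [NeZero M] (h3 : W2Gal (3 * M)) (h4 : W2Gal (4 * M)) :
    W2Gal M := by
  intro χ g b c hg hneb heig hc ℓ hℓ hℓ2 k _ _ _ φ
  have hM : ∀ (d : ℕ) {p : ℕ}, ¬ p ∣ d * M → ¬ p ∣ M := fun d p h hM =>
    h (Dvd.dvd.mul_left hM d)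
  obtain ⟨ρ₁, hss₁, hunr₁, hfr₁⟩ := h3 (raiseChar 3 χ) (raiseLevel 3 g) b c
    (raiseLevel_ne_zero 3 hg) (hasNebentypus_raiseLevel 3 χ hneb)
    (isHeckeEigenAway_raiseLevel 3 χ heig)
    (fun p hp hpd => by rw [raiseChar_natCast 3 χ hp hpd]; exact hc p hp (hM 3 hpd))
    ℓ hℓ hℓ2 k φ
  obtain ⟨ρ₂, hss₂, hunr₂, hfr₂⟩ := h4 (raiseChar 4 χ) (raiseLevel 4 g) b c
    (raiseLevel_ne_zero 4 hg) (hasNebentypus_raiseLevel 4 χ hneb)
    (isHeckeEigenAway_raiseLevel 4 χ heig)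
    (fun p hp hpd => by rw [raiseChar_natCast 4 χ hp hpd]; exact hc p hp (hM 4 hpd))
    ℓ hℓ hℓ2 k φ
  -- equal characteristic polynomials everywhere
  have hne : 12 * M * ℓ ≠ 0 :=
    mul_ne_zero (mul_ne_zero (by norm_num) (NeZero.ne M)) hℓ.ne_zero
  have hcp := charpoly_eq_of_frob ρ₁ ρ₂ (12 * M * ℓ).primeFactors (by
    intro p hp hpS A hA σ hσ
    have hnd : ¬ p ∣ 12 * M * ℓ := fun hd => hpS (Nat.mem_primeFactors.mpr ⟨hp, hd, hne⟩)
    have hnd3 : ¬ p ∣ 3 * M * ℓ := fun hd => hnd (dvd_trans hd ⟨4, by ring⟩)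
    have hnd4 : ¬ p ∣ 4 * M * ℓ := fun hd => hnd (dvd_trans hd ⟨3, by ring⟩)
    rw [hfr₁ p hp hnd3 A hA σ hσ, hfr₂ p hp hnd4 A hA σ hσ])
  have h34 : ¬ 3 ∣ M * ℓ → ¬ 3 ∣ 4 * M * ℓ := by
    intro h hd
    rw [mul_assoc] at hd
    rcases (Nat.Prime.dvd_mul Nat.prime_three).mp hd with h1 | h1
    · omega
    · exact h h1
  have hp3 : ∀ {p : ℕ}, p.Prime → p ≠ 3 → ¬ p ∣ M * ℓ → ¬ p ∣ 3 * M * ℓ := by
    intro p hp hne3 h
    rw [mul_assoc]
    exact not_dvd_mul_of_ne Nat.prime_three hp hne3 h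
  refine ⟨ρ₁, hss₁, ?_, ?_⟩
  · intro p hp hpd
    by_cases hp3' : p = 3
    · subst hp3'
      intro A hA σ hσ
      have h2 : ρ₂.ρ σ = 1 := hunr₂ 3 hp (h34 hpd) A hA σ hσ
      exact eq_one_of_charpoly_eq ρ₁.finrank_eq ρ₂.finrank_eq ρ₁.ρ ρ₂.ρ hss₁ hcp h2
    · exact hunr₁ p hp (hp3 hp hp3' hpd)
  · intro p hp hpd A hA σ hσ
    by_cases hp3' : p = 3
    · subst hp3'
      rw [hcp σ]
      exact hfr₂ 3 hp (h34 hpd) A hA σ hσ
    · exact hfr₁ p hp (hp3 hp hp3' hpd) A hA σ hσ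

end Assembly

end Fermat.Agent.S48lib.X1.Gal
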