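import Fermat.Agent.S48lib.X1.Gal.PowQuad
import Fermat.Agent.S31lib.WC.Export
import Fermat.Prelude.Def_GaloisRep_Residual

/-!
S48lib / X1 / Gal / AllQuad (helper9, block P8).

`QuadRep k S abar δ`: a finite dimensional representation `ρ` of `G_ℚ` over `k`, of finite level,
unramified outside the finite set `S` of primes, such that every Frobenius element `σ` at a
prime `p ∉ S` satisfies `ρ(σ)² - abar(p) ρ(σ) + δ(σ) = 0`, for a fixed character
`δ : G_ℚ →* kˣ`.

`QuadRep.exists_quad`: if `δ` has finite level, then EVERY `σ ∈ G_ℚ` satisfies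
`ρ(σ)² - a ρ(σ) + δ(σ) = 0` for some `a ∈ k` (weak Chebotarev `S31lib.WC.brickWC`: `σ` agrees
with a power of a Frobenius element on the level fields; powers via `pow_quad`).
-/

set_option autoImplicit false

noncomputable section

namespace Fermat.Agent.S48lib.X1.Gal

/-- `ℚ̄` -/
local notation "Qb" => AlgebraicClosure ℚ
/-- `G_ℚ` -/
local notation "GQ" => (AlgebraicClosure ℚ ≃ₐ[ℚ] AlgebraicClosure ℚ)

/-- A finite dimensional Galois representation all of whose Frobenius elements outside `S`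
satisfy a quadratic relation with constant term given by the character `δ`. -/
structure QuadRep (k : Type) [Field k] (S : Finset ℕ) (abar : ℕ → k) (δ : GQ →* kˣ) where
  /-- the space -/
  W : Type
  [instAddCommGroup : AddCommGroup W]
  [instModule : Module k W]
  [instFinite : Module.Finite k W]
  /-- the action -/
  ρ : GQ →* Module.End k W
  finiteLevel : GaloisFactorsThroughFiniteLevel ρ
  unram : ∀ p : ℕ, p.Prime → p ∉ S → ∀ A : ValuationSubring Qb, A.LiesOverPrime p →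
    ∀ σ ∈ A.inertiaSubgroupIn ℚ, ρ σ = 1
  frob : ∀ p : ℕ, p.Prime → p ∉ S → ∀ A : ValuationSubring Qb, A.LiesOverPrime p →
    ∀ σ : GQ, A.IsFrobeniusAt σ p →
      ρ σ * ρ σ - abar p • ρ σ + ((δ σ : kˣ) : k) • (1 : Module.End k W) = 0

attribute [instance] QuadRep.instAddCommGroup QuadRep.instModule QuadRep.instFinite

variable {k : Type} [Field k] {S : Finset ℕ} {abar : ℕ → k} {δ : GQ →* kˣ}

/-- **Every element satisfies a quadratic relation.** -/
theorem QuadRep.exists_quad (R : QuadRep k S abar δ) (hδ : GaloisFactorsThroughFiniteLevel δ)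
    (σ : GQ) :
    ∃ a : k, R.ρ σ * R.ρ σ - a • R.ρ σ + ((δ σ : kˣ) : k) • (1 : Module.End k R.W) = 0 := by
  obtain ⟨L₁, hL₁fd, hL₁⟩ := R.finiteLevel
  obtain ⟨L₂, hL₂fd, hL₂⟩ := hδ
  haveI := hL₁fd
  haveI := hL₂fd
  haveI : FiniteDimensional ℚ (L₁ ⊔ L₂ : IntermediateField ℚ Qb) :=
    IntermediateField.finiteDimensional_sup _ _
  obtain ⟨p, A, φ, j, hp, hpS, hA, hφ, hagree⟩ :=
    Fermat.Agent.S31lib.WC.brickWC S (L₁ ⊔ L₂) inferInstance σ
  -- `σ⁻¹ φ^j` fixes `L₁ ⊔ L₂`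
  have hfix : ∀ x ∈ (L₁ ⊔ L₂ : IntermediateField ℚ Qb), (σ⁻¹ * φ ^ j) x = x := by
    intro x hx
    rw [AlgEquiv.mul_apply, hagree x hx]
    exact σ.symm_apply_apply x
  have h1 : R.ρ (σ⁻¹ * φ ^ j) = 1 :=
    hL₁ _ fun x hx => hfix x (le_sup_left (a := L₁) hx)
  have h2 : δ (σ⁻¹ * φ ^ j) = 1 :=
    hL₂ _ fun x hx => hfix x (le_sup_right (b := L₂) hx)
  have hρ : R.ρ σ = R.ρ φ ^ j := by
    have : R.ρ σ * R.ρ (σ⁻¹ * φ ^ j) = R.ρ φ ^ j := by
      rw [← map_mul, mul_inv_cancel_left, map_pow]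
    rw [h1, mul_one] at this
    exact this
  have hδσ : δ σ = δ φ ^ j := by
    have : δ σ * δ (σ⁻¹ * φ ^ j) = δ φ ^ j := by
      rw [← map_mul, mul_inv_cancel_left, map_pow]
    rw [h2, mul_one] at this
    exact this
  have hq := R.frob p hp hpS A hA φ hφ
  refine ⟨lucasS (abar p) ((δ φ : kˣ) : k) j, ?_⟩
  rw [hρ, hδσ, Units.val_pow_eq_pow_val]
  exact pow_quad hq j

end Fermat.Agent.S48lib.X1.Gal
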