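import Fermat.Agent.S29lib.X.Cyclo
import Fermat.Prelude.Def_GaloisRep_Residual

/-!
S48lib / X1 / Gal / CycloM (helper9, block P8).

The mod `M` cyclotomic character `cycloM M : G_ℚ →* (ZMod M)ˣ` for an arbitrary modulus `M ≠ 0`
(Mathlib's `modularCyclotomicCharacter`), with

* its value `q` at Frobenius elements at primes `q ∤ M`,
* triviality on inertia at primes `q ∤ M`,
* finite level (it factors through `ℚ(ζ_M)`).

Generalisation of `S29lib/X/Cyclo` (prime modulus) to a composite modulus.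
-/

set_option autoImplicit false
set_option linter.style.haveILetI false
set_option linter.unusedSectionVars false

noncomputable section

namespace Fermat.Agent.S48lib.X1.Gal

open Fermat.Agent.S29lib.X

/-- `ℚ̄` -/
local notation "Qb" => AlgebraicClosure ℚ
/-- `G_ℚ` -/
local notation "GQ" => (AlgebraicClosure ℚ ≃ₐ[ℚ] AlgebraicClosure ℚ)

variable (M : ℕ) [NeZero M]

/-- the mod `M` cyclotomic character of `G_ℚ`. -/
def cycloM : GQ →* (ZMod M)ˣ :=
  MonoidHom.mk'
    (fun σ => modularCyclotomicCharacter Qb (IsAlgClosed.card_rootsOfUnity_eq Qb M)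
      (σ : Qb ≃+* Qb))
    (fun a b => by rw [← map_mul]; congr 1)

variable {M}

/-- the defining property of `cycloM`. -/
theorem cycloM_spec (σ : GQ) {ζ : Qb} (hζ : ζ ^ M = 1) :
    σ ζ = ζ ^ ((cycloM M σ : (ZMod M)ˣ) : ZMod M).val := by
  have hu : IsUnit ζ := IsUnit.of_pow_eq_one hζ (NeZero.ne M)
  obtain ⟨t, rfl⟩ := hu
  have ht : t ∈ rootsOfUnity M Qb := by
    rw [mem_rootsOfUnity]
    exact Units.ext (by simpa using hζ)
  have h := modularCyclotomicCharacter.spec Qb (IsAlgClosed.card_rootsOfUnity_eq Qb M)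
    (σ : Qb ≃+* Qb) ht
  simpa [cycloM] using h

theorem exists_primitiveRoot_M (M : ℕ) [NeZero M] : ∃ ζ : Qb, IsPrimitiveRoot ζ M := by
  haveI : NeZero ((M : ℕ) : Qb) := ⟨Nat.cast_ne_zero.mpr (NeZero.ne M)⟩
  exact HasEnoughRootsOfUnity.exists_primitiveRoot Qb M

theorem cycloM_eq_of_apply (σ : GQ) {ζ : Qb} (hζ : IsPrimitiveRoot ζ M) {m : ℕ}
    (h : σ ζ = ζ ^ m) : ((cycloM M σ : (ZMod M)ˣ) : ZMod M) = (m : ZMod M) := by
  have h1 := cycloM_spec σ hζ.pow_eq_one
  rw [h] at h1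
  have h2 : m ≡ ((cycloM M σ : (ZMod M)ˣ) : ZMod M).val [MOD M] := by
    have h3 : ζ ^ (m % M) = ζ ^ m := by
      conv_lhs => rw [hζ.eq_orderOf]
      exact pow_mod_orderOf ζ m
    have h4 := hζ.pow_inj (Nat.mod_lt m (NeZero.pos M)) (ZMod.val_lt _) (h3.trans h1)
    show m % M = _ % M
    rw [h4, Nat.mod_eq_of_lt (ZMod.val_lt _)]
  have h3 : ((m : ℕ) : ZMod M) = ((((cycloM M σ : (ZMod M)ˣ) : ZMod M).val : ℕ) : ZMod M) :=
    (ZMod.natCast_eq_natCast_iff _ _ _).mpr h2
  rw [h3, ZMod.natCast_val, ZMod.cast_id]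

/-- `cycloM` is trivial on automorphisms fixing a primitive `M`-th root of unity. -/
theorem cycloM_eq_one_of_fixes (σ : GQ) {ζ : Qb} (hζ : IsPrimitiveRoot ζ M) (h : σ ζ = ζ) :
    cycloM M σ = 1 := by
  apply Units.ext
  have := cycloM_eq_of_apply σ hζ (m := 1) (by rw [pow_one, h])
  simpa using this

/-- `cycloM M` has finite level. -/
theorem cycloM_finiteLevel (M : ℕ) [NeZero M] : GaloisFactorsThroughFiniteLevel (cycloM M) := by
  obtain ⟨ζ, hζ⟩ := exists_primitiveRoot_M M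
  have hint : IsIntegral ℚ ζ := Algebra.IsIntegral.isIntegral ζ
  refine ⟨IntermediateField.adjoin ℚ {ζ}, IntermediateField.adjoin.finiteDimensional hint, ?_⟩
  intro σ hσ
  exact cycloM_eq_one_of_fixes σ hζ (hσ ζ (IntermediateField.mem_adjoin_simple_self ℚ ζ))

/-- **Key lemma.**  If `σ` lies in the decomposition group of `A | q`, `q ∤ M`, and acts on the
residue field of `A` by `x ↦ x ^ m`, then `cycloM M σ = m` in `ZMod M`. -/
theorem cycloM_eq_of_residue_action {A : ValuationSubring Qb} {q : ℕ} (hq : q.Prime)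
    (hqM : ¬ q ∣ M) (hA : A.LiesOverPrime q) (σ : GQ) (hdec : σ ∈ A.decompositionSubgroup ℚ)
    (m : ℕ)
    (hact : ∀ x : IsLocalRing.ResidueField A,
      (⟨σ, hdec⟩ : A.decompositionSubgroup ℚ) • x = x ^ m) :
    ((cycloM M σ : (ZMod M)ˣ) : ZMod M) = (m : ZMod M) := by
  obtain ⟨ζ, hζ⟩ := exists_primitiveRoot_M M
  have hζA : ζ ∈ A := by
    apply mem_valuationSubring_of_isIntegral_int
    exact ⟨Polynomial.X ^ M - 1, Polynomial.monic_X_pow_sub_C 1 (NeZero.ne M), by
      simp [hζ.pow_eq_one]⟩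
  set a : A := ⟨ζ, hζA⟩ with ha
  set z : IsLocalRing.ResidueField A := IsLocalRing.residue A a with hz
  have haM : a ^ M = 1 := Subtype.ext (by simpa using hζ.pow_eq_one)
  -- `z ^ M = 1`
  have hzM : z ^ M = 1 := by rw [hz, ← map_pow, haM, map_one]
  -- `q = 0` in the residue field
  have hq0 : (q : IsLocalRing.ResidueField A) = 0 := by
    have h1 : ((q : A) : Qb) ∈ A.nonunits := by
      have h0 : (q : Qb) ∈ A.nonunits := hA
      simpa using h0
    have h2 : (q : A) ∈ IsLocalRing.maximalIdeal A := ValuationSubring.coe_mem_nonunits_iff.mp h1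
    have h3 := (IsLocalRing.residue_eq_zero_iff (q : A)).mpr h2
    simpa using h3
  -- `M ≠ 0` in the residue field
  have hM0 : (M : IsLocalRing.ResidueField A) ≠ 0 := by
    intro hM0
    have hcop : Nat.Coprime M q := ((Nat.Prime.coprime_iff_not_dvd hq).mpr hqM).symm
    have hg := Nat.gcd_eq_gcd_ab M q
    rw [hcop.gcd_eq_one] at hg
    have h := congrArg (fun n : ℤ => (n : IsLocalRing.ResidueField A)) hg
    simp only [Nat.cast_one, Int.cast_add, Int.cast_mul, Int.cast_natCast] at h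
    rw [hM0, hq0, zero_mul, zero_mul, add_zero] at h
    simp at h
  -- `z` is a primitive `M`-th root of unity
  have hprim : IsPrimitiveRoot z M := by
    obtain ⟨n, rfl⟩ : ∃ n, M = n + 1 := ⟨M - 1, (Nat.succ_pred_eq_of_pos (NeZero.pos M)).symm⟩
    have hprod : ∏ i ∈ Finset.range n, (1 - ζ ^ (i + 1)) = ((n : ℕ) : Qb) + 1 :=
      hζ.prod_one_sub_pow_eq_order
    have hprodA : ∏ i ∈ Finset.range n, (1 - a ^ (i + 1)) = ((n : ℕ) : A) + 1 := by
      apply Subtype.ext
      simpa using hprod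
    have hprodz : ∏ i ∈ Finset.range n, (1 - z ^ (i + 1))
        = ((n + 1 : ℕ) : IsLocalRing.ResidueField A) := by
      have := congrArg (IsLocalRing.residue A) hprodA
      simpa [map_prod, hz] using this
    refine IsPrimitiveRoot.mk_of_lt z (Nat.succ_pos n) hzM ?_
    intro l hl0 hln hzl
    apply hM0
    rw [← hprodz]
    obtain ⟨i, rfl⟩ : ∃ i, l = i + 1 := ⟨l - 1, (Nat.succ_pred_eq_of_pos hl0).symm⟩
    apply Finset.prod_eq_zero (i := i) (Finset.mem_range.mpr (by omega))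
    rw [hzl, sub_self]
  -- the action of `σ` on `z`
  have hσz : (⟨σ, hdec⟩ : A.decompositionSubgroup ℚ) • z
      = z ^ ((cycloM M σ : (ZMod M)ˣ) : ZMod M).val := by
    rw [hz, ← IsLocalRing.ResidueField.residue_smul, ← map_pow]
    congr 1
    apply Subtype.ext
    change σ ζ = ((a ^ ((cycloM M σ : (ZMod M)ˣ) : ZMod M).val : A) : Qb)
    rw [cycloM_spec σ hζ.pow_eq_one]
    simp [ha]
  have hpow : z ^ ((cycloM M σ : (ZMod M)ˣ) : ZMod M).val = z ^ m := by rw [← hσz, hact z]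
  have hord : orderOf z = M := hprim.eq_orderOf.symm
  have hmod : ((cycloM M σ : (ZMod M)ˣ) : ZMod M).val ≡ m [MOD M] := by
    have hgen : ∀ n : ℕ, z ^ (n % M) = z ^ n := by
      intro n
      have := pow_mod_orderOf z n
      rwa [hord] at this
    have h1 := hgen ((cycloM M σ : (ZMod M)ˣ) : ZMod M).val
    have h2 := hgen m
    exact hprim.pow_inj (Nat.mod_lt _ (NeZero.pos M)) (Nat.mod_lt _ (NeZero.pos M))
      (h1.trans (hpow.trans h2.symm))
  have h3 : ((((cycloM M σ : (ZMod M)ˣ) : ZMod M).val : ℕ) : ZMod M) = ((m : ℕ) : ZMod M) :=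
    (ZMod.natCast_eq_natCast_iff _ _ _).mpr hmod
  rw [ZMod.natCast_val, ZMod.cast_id] at h3
  exact h3

/-- `cycloM M (Frob_q) = q` for `q ∤ M`. -/
theorem cycloM_of_isFrobeniusAt {A : ValuationSubring Qb} {q : ℕ} (hq : q.Prime)
    (hqM : ¬ q ∣ M) (hA : A.LiesOverPrime q) {σ : GQ} (hσ : A.IsFrobeniusAt σ q) :
    ((cycloM M σ : (ZMod M)ˣ) : ZMod M) = (q : ZMod M) := by
  obtain ⟨hdec, hfrob⟩ := hσ
  exact cycloM_eq_of_residue_action hq hqM hA σ hdec q hfrob

/-- `cycloM M` is trivial on inertia at `q ∤ M`. -/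
theorem cycloM_of_mem_inertia {A : ValuationSubring Qb} {q : ℕ} (hq : q.Prime)
    (hqM : ¬ q ∣ M) (hA : A.LiesOverPrime q) {σ : GQ} (hσ : σ ∈ A.inertiaSubgroupIn ℚ) :
    cycloM M σ = 1 := by
  obtain ⟨σ', hσ', rfl⟩ := hσ
  have hker : MulSemiringAction.toRingAut (A.decompositionSubgroup ℚ)
      (IsLocalRing.ResidueField A) σ' = 1 := hσ'
  have hact : ∀ x : IsLocalRing.ResidueField A,
      (⟨(σ' : GQ), σ'.2⟩ : A.decompositionSubgroup ℚ) • x = x ^ 1 := by
    intro x
    rw [pow_one]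
    have := RingEquiv.congr_fun hker x
    simpa using this
  have := cycloM_eq_of_residue_action hq hqM hA (σ' : GQ) σ'.2 1 hact
  apply Units.ext
  simpa using this

end Fermat.Agent.S48lib.X1.Gal
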