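import Fermat.Agent.S48lib.X1.Gal.AllQuad

/-!
S48lib / X1 / Gal / Support (helper9, block P8).

The passage from a finite Hecke--Galois module to a `QuadRep`:

* `exists_ne_zero_killed` : in a finite faithful module over a finite commutative ring every
  prime ideal kills a nonzero element (associated primes);
* for a ring homomorphism `θ : A →+* k` (the eigen-character, `T_p ↦ φ(b_p)`) the
  `k`-representation `k ⊗_{A / ker θ} V[ker θ]` (`EigSpace`, `eigRep`): it is finite dimensional,
  nonzero, trivial where `ρ` is trivial, and a quadratic relation `ρσ² - a ρσ + b = 0` with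
  `a b : A` becomes `ρ'σ² - θ(a) ρ'σ + θ(b) = 0`;
* `exists_quadRep_of_eigen` : the resulting `QuadRep`.
-/

set_option autoImplicit false
set_option linter.style.haveILetI false
set_option linter.unusedSectionVars false

noncomputable section

namespace Fermat.Agent.S48lib.X1.Gal

open scoped TensorProduct

/-- `ℚ̄` -/
local notation "Qb" => AlgebraicClosure ℚ
/-- `G_ℚ` -/
local notation "GQ" => (AlgebraicClosure ℚ ≃ₐ[ℚ] AlgebraicClosure ℚ)

section Core

variable {A V : Type*} [CommRing A] [AddCommGroup V] [Module A V]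

/-- In a finite faithful module over a finite commutative ring, every prime ideal kills a nonzero
element. -/
theorem exists_ne_zero_killed [Finite A] [Finite V] [FaithfulSMul A V] (m : Ideal A)
    [hm : m.IsPrime] : ∃ v : V, v ≠ 0 ∧ ∀ a ∈ m, a • v = 0 := by
  have hann : Module.annihilator A V = ⊥ := Module.annihilator_eq_bot.mpr inferInstance
  have hmin : m ∈ (Module.annihilator A V).minimalPrimes := by
    rw [hann]
    exact Ideal.mem_minimalPrimes_of_krullDimLE_zero m
  have hass := Module.associatedPrimes.minimalPrimes_annihilator_subset_associatedPrimes A V hmin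
  obtain ⟨_, x, hx⟩ := (isAssociatedPrime_iff (I := m) (M := V)).mp hass
  refine ⟨x, ?_, ?_⟩
  · rintro rfl
    apply hm.ne_top
    rw [hx, eq_top_iff]
    intro a _
    rw [Submodule.mem_colon_singleton]
    simp
  · intro a ha
    rw [hx, Submodule.mem_colon_singleton] at ha
    simpa using ha

end Core

section Eigen

variable {A V : Type} [CommRing A] [AddCommGroup V] [Module A V]
  {G : Type} [Monoid G] (ρ : G →* Module.End A V) {k : Type} [Field k] (θ : A →+* k)

/-- the residue ring `A / ker θ`. -/
abbrev EigField : Type := A ⧸ RingHom.ker θ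

instance eigField_isMaximal [Finite A] : (RingHom.ker θ).IsMaximal :=
  haveI : (RingHom.ker θ).IsPrime := RingHom.ker_isPrime θ
  IsArtinianRing.isMaximal_of_isPrime (RingHom.ker θ)

instance eigField_field [Finite A] : Field (EigField θ) := Ideal.Quotient.field (RingHom.ker θ)

instance eigField_algebra [Finite A] : Algebra (EigField θ) k := (RingHom.kerLift θ).toAlgebra

theorem eigField_algebraMap_mk [Finite A] (a : A) :
    algebraMap (EigField θ) k (Ideal.Quotient.mk (RingHom.ker θ) a) = θ a := rfl

/-- the `ker θ`-torsion of `V`. -/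
abbrev EigSub : Submodule A V := Submodule.torsionBySet A V (RingHom.ker θ : Set A)

/-- the restriction of `ρ g` to the `ker θ`-torsion, linear over `A / ker θ`. -/
def eigRestr (g : G) : EigSub (V := V) θ →ₗ[EigField θ] EigSub (V := V) θ where
  toFun v := ⟨ρ g v, by
    rw [Submodule.mem_torsionBySet_iff]
    intro a
    rw [← map_smul, (Submodule.mem_torsionBySet_iff _ _).mp v.2 a, map_zero]⟩
  map_add' v w := Subtype.ext (by simp)
  map_smul' c v := by
    obtain ⟨a, rfl⟩ := Ideal.Quotient.mk_surjective c
    apply Subtype.ext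
    simp

theorem eigRestr_apply (g : G) (v : EigSub (V := V) θ) :
    ((eigRestr ρ θ g v : EigSub (V := V) θ) : V) = ρ g v := rfl

theorem eigRestr_one : eigRestr ρ θ (1 : G) = LinearMap.id := by
  ext v
  simp [eigRestr_apply]

theorem eigRestr_mul (g h : G) : eigRestr ρ θ (g * h) = (eigRestr ρ θ g).comp (eigRestr ρ θ h) := by
  ext v
  simp [eigRestr_apply]

variable [Finite A]

/-- `k ⊗ V[ker θ]`. -/
abbrev EigSpace (V : Type) [AddCommGroup V] [Module A V] : Type := k ⊗[EigField θ] EigSub (V := V) θ

/-- the representation on `k ⊗ V[ker θ]`. -/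
def eigRep : G →* Module.End k (EigSpace θ V) where
  toFun g := (eigRestr ρ θ g).baseChange k
  map_one' := by rw [eigRestr_one, LinearMap.baseChange_id]; rfl
  map_mul' g h := by rw [eigRestr_mul, LinearMap.baseChange_comp]; rfl

theorem eigRep_eq_one {g : G} (h : ρ g = 1) : eigRep ρ θ g = 1 := by
  have : eigRestr ρ θ g = LinearMap.id := by
    ext v
    simp [eigRestr_apply, h]
  change (eigRestr ρ θ g).baseChange k = 1
  rw [this, LinearMap.baseChange_id]; rfl

theorem eigRep_quad {g : G} (a b : A) (h : ρ g * ρ g - a • ρ g + b • (1 : Module.End A V) = 0) :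
    eigRep ρ θ g * eigRep ρ θ g - θ a • eigRep ρ θ g + θ b • (1 : Module.End k (EigSpace θ V)) = 0 := by
  have h1 : (eigRestr ρ θ g).comp (eigRestr ρ θ g)
      - (Ideal.Quotient.mk (RingHom.ker θ) a) • eigRestr ρ θ g
      + (Ideal.Quotient.mk (RingHom.ker θ) b) • LinearMap.id = 0 := by
    ext v
    have := LinearMap.congr_fun h (v : V)
    simpa [eigRestr_apply] using this
  have h2 := congrArg (LinearMap.baseChange k) h1
  rw [LinearMap.baseChange_add, LinearMap.baseChange_sub, LinearMap.baseChange_comp,
    LinearMap.baseChange_smul, LinearMap.baseChange_smul, LinearMap.baseChange_id,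
    LinearMap.baseChange_zero] at h2
  rw [← algebraMap_smul k (Ideal.Quotient.mk (RingHom.ker θ) a),
    ← algebraMap_smul k (Ideal.Quotient.mk (RingHom.ker θ) b),
    eigField_algebraMap_mk, eigField_algebraMap_mk] at h2
  exact h2

instance eigSpace_finite [Finite V] : Module.Finite k (EigSpace θ V) := by
  haveI : Module.Finite (EigField θ) (EigSub (V := V) θ) := Module.Finite.of_finite
  infer_instance

theorem eigSpace_nontrivial [Finite V] [FaithfulSMul A V] : Nontrivial (EigSpace θ V) := by
  haveI : (RingHom.ker θ).IsPrime := RingHom.ker_isPrime θ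
  obtain ⟨v, hv0, hv⟩ := exists_ne_zero_killed (V := V) (RingHom.ker θ)
  haveI : Nontrivial (EigSub (V := V) θ) := by
    refine ⟨⟨⟨v, ?_⟩, 0, ?_⟩⟩
    · rw [Submodule.mem_torsionBySet_iff]
      intro a
      exact hv a a.2
    · intro h
      exact hv0 (congrArg Subtype.val h)
  haveI : Module.Finite (EigField θ) (EigSub (V := V) θ) := Module.Finite.of_finite
  have h1 : 0 < Module.finrank (EigField θ) (EigSub (V := V) θ) := Module.finrank_pos
  have h2 : Module.finrank k (EigSpace θ V) = Module.finrank (EigField θ) (EigSub (V := V) θ) :=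
    Module.finrank_baseChange
  rw [← h2] at h1
  exact Module.nontrivial_of_finrank_pos h1

end Eigen

section Quad

variable {k : Type} [Field k] {S : Finset ℕ} {abar : ℕ → k} {δ : GQ →* kˣ}
  {A V : Type} [CommRing A] [Finite A] [AddCommGroup V] [Module A V] [Finite V]
  [FaithfulSMul A V]

/-- **From a finite Hecke--Galois module to a `QuadRep`.**  `A` is the (finite, commutative) Hecke
algebra acting faithfully on the finite module `V`, `ρ` the commuting Galois action, `θ` the
eigen-character, `t p` the Hecke operator `T_p`; the Eichler--Shimura relation is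
`ρσ² - T_p ρσ + b = 0` with `θ b = δ σ`. -/
theorem exists_quadRep_of_eigen (ρ : GQ →* Module.End A V)
    (hfin : GaloisFactorsThroughFiniteLevel ρ)
    (hunr : ∀ p : ℕ, p.Prime → p ∉ S → ∀ B : ValuationSubring Qb, B.LiesOverPrime p →
      ∀ σ ∈ B.inertiaSubgroupIn ℚ, ρ σ = 1)
    (θ : A →+* k) (t : ℕ → A) (ht : ∀ p : ℕ, p.Prime → p ∉ S → θ (t p) = abar p)
    (hES : ∀ p : ℕ, p.Prime → p ∉ S → ∀ B : ValuationSubring Qb, B.LiesOverPrime p →
      ∀ σ : GQ, B.IsFrobeniusAt σ p →
        ∃ b : A, θ b = ((δ σ : kˣ) : k) ∧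
          ρ σ * ρ σ - t p • ρ σ + b • (1 : Module.End A V) = 0) :
    ∃ R : QuadRep k S abar δ, Nontrivial R.W := by
  refine ⟨{ W := EigSpace θ V
            ρ := eigRep ρ θ
            finiteLevel := ?_
            unram := ?_
            frob := ?_ }, eigSpace_nontrivial θ⟩
  · obtain ⟨L, hL, h⟩ := hfin
    exact ⟨L, hL, fun σ hσ => eigRep_eq_one ρ θ (h σ hσ)⟩
  · intro p hp hpS B hB σ hσ
    exact eigRep_eq_one ρ θ (hunr p hp hpS B hB σ hσ)
  · intro p hp hpS B hB σ hσ
    obtain ⟨b, hb, hrel⟩ := hES p hp hpS B hB σ hσ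
    have := eigRep_quad ρ θ (t p) b hrel
    rwa [ht p hp hpS, hb] at this

end Quad

end Fermat.Agent.S48lib.X1.Gal
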