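import Fermat.Agent.S48lib.Iface.W2
import Fermat.Agent.S48lib.X1.Gal.Main
import Fermat.Agent.S48lib.X1.Gal.DetChar
import Fermat.Agent.S48lib.X1.Gal.Support

/-!
S48lib / X1 / Gal / Glue (helper9, block P8).

`HeckeGalModule M ℓ` : what the geometric blocks (P3 Kummer, P4 Hecke on `J`, P6 reduction,
P7 Eichler--Shimura) have to deliver about `J_1(M)[ℓ]`: a finite module `V` over a finite
commutative ring `A` (the Hecke algebra, acting faithfully), with a commuting Galois action of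
finite level, unramified outside `M ℓ`, and the Eichler--Shimura relation
`Frob_p² - T_p Frob_p + p ⟨p⟩ = 0` for `p ∤ M ℓ`.

`residual_of_heckeGalModule` : from this and an eigen-character `θ : A →+* k`
(`T_p ↦ φ(b_p)`, `⟨d⟩ ↦ φ(χ(d))`; its existence is the support statement (Supp)) the conclusion
of `Iface.W2Gal`.
-/

set_option autoImplicit false
set_option linter.style.haveILetI false
set_option linter.unusedSectionVars false

noncomputable section

namespace Fermat.Agent.S48lib.X1.Gal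

open Polynomial Fermat.Agent.S48lib.Iface

/-- `ℚ̄` -/
local notation "Qb" => AlgebraicClosure ℚ
/-- `G_ℚ` -/
local notation "GQ" => (AlgebraicClosure ℚ ≃ₐ[ℚ] AlgebraicClosure ℚ)
/-- `ℤ̄ ⊆ ℂ` -/
local notation "Zb" => integralClosure ℤ ℂ

/-- The Hecke--Galois module `J_1(M)[ℓ]`, abstractly. -/
structure HeckeGalModule (M ℓ : ℕ) where
  /-- the Hecke algebra -/
  A : Type
  /-- the module -/
  V : Type
  [instCommRing : CommRing A]
  [instFiniteA : Finite A]
  [instAddCommGroup : AddCommGroup V]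
  [instModule : Module A V]
  [instFiniteV : Finite V]
  [instFaithful : FaithfulSMul A V]
  /-- the Galois action -/
  ρ : GQ →* Module.End A V
  finiteLevel : GaloisFactorsThroughFiniteLevel ρ
  unram : ∀ p : ℕ, p.Prime → ¬ p ∣ M * ℓ → ∀ B : ValuationSubring Qb, B.LiesOverPrime p →
    ∀ σ ∈ B.inertiaSubgroupIn ℚ, ρ σ = 1
  /-- the Hecke operators `T_p` -/
  T : ℕ → A
  /-- the diamond operators -/
  diam : (ZMod M)ˣ → A
  es : ∀ p : ℕ, p.Prime → ¬ p ∣ M * ℓ → ∀ d : (ZMod M)ˣ, (d : ZMod M) = (p : ZMod M) →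
    ∀ B : ValuationSubring Qb, B.LiesOverPrime p → ∀ σ : GQ, B.IsFrobeniusAt σ p →
      ρ σ * ρ σ - T p • ρ σ + ((p : A) * diam d) • (1 : Module.End A V) = 0

attribute [instance] HeckeGalModule.instCommRing HeckeGalModule.instFiniteA
  HeckeGalModule.instAddCommGroup HeckeGalModule.instModule HeckeGalModule.instFiniteV
  HeckeGalModule.instFaithful

/-- **P8, final form.**  From the Hecke--Galois module `J_1(M)[ℓ]` and an eigen-character of its
Hecke algebra to the residual representation demanded by `Iface.W2Gal`. -/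
theorem residual_of_heckeGalModule {M ℓ : ℕ} [NeZero M] [Fact ℓ.Prime] (hℓ2 : ℓ ≠ 2)
    (H : HeckeGalModule M ℓ) (χ : DirichletCharacter ℂ M) (b c : ℕ → Zb)
    (hc : ∀ p : ℕ, p.Prime → ¬ p ∣ M → ((c p : Zb) : ℂ) = χ (p : ZMod M))
    (k : Type) [Field k] [IsAlgClosed k] [CharP k ℓ] (φ : Zb →+* k)
    (θ : H.A →+* k) (hθT : ∀ p : ℕ, p.Prime → ¬ p ∣ M * ℓ → θ (H.T p) = φ (b p))
    (hθd : ∀ d : (ZMod M)ˣ, θ (H.diam d) = φ (chiZb χ d)) :
    ∃ ρ : ResidualGaloisRep k, IsSemisimpleRep ρ ∧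
      (∀ p : ℕ, p.Prime → ¬ p ∣ M * ℓ → ρ.IsUnramifiedAt p) ∧
      ∀ p : ℕ, p.Prime → ¬ p ∣ M * ℓ →
        ∀ A : ValuationSubring Qb, A.LiesOverPrime p →
          ∀ σ : GQ, A.IsFrobeniusAt σ p →
            LinearMap.charpoly (ρ.ρ σ) =
              X ^ 2 - C (φ (b p)) * X + C ((p : k) * φ (c p)) := by
  have hℓ : ℓ.Prime := Fact.out
  have h2 : (2 : k) ≠ 0 := by
    intro h
    have h' : ((2 : ℕ) : k) = 0 := by exact_mod_cast h
    rw [CharP.cast_eq_zero_iff k ℓ] at h'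
    exact hℓ2 ((Nat.prime_dvd_prime_iff_eq hℓ Nat.prime_two).mp h')
  obtain ⟨R, hR⟩ := exists_quadRep_of_eigen (S := badSet M ℓ) (abar := fun p => φ (b p))
    (δ := detCharOf χ ℓ φ) H.ρ H.finiteLevel
    (fun p hp hpS B hB σ hσ => H.unram p hp (not_dvd_of_not_mem_badSet hp hpS) B hB σ hσ)
    θ H.T (fun p hp hpS => hθT p hp (not_dvd_of_not_mem_badSet hp hpS))
    (by
      intro p hp hpS B hB σ hσ
      have hd := not_dvd_of_not_mem_badSet hp hpS
      have hpM : ¬ p ∣ M := fun h => hd (Dvd.dvd.mul_right h ℓ)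
      set d : (ZMod M)ˣ := ZMod.unitOfCoprime p ((Nat.Prime.coprime_iff_not_dvd hp).mpr hpM)
        with hdef
      have hdp : (d : ZMod M) = (p : ZMod M) := ZMod.coe_unitOfCoprime p _
      refine ⟨(p : H.A) * H.diam d, ?_, H.es p hp hd d hdp B hB σ hσ⟩
      rw [map_mul, map_natCast, hθd,
        detCharOf_of_isFrobeniusAt χ ℓ φ hp hd hB hσ (chiZb χ d) (by rw [coe_chiZb, hdp])])
  haveI := hR
  obtain ⟨ρ', hss, hunr, hfrob⟩ := R.exists_residual h2 (detCharOf_finiteLevel χ ℓ φ)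
    (detCharOf_unramOutside χ ℓ φ)
  refine ⟨ρ', hss, fun p hp hd => hunr p hp (not_mem_badSet_of_not_dvd hd), ?_⟩
  intro p hp hd A hA σ hσ
  have hpM : ¬ p ∣ M := fun h => hd (Dvd.dvd.mul_right h ℓ)
  rw [hfrob p hp (not_mem_badSet_of_not_dvd hd) A hA σ hσ,
    detCharOf_of_isFrobeniusAt χ ℓ φ hp hd hA hσ (c p) (hc p hp hpM)]

end Fermat.Agent.S48lib.X1.Gal
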