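import Mathlib

/-!
S48lib / X1 / Gal / PowQuad (helper9, block P8).

Powers of an element killed by a quadratic polynomial.  In a `k`-algebra `E`, if
`X² - a X + d = 0` then, with `Y := a - X` (so `X Y = Y X = d`, `X + Y = a`) and the Lucas
sequence `s₀ = 2`, `s₁ = a`, `s_{j+2} = a s_{j+1} - d s_j`, one has `X^j + Y^j = s_j` and hence
`(X^j)² - s_j X^j + d^j = 0`.

Used to pass from "every FROBENIUS element satisfies a quadratic relation with constant term
`δ(Frob)`" to "EVERY element of the image does" (the weak Chebotarev theorem of S31lib only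
produces powers of Frobenius elements).
-/

set_option autoImplicit false

namespace Fermat.Agent.S48lib.X1.Gal

variable {k : Type*} [CommRing k] {E : Type*} [Ring E] [Algebra k E]

/-- The Lucas sequence `s₀ = 2`, `s₁ = a`, `s_{j+2} = a s_{j+1} - d s_j`. -/
def lucasS (a d : k) : ℕ → k
  | 0 => 2
  | 1 => a
  | (j + 2) => a * lucasS a d (j + 1) - d * lucasS a d j

@[simp] theorem lucasS_zero (a d : k) : lucasS a d 0 = 2 := rfl
@[simp] theorem lucasS_one (a d : k) : lucasS a d 1 = a := rfl
theorem lucasS_succ_succ (a d : k) (j : ℕ) :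
    lucasS a d (j + 2) = a * lucasS a d (j + 1) - d * lucasS a d j := rfl

/-- `X (a - X) = d` from the quadratic relation. -/
theorem mul_conj_of_quad {X : E} {a d : k} (hq : X * X - a • X + d • (1 : E) = 0) :
    X * (a • (1 : E) - X) = d • (1 : E) := by
  rw [mul_sub, mul_smul_comm, mul_one, ← sub_eq_zero, ← neg_eq_zero, ← hq]; abel

theorem conj_mul_of_quad {X : E} {a d : k} (hq : X * X - a • X + d • (1 : E) = 0) :
    (a • (1 : E) - X) * X = d • (1 : E) := by
  rw [sub_mul, smul_mul_assoc, one_mul, ← sub_eq_zero, ← neg_eq_zero, ← hq]; abel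

/-- `X^j + Y^j = s_j`. -/
theorem pow_add_conj_pow {X : E} {a d : k} (hq : X * X - a • X + d • (1 : E) = 0) :
    ∀ j : ℕ, X ^ j + (a • (1 : E) - X) ^ j = lucasS a d j • (1 : E) := by
  set Y : E := a • (1 : E) - X with hY
  have hXY : X * Y = d • (1 : E) := mul_conj_of_quad hq
  have hYX : Y * X = d • (1 : E) := conj_mul_of_quad hq
  have hsum : X + Y = a • (1 : E) := by rw [hY]; abel
  have hcomm : Commute X Y := by rw [Commute, SemiconjBy, hXY, hYX]
  intro j
  induction j using Nat.strong_induction_on with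
  | _ j ih =>
    match j with
    | 0 => simp only [pow_zero, lucasS_zero]; rw [← two_smul k (1 : E)]
    | 1 => simp only [pow_one, lucasS_one]; exact hsum
    | (j + 2) =>
      have h1 := ih (j + 1) (by omega)
      have h0 := ih j (by omega)
      -- `X^{j+2} + Y^{j+2} = (X + Y)(X^{j+1} + Y^{j+1}) - X Y (X^j + Y^j)`
      have key : X ^ (j + 2) + Y ^ (j + 2)
          = (X + Y) * (X ^ (j + 1) + Y ^ (j + 1)) - (X * Y) * (X ^ j + Y ^ j) := by
        have e1 : X * Y ^ (j + 1) = (X * Y) * Y ^ j := by rw [pow_succ', mul_assoc]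
        have e2 : Y * X ^ (j + 1) = (X * Y) * X ^ j := by
          rw [pow_succ', ← mul_assoc, hYX, hXY]
        rw [add_mul, mul_add, mul_add, mul_add, e1, e2, ← pow_succ', ← pow_succ']
        abel
      rw [key, h1, h0, hsum, hXY, lucasS_succ_succ]
      simp only [smul_mul_assoc, one_mul, smul_smul, sub_smul, mul_smul_comm, mul_one]
      rw [mul_comm (lucasS a d (j + 1)) a, mul_comm (lucasS a d j) d]

/-- **Powers satisfy the quadratic relation with `d^j`.** -/
theorem pow_quad {X : E} {a d : k} (hq : X * X - a • X + d • (1 : E) = 0) (j : ℕ) :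
    X ^ j * X ^ j - lucasS a d j • X ^ j + (d ^ j) • (1 : E) = 0 := by
  set Y : E := a • (1 : E) - X with hY
  have hXY : X * Y = d • (1 : E) := mul_conj_of_quad hq
  have hYX : Y * X = d • (1 : E) := conj_mul_of_quad hq
  have hcomm : Commute X Y := by rw [Commute, SemiconjBy, hXY, hYX]
  have hs := pow_add_conj_pow hq j
  have hprod : Y ^ j * X ^ j = (d ^ j) • (1 : E) := by
    rw [← (hcomm.symm).mul_pow, hYX, smul_pow, one_pow]
  -- `s_j X^j = X^j X^j + Y^j X^j`
  have : lucasS a d j • X ^ j = X ^ j * X ^ j + Y ^ j * X ^ j := by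
    rw [← add_mul, hs, smul_mul_assoc, one_mul]
  rw [this, hprod]; abel

end Fermat.Agent.S48lib.X1.Gal
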