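import Mathlib
import Fermat.Agent.TeamA.Burnside

/-!
S48lib / X1 / Gal / QuadDim (helper9, block P8).

**Quadratic relations bound the dimension.**  Let `k` be an algebraically closed field of
characteristic `≠ 2`, `W` a finite dimensional `k`-vector space, `ρ : G →* End_k W` a
representation without nontrivial stable subspaces, `δ : G →* kˣ` a character and `a : G → k` a
function such that every `g` satisfies the quadratic relation
`ρ(g)² - a(g) ρ(g) + δ(g) = 0`.  Then `dim W ≤ 2`.

This replaces "multiplicity one / the 2-dimensional eigen-piece" in the construction of the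
residual representations attached to eigenforms with nebentypus: any simple constituent of the
Hecke-eigen-piece of `J[ℓ] ⊗ k` has dimension at most `2`, because every element of the (finite)
image is a Frobenius element, hence killed by `X² - a_p X + p χ(p)`.

Proof.  By Burnside (`TeamA.Burnside.subalgebra_eq_top_of_irreducible`) the group algebra maps
onto `End W` (through `R`).  With `T : k[G] → k` the linear extension of `a`, the relations for
`g`, `h`, `g h` and the multiplicativity of `δ` give the bilinear identity
`R x R y + R y R x - T y • R x - T x • R y + T x T y = T (x y)`.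
If `dim W ≥ 3`, evaluate it at preimages of two orthogonal coordinate projections `E₁`, `E₂`:
on `e₃`, `e₁`, `e₂` this gives `T x = T y = 0`, and then `x = y` gives `2 E₁ = T(x²)`, whence
`2 = 0`.
-/

set_option autoImplicit false

open Module

namespace Fermat.Agent.S48lib.X1.Gal

section

variable {k : Type*} [Field k] {W : Type*} [AddCommGroup W] [Module k W]
  {G : Type*} [Group G]

/-- If `X² - a X + d = 0` and `X Xi = 1` then `d Xi = a - X`. -/
theorem smul_inv_of_quad {X Xi : Module.End k W} {a d : k} (hXi : X * Xi = 1)
    (hq : X * X - a • X + d • (1 : Module.End k W) = 0) :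
    d • Xi = a • (1 : Module.End k W) - X := by
  have h0 : (X * X - a • X + d • (1 : Module.End k W)) * Xi = 0 := by rw [hq, zero_mul]
  have h1 : (X * X - a • X + d • (1 : Module.End k W)) * Xi = X - a • (1 : Module.End k W) + d • Xi := by
    rw [add_mul, sub_mul, mul_assoc, hXi, mul_one, smul_mul_assoc, hXi, smul_mul_assoc, one_mul]
  rw [h1] at h0
  rw [eq_sub_iff_add_eq, ← sub_eq_zero, ← h0]; abel

/-- From the quadratic relations for `g`, `h` and `g h`: the basic bilinear identity on group
elements. -/
theorem quad_pair (ρ : G →* Module.End k W) (δ : G →* kˣ) (a : G → k)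
    (hq : ∀ g : G, ρ g * ρ g - a g • ρ g + ((δ g : kˣ) : k) • (1 : Module.End k W) = 0)
    (g h : G) :
    ρ g * ρ h + ρ h * ρ g - a h • ρ g - a g • ρ h + (a g * a h) • (1 : Module.End k W)
      = a (g * h) • (1 : Module.End k W) := by
  have hinv : ∀ x : G, ρ x * ρ x⁻¹ = 1 := fun x => by
    rw [← map_mul, mul_inv_cancel, map_one]
  have h1 := smul_inv_of_quad (hinv g) (hq g)
  have h2 := smul_inv_of_quad (hinv h) (hq h)
  have h3 := smul_inv_of_quad (hinv (g * h)) (hq (g * h))
  -- `(gh)⁻¹ = h⁻¹ g⁻¹` and `δ(gh) = δ(g) δ(h)`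
  have h4 : ((δ (g * h) : kˣ) : k) • ρ (g * h)⁻¹
      = (((δ h : kˣ) : k) • ρ h⁻¹) * (((δ g : kˣ) : k) • ρ g⁻¹) := by
    rw [mul_inv_rev, map_mul ρ, map_mul δ, Units.val_mul, smul_mul_smul_comm, mul_comm]
  rw [h3, h1, h2, map_mul ρ g h] at h4
  -- `a(gh) - XY = (a(h) - Y)(a(g) - X)`
  have h5 : (a h • (1 : Module.End k W) - ρ h) * (a g • (1 : Module.End k W) - ρ g)
      = (a g * a h) • (1 : Module.End k W) - a h • ρ g - a g • ρ h + ρ h * ρ g := by
    simp only [sub_mul, mul_sub, smul_mul_assoc, mul_smul_comm, one_mul, mul_one]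
    rw [smul_sub, smul_smul]; abel
  rw [h5] at h4
  rw [← sub_eq_zero] at h4 ⊢
  rw [← neg_eq_zero, ← h4]; abel

/-- The linear extension of `a : G → k` to the group algebra. -/
noncomputable def quadT (a : G → k) : MonoidAlgebra k G →ₗ[k] k :=
  (Finsupp.linearCombination k a) ∘ₗ (MonoidAlgebra.coeffLinearEquiv k).toLinearMap

omit [Group G] in
@[simp] theorem quadT_single (a : G → k) (g : G) (c : k) :
    quadT a (MonoidAlgebra.single g c) = c * a g := by
  simp [quadT]

/-- The algebra homomorphism `k[G] → End W` attached to `ρ`. -/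
noncomputable def quadR (ρ : G →* Module.End k W) : MonoidAlgebra k G →ₐ[k] Module.End k W :=
  MonoidAlgebra.lift k (Module.End k W) G ρ

@[simp] theorem quadR_single (ρ : G →* Module.End k W) (g : G) (c : k) :
    quadR ρ (MonoidAlgebra.single g c) = c • ρ g := by
  simp [quadR, MonoidAlgebra.lift_single]

/-- The bilinear identity on the group algebra. -/
theorem quad_bilin (ρ : G →* Module.End k W) (δ : G →* kˣ) (a : G → k)
    (hq : ∀ g : G, ρ g * ρ g - a g • ρ g + ((δ g : kˣ) : k) • (1 : Module.End k W) = 0)
    (x y : MonoidAlgebra k G) :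
    quadR ρ x * quadR ρ y + quadR ρ y * quadR ρ x - quadT a y • quadR ρ x - quadT a x • quadR ρ y
        + (quadT a x * quadT a y) • (1 : Module.End k W)
      = quadT a (x * y) • (1 : Module.End k W) := by
  induction x using MonoidAlgebra.induction_linear with
  | zero => simp
  | add x₁ x₂ h₁ h₂ =>
    have e : ∀ u₁ u₂ v : Module.End k W, ∀ t₁ t₂ s : k,
        (u₁ + u₂) * v + v * (u₁ + u₂) - s • (u₁ + u₂) - (t₁ + t₂) • v
          + ((t₁ + t₂) * s) • (1 : Module.End k W)
        = (u₁ * v + v * u₁ - s • u₁ - t₁ • v + (t₁ * s) • (1 : Module.End k W))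
          + (u₂ * v + v * u₂ - s • u₂ - t₂ • v + (t₂ * s) • (1 : Module.End k W)) := by
      intro u₁ u₂ v t₁ t₂ s
      simp only [add_mul, mul_add, smul_add, add_smul]; abel
    rw [map_add, map_add, e, h₁, h₂, add_mul, map_add, add_smul]
  | single g c =>
    induction y using MonoidAlgebra.induction_linear with
    | zero => simp
    | add y₁ y₂ h₁ h₂ =>
      have e : ∀ u v₁ v₂ : Module.End k W, ∀ t s₁ s₂ : k,
          u * (v₁ + v₂) + (v₁ + v₂) * u - (s₁ + s₂) • u - t • (v₁ + v₂)
            + (t * (s₁ + s₂)) • (1 : Module.End k W)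
          = (u * v₁ + v₁ * u - s₁ • u - t • v₁ + (t * s₁) • (1 : Module.End k W))
            + (u * v₂ + v₂ * u - s₂ • u - t • v₂ + (t * s₂) • (1 : Module.End k W)) := by
        intro u v₁ v₂ t s₁ s₂
        simp only [add_mul, mul_add, smul_add, add_smul]; abel
      rw [map_add, map_add, e, h₁, h₂, mul_add, map_add, add_smul]
    | single h d =>
      have hp := quad_pair ρ δ a hq g h
      rw [MonoidAlgebra.single_mul_single]
      simp only [quadR_single, quadT_single]
      have : (c • ρ g) * (d • ρ h) + (d • ρ h) * (c • ρ g) - (d * a h) • (c • ρ g)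
            - (c * a g) • (d • ρ h) + (c * a g * (d * a h)) • (1 : Module.End k W)
          = (c * d) • (ρ g * ρ h + ρ h * ρ g - a h • ρ g - a g • ρ h
              + (a g * a h) • (1 : Module.End k W)) := by
        simp only [smul_mul_assoc, mul_smul_comm, smul_smul, smul_add, smul_sub]
        congr 1
        · congr 1
          · congr 1
            · congr 1
              rw [mul_comm d c]
            · congr 1; ring
          · congr 1; ring
        · congr 1; ring
      rw [this, hp, smul_smul]

/-- Coordinate projection `x ↦ x_i b_i` of a basis. -/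
noncomputable def coordProj {ι : Type*} (b : Module.Basis ι k W) (i : ι) : Module.End k W :=
  (b.coord i).smulRight (b i)

theorem coordProj_apply_self {ι : Type*} (b : Module.Basis ι k W) (i : ι) :
    coordProj b i (b i) = b i := by
  simp [coordProj]

theorem coordProj_apply_of_ne {ι : Type*} (b : Module.Basis ι k W) {i j : ι} (h : j ≠ i) :
    coordProj b i (b j) = 0 := by
  simp only [coordProj, LinearMap.smulRight_apply, Module.Basis.coord_apply, Module.Basis.repr_self]
  classical
  rw [Finsupp.single_apply, if_neg h, zero_smul]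

/-- **Quadratic relations bound the dimension**: an irreducible representation over an
algebraically closed field of characteristic `≠ 2` all of whose elements satisfy
`ρ(g)² - a(g) ρ(g) + δ(g) = 0`, `δ` a character, has dimension at most `2`. -/
theorem finrank_le_two_of_quad [IsAlgClosed k] [FiniteDimensional k W] (h2 : (2 : k) ≠ 0)
    (ρ : G →* Module.End k W) (δ : G →* kˣ) (a : G → k)
    (hq : ∀ g : G, ρ g * ρ g - a g • ρ g + ((δ g : kˣ) : k) • (1 : Module.End k W) = 0)
    (hirr : ∀ U : Submodule k W, (∀ g : G, ∀ x ∈ U, ρ g x ∈ U) → U = ⊥ ∨ U = ⊤) :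
    finrank k W ≤ 2 := by
  by_contra hlt
  rw [not_le] at hlt
  have hpos : 0 < finrank k W := by omega
  have : Nontrivial W := Module.nontrivial_of_finrank_pos hpos
  -- Burnside: the group algebra maps onto `End W`
  have htop : (quadR ρ).range = ⊤ := by
    apply Fermat.Agent.TeamA.Burnside.subalgebra_eq_top_of_irreducible
    intro U hU
    apply hirr U
    intro g x hx
    have hmem : ρ g ∈ (quadR ρ).range := ⟨MonoidAlgebra.single g 1, by simp⟩
    exact hU _ hmem x hx
  have hsurj : ∀ E : Module.End k W, ∃ x, quadR ρ x = E := by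
    intro E
    have : E ∈ (quadR ρ).range := by rw [htop]; exact Algebra.mem_top
    exact this
  -- a basis with at least three vectors
  set b := Module.finBasis k W with hb
  let i₁ : Fin (finrank k W) := ⟨0, by omega⟩
  let i₂ : Fin (finrank k W) := ⟨1, by omega⟩
  let i₃ : Fin (finrank k W) := ⟨2, by omega⟩
  have h12 : i₁ ≠ i₂ := by simp [i₁, i₂, Fin.ext_iff]
  have h13 : i₁ ≠ i₃ := by simp [i₁, i₃, Fin.ext_iff]
  have h23 : i₂ ≠ i₃ := by simp [i₂, i₃, Fin.ext_iff]
  obtain ⟨x, hx⟩ := hsurj (coordProj b i₁)
  obtain ⟨y, hy⟩ := hsurj (coordProj b i₂)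
  have hxy := quad_bilin ρ δ a hq x y
  have hxx := quad_bilin ρ δ a hq x x
  rw [hx, hy] at hxy
  rw [hx] at hxx
  have hne : ∀ i, b i ≠ 0 := fun i => b.ne_zero i
  -- evaluate at `b i₃`
  have e3 := congrArg (fun f : Module.End k W => f (b i₃)) hxy
  simp only [LinearMap.add_apply, LinearMap.sub_apply, LinearMap.smul_apply, Module.End.mul_apply,
    Module.End.one_apply, coordProj_apply_of_ne b h13.symm, coordProj_apply_of_ne b h23.symm,
    map_zero, smul_zero, sub_zero, zero_add, add_zero] at e3
  have hT3 : quadT a x * quadT a y = quadT a (x * y) := by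
    have := sub_eq_zero.mpr e3
    rw [← sub_smul] at this
    rcases smul_eq_zero.mp this with h | h
    · exact sub_eq_zero.mp h
    · exact absurd h (hne _)
  -- evaluate at `b i₁`
  have e1 := congrArg (fun f : Module.End k W => f (b i₁)) hxy
  simp only [LinearMap.add_apply, LinearMap.sub_apply, LinearMap.smul_apply, Module.End.mul_apply,
    Module.End.one_apply, coordProj_apply_self, coordProj_apply_of_ne b h12,
    map_zero, smul_zero, sub_zero, zero_add, add_zero] at e1
  have hTy : quadT a y = 0 := by
    rw [← hT3] at e1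
    have : (-(quadT a y)) • b i₁ = 0 := by
      have h := sub_eq_zero.mpr e1
      rw [neg_smul]
      rw [← h]; abel
    rcases smul_eq_zero.mp this with h | h
    · exact neg_eq_zero.mp h
    · exact absurd h (hne _)
  -- evaluate at `b i₂`
  have e2 := congrArg (fun f : Module.End k W => f (b i₂)) hxy
  simp only [LinearMap.add_apply, LinearMap.sub_apply, LinearMap.smul_apply, Module.End.mul_apply,
    Module.End.one_apply, coordProj_apply_self, coordProj_apply_of_ne b h12.symm,
    map_zero, smul_zero, sub_zero, zero_add, add_zero] at e2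
  have hTx : quadT a x = 0 := by
    rw [← hT3] at e2
    have : (-(quadT a x)) • b i₂ = 0 := by
      have h := sub_eq_zero.mpr e2
      rw [neg_smul]
      rw [← h]; abel
    rcases smul_eq_zero.mp this with h | h
    · exact neg_eq_zero.mp h
    · exact absurd h (hne _)
  -- `x = y`: evaluate at `b i₂`, then at `b i₁`
  have f2 := congrArg (fun f : Module.End k W => f (b i₂)) hxx
  simp only [LinearMap.add_apply, LinearMap.sub_apply, LinearMap.smul_apply, Module.End.mul_apply,
    Module.End.one_apply, coordProj_apply_of_ne b h12.symm, hTx,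
    map_zero, smul_zero, sub_zero, zero_add, add_zero, zero_smul, mul_zero] at f2
  have hTxx : quadT a (x * x) = 0 := by
    rcases smul_eq_zero.mp f2.symm with h | h
    · exact h
    · exact absurd h (hne _)
  have f1 := congrArg (fun f : Module.End k W => f (b i₁)) hxx
  simp only [LinearMap.add_apply, LinearMap.sub_apply, LinearMap.smul_apply, Module.End.mul_apply,
    Module.End.one_apply, coordProj_apply_self, hTx, hTxx,
    smul_zero, sub_zero, zero_add, add_zero, zero_smul, mul_zero] at f1
  have : (2 : k) • b i₁ = 0 := by rw [two_smul]; exact f1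
  rcases smul_eq_zero.mp this with h | h
  · exact h2 h
  · exact hne _ h

end

end Fermat.Agent.S48lib.X1.Gal
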